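import Mathlib
import Fermat.Agent.LT.T3.R.Spec
import Fermat.Agent.LT.T7.H298.MatchQSpec
import Fermat.Agent.LT.T7.H732.SupplyQRamGeo
import Fermat.Agent.LT.T7.H893.SupplyConstrSpec

/-!
# Row LT, tower T7, node T7.L2Q.1.H2 `H732.ConstrQRC732` (quadratic step `F = ℚ(√-3)` over `ℚ`):
# FIFTH CUT over `ℚ` -- Spec (helper801, registry row 2609; live 2nd owner of row 2465)

OFF-MAIN.  Definitions and frozen Props only (the proved tops are `SupplyQConstrTop.lean`).  No
hole, nothing assumed.  ADDITIVE (new names only, all suffixed `801`, namespace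
`Fermat.Agent.LT.T7.CQ801`).  MIRROR of the fifth cut of the cubic step,
`T7/H893/SupplyConstrSpec.lean` (helper893, sha256 feb0f69771ab), on the first cut of the
matching theorem over `ℚ`, `T7/H298/MatchQSpec.lean` (helper298, sha256 53f6570a: `pureQ298`,
`LocHypQ298`, `IsMatchConstQ298`, `GlobMatchQC298`), and on the nodes of record of helper732
(`T7/H732/SupplyQRamGeo.lean` 406b11bf: `ConstrQRC732`, `GlobQC732`).  The local vocabulary of
helper893 (`unitFn893`, `iwFn893`, `dblFn893`, `IsSphFn893`, `SphOut893`, `IsLevelOf893`) is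
USED AS IT IS (`K = ℚ`, `K' = F`, `ℓ = 2`).

    globMatchQb_of801  : (the closed leaves of the first cut of helper298) → CutIntQCb801 F
                           → GlobMatchQCb801 F
    exists_goodKapQ801 : GlobMatchQCb801 F → ∃ κ, (κ nowhere zero) ∧ GoodKapQ801 κ
    globQC_of801       : GoodKapQ801 κ → AvgMatchQC801 F → H732.GlobQC732 F (MtQ801 κ)
    constrQRC_of801    : BaseQC801 P F → ProdMtQC801 F κ → H732.ConstrQRC732 P F (MtQ801 κ)
    nodesQ_of_fifth801 : GlobMatchQCb801 F → AvgMatchQC801 F → BaseQC801 P F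
                           → (∀ κ nowhere zero, ProdMtQC801 F κ)
                           → ∃ Mt, H732.GlobQC732 F Mt ∧ H732.ConstrQRC732 P F Mt

## 0. THE SPLIT CLAUSE: ONE enumeration (mirror of the v2 of helper893, audit of helper248)

`MQ298.LocHypQ298.split` (as `H305.LocHyp305.split`) asks `f₀ v = φ₀ (w 0) * φ₀ (w 1)` for
EVERY enumeration of the two places over a split `v`, i.e. for BOTH orders of the product.  At
a BAD split place the components upstairs of the members are the double coset functions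
`1_{U₀ g_w U₀}` of the bad element `g`, `g` is arbitrary at the two places, and the Hecke
algebra of level `U(ϖ^m)`, `m ≥ 1`, is not commutative (`1_{aU} * 1_{bU} = 1_{abU}` for
`a, b ∈ GL₂(ℤ_p)`): NO `f₀ v` satisfies the clause, so `H732.ConstrQRC732 P F Mt` is FALSE for
every relation `Mt` of locally matched (averages of) pure tensors in the sense of `LocHypQ298`
as soon as `S ∖ {u}` contains a prime which splits in `F` (audit of helper248, pass 6, for the
cubic step; fix of helper893: `H893.LocHyp893`, `SupplyConstrSpec2.lean`).  So: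

* `LocHypQb801` = `LocHypQ298` with the split clause for SOME enumeration (`T6.SplitMatchC`
  needs no more); all other clauses VERBATIM.
* `CutIntQCb801`, `IsMatchConstQb801`, `GlobMatchQCb801` = the nodes `CutIntQC298`,
  `IsMatchConstQ298`, `GlobMatchQC298` of helper298 for `LocHypQb801`; the top of the first cut
  is proved again VERBATIM (`globMatchQb_of801`: the proof of helper298 does not look at the
  local hypotheses).  The second cut of helper298 (`MatchQCut.lean`) has to take the enumeration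
  from the hypothesis instead of constructing one.

## 1. Why a new relation of record

The relation `MQ298.MtQ298` (helper298) consists of PURE TENSORS.  The families of the supply
are NOT pure tensors (header of helper893's fifth cut): the Eisenstein-killing functions of
the stations T3.18M / T3.18R are finite sums of pure tensors, the `♮`-projector is an average.
So the relation of record of the construction is the closure under AVERAGES over a compact
parameter space with a finite measure: `MtQ801 κ` (finite sums = finite discrete space).  The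
three functions `φ'`, `f w0`, `f w1` are averaged over THE SAME parameter space, with THE SAME
finite components downstairs for the two weights (only the components at the real place
differ: `F0` of weight `0`, `F1` of weight `-1`).

* **`AvgMatchQC801 F`** (LEAF, analysis; mirror of `H893.AvgMatchC893`): `T7.IsGlobMatch` (the
  member upstairs against the SUM of the two members downstairs) is closed under averages.

## 2. The cut of the construction

* **`BaseQC801 P F`** (NODE; T3.18M over `F` + T3.18R over `ℚ` + T6 + `♮`): a level `𝔫`, Haar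
  measures `μr` of `GL₂(ℝ)`, `μc` of `GL₂(ℂ)`, and for EVERY pair of constants `c ≠ 0`, `a ≠ 0`
  pre-data `E` of level `𝔫` with the operator properties (`H732.IsL2QPreOp732`), the supports
  (`H732.IsL2QPreSupp732`) and the LOCAL SHAPE `IsDecompQ801 μr μc c a B g E`.
* **`ProdMtQC801 F κ`** (NODE; the calculus of pure tensors): for the level and the Haar
  measures there are constants `c ≠ 0`, `a ≠ 0` such that for all pre-data of this level with
  the local shape for `(c, a)` the members `(up, down w0, down w1)` are in the relation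
  `MtQ801 κ`.

## 3. THE ARCHIMEDEAN CLAUSE (the only point where the mirror is NOT mechanical)

Cubic step: the infinite places split, the clause at infinity of `H305.LocHyp305` is "`F v` is
the convolution product of the `Φ w`", and products of matched pairs are matched because the
bi-`U(2)`-invariant functions commute.  Quadratic step: the real place does not split,
`T6.IsArchMatch` is a GEOMETRIC relation (orbital integrals), and it is NOT formally
multiplicative.  It is multiplicative through the ABEL TRANSFORMS (`N`-integrals), which is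
also the form in which the stations T3.18M / T3.18R build the components
(`AS.HasAbelN`, `R.HasAbelNR`; wiring `T3.H830.archWire830` of helper830: there is `c₀ > 0`,
depending on the Haar measures only, such that
`HasAbelN Φ β' ∧ HasAbelNR F0 (c₀ β'(·/2)) ∧ HasAbelNR F1 (c₀ β'(·/2)) ⇒ IsArchMatch μr μc Φ
(F0 + F1)`).  So the local shape at infinity is the ABEL RELATION WITH A CONSTANT `c`
(`ArchOkQ801 c`), NOT `IsArchMatch`:

    HasAbelN (Φ w) β',  HasAbelNR F0 (halfQ801 c β'),  HasAbelNR F1 (halfQ801 c β'),  β' a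
    symmetric bump;   halfQ801 c β' (x₁, x₂) = c β'(x₁/2, x₂/2)  (the same term as `half830`).

The `N`-integral of a convolution product is a constant (depending on the Haar measure) times
the convolution product of the `N`-integrals, and
`(halfQ c β₁) ⋆ (halfQ c β₂) = 4 c² halfQ 1 (β₁ ⋆ β₂)`; the mixed products `F0 ⋆ G1`, `F1 ⋆ G0`
vanish (different weights).  So the product of a pair with constant `c` and a pair with
constant `c` is a pair with constant `4 c² K_r / K_c`, and the calculus node chooses `c` and the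
constant `a` of `f₂` such that the product has the constant `c₀` of `archWire830`.  The base
node gives the pre-data FOR EVERY `(c, a)` (`R.AbelRealC`: every symmetric bump is an
`N`-integral in the weights `0, ±1`; `half_symBump830`).

FALSITY CHECKS (helper801).  (a) `IsArchMatch` is NOT part of the shape: for `c ≠ c₀` a pair
with the Abel relation `c` is not matched, and the shape with `IsArchMatch` would be empty for
the constants which the calculus needs.  (b) The finite clauses of the partner at the bad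
places are those of `LocHypQb801` for the set `T₀ ∖ {u}`; they are stated as
"`LocHypQb801` holds with SOME archimedean components" (`Φd = F0d = F1d = 0` is admissible: the
zero functions are test functions and are matched), so no clause is restated.  (c) The
ramified prime `3` is in `S` (`L2Q.H60.IsRamQ60`), so `UnramOut305 T₀` can be proved in the
calculus node.  (d) The weights: `QWt.w0 ↦` trivial type / weight `0`, `QWt.w1 ↦ wtOne` /
weight `-1` in the convention of `T6.wtChar` (`L2Q.QWt.wt`), as in `LocHypQ298`.  (e) The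
constants `c`, `a` are complex and non-zero; `c = c₀ > 0` is admissible.
-/

set_option autoImplicit false

open AutomorphicForm IsDedekindDomain NumberField MeasureTheory
open scoped ComplexConjugate

noncomputable section

namespace Fermat.Agent.LT.T7.CQ801

open Fermat.Agent.LT.H556 Fermat.Agent.LT.H556.A0 Fermat.Agent.LT.T7 Fermat.Agent.LT.T7.H305
  Fermat.Agent.LT.T7.L2Q Fermat.Agent.LT.T7.H893 Fermat.Agent.LT.T7.H962
  Fermat.Agent.LT.T7.H732 Fermat.Agent.LT.T7.MQ298

attribute [local instance] Fermat.Agent.LT.T5.instMeasurableSpaceG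

/-! ## 0. The local hypotheses with the split clause for ONE enumeration; the matching nodes -/

section Hyp

variable {F : Type} [Field F] [NumberField F]

/-- **THE LOCAL HYPOTHESES over `ℚ`, v2.**  The clauses `inv_up`, `inv_down`, `arch_up`,
`arch_down0`, `arch_down1`, `inert`, `arch` are those of `MQ298.LocHypQ298` (verbatim).
`split`: at a place `v ∈ T` with at least two places over it there is ONE enumeration
`w 0, w 1` of the places over `v` with `w j = σ(w (j+1))` and identifications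
`i j : ℚ_v ≃ F_{w j}` such that the levels agree and `f₀ v = φ₀ (w 0) * φ₀ (w 1)` (hypothesis of
`T6.SplitMatchC`). -/
structure LocHypQb801 (D : CompData ℚ F) (μr : @Measure (GL (Fin 2) ℝ) (borel _))
    (μc : @Measure (GL (Fin 2) ℂ) (borel _))
    (T : Finset (HeightOneSpectrum (𝓞 ℚ)))
    (n : HeightOneSpectrum (𝓞 F) → ℕ) (m : HeightOneSpectrum (𝓞 ℚ) → ℕ)
    (φ₀ : ∀ w : HeightOneSpectrum (𝓞 F), GL (Fin 2) (w.adicCompletion F) → ℂ)
    (Φ : InfinitePlace F → GL (Fin 2) ℂ → ℂ)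
    (f₀ : ∀ v : HeightOneSpectrum (𝓞 ℚ), GL (Fin 2) (v.adicCompletion ℚ) → ℂ)
    (F0 F1 : GL (Fin 2) ℝ → ℂ) : Prop where
  inv_up : ∀ v ∈ T, ∀ w : HeightOneSpectrum (𝓞 F), PlaceOver ℚ F v w →
    T6.IsBiInv (T6.InU (n w)) (φ₀ w) ∧ T6.HasFinSupp (T6.InU (n w)) (φ₀ w)
  inv_down : ∀ v ∈ T, T6.IsBiInv (T6.InU (m v)) (f₀ v) ∧ T6.HasFinSupp (T6.InU (m v)) (f₀ v)
  arch_up : ∀ w : InfinitePlace F, T6.IsArchTestC (Φ w)
  arch_down0 : T6.IsArchTestR 0 F0
  arch_down1 : T6.IsArchTestR (-1) F1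
  inert : ∀ v ∈ T, ∀ w : HeightOneSpectrum (𝓞 F), PlaceOver ℚ F v w →
    (∀ w' : HeightOneSpectrum (𝓞 F), PlaceOver ℚ F v w' → w' = w) →
    ∀ (e : ℕ) (i : v.adicCompletion ℚ →+* w.adicCompletion F)
      (sw : w.adicCompletion F ≃+* w.adicCompletion F),
      (∀ x : ℚ, i (algebraMap ℚ (v.adicCompletion ℚ) x)
        = algebraMap F (w.adicCompletion F) (algebraMap ℚ F x)) →
      (∀ y : F, sw (algebraMap F (w.adicCompletion F) y)
        = algebraMap F (w.adicCompletion F) (D.s.σ y)) →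
      T6.IsLocalExt (v.adicCompletion ℚ) (w.adicCompletion F) D.l e i sw →
      (∀ (δ : GL (Fin 2) (w.adicCompletion F)) (γ : GL (Fin 2) (v.adicCompletion ℚ))
          (c c' : ℂ), T6.IsReg γ →
          IsConj (T6.twNorm sw D.l δ) (Matrix.GeneralLinearGroup.map i γ) →
          T6.IsTwOrbSum sw (n w) (φ₀ w) δ c → T6.IsOrbSum (m v) (f₀ v) γ c' → c = c') ∧
        ∀ (γ : GL (Fin 2) (v.adicCompletion ℚ)) (c' : ℂ), T6.IsReg γ →
          ¬ T6.IsNormFrom D.l i sw γ → T6.IsOrbSum (m v) (f₀ v) γ c' → c' = 0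
  split : ∀ v ∈ T, (∃ w₁ w₂ : HeightOneSpectrum (𝓞 F),
      PlaceOver ℚ F v w₁ ∧ PlaceOver ℚ F v w₂ ∧ w₁ ≠ w₂) →
    ∃ (w : ℕ → HeightOneSpectrum (𝓞 F))
      (i : ∀ j : ℕ, v.adicCompletion ℚ ≃+* (w j).adicCompletion F),
      (∀ j : ℕ, PlaceOver ℚ F v (w j)) ∧ (∀ j : ℕ, T5.PlaceRel D.s (w (j + 1)) (w j)) ∧
      (∀ j : ℕ, 0 < j → j < D.l → w j ≠ w 0) ∧
      (∀ (j : ℕ) (x : ℚ), i j (algebraMap ℚ (v.adicCompletion ℚ) x)
        = algebraMap F ((w j).adicCompletion F) (algebraMap ℚ F x)) ∧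
      (∀ (j : ℕ) (x : v.adicCompletion ℚ), Valued.v (i j x) = Valued.v x) ∧
      (∀ j : ℕ, n (w j) = m v) ∧
        T6.IsConvProd (T6.InU (m v)) D.l
          (fun j g => φ₀ (w j)
            (Matrix.GeneralLinearGroup.map ((i j : v.adicCompletion ℚ ≃+* _) :
              v.adicCompletion ℚ →+* (w j).adicCompletion F) g))
          (f₀ v)
  arch : ∀ w : InfinitePlace F, T6.IsArchMatch μr μc (Φ w) (fun g => F0 g + F1 g)

variable (F)

/-- **NODE Q2.7, v2 = CUT-INT over `ℚ`**: `MQ298.CutIntQC298` (helper298) with `LocHypQb801` in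
place of `LocHypQ298`; everything else VERBATIM. -/
def CutIntQCb801 : Prop :=
  IsImagQuad F →
    ∀ D : CompData ℚ F, IsCompData D → IsCycExt ℚ F D.l → D.l = 2 →
    ∀ ι : Adl ℚ →+* Adl F, IsAdeleBase305 D.s D.l ι →
    ∀ μr : @Measure (GL (Fin 2) ℝ) (borel _), @Measure.IsHaarMeasure _ _ _ (borel _) μr →
    ∀ μc : @Measure (GL (Fin 2) ℂ) (borel _), @Measure.IsHaarMeasure _ _ _ (borel _) μc →
    ∀ (T₀ : Finset (HeightOneSpectrum (𝓞 ℚ))), UnramOut305 (K' := F) T₀ →
    ∀ (n : HeightOneSpectrum (𝓞 F) → ℕ) (m : HeightOneSpectrum (𝓞 ℚ) → ℕ),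
      IsLevelAt305 T₀ n m →
    ∃ κ : ℂ, κ ≠ 0 ∧
      ∀ (T : Finset (HeightOneSpectrum (𝓞 ℚ))) (T' : Finset (HeightOneSpectrum (𝓞 F))),
        T₀ ⊆ T → IsOver305 T T' →
      ∀ (φ₀ : ∀ w : HeightOneSpectrum (𝓞 F), GL (Fin 2) (w.adicCompletion F) → ℂ)
        (Φ : InfinitePlace F → GL (Fin 2) ℂ → ℂ)
        (f₀ : ∀ v : HeightOneSpectrum (𝓞 ℚ), GL (Fin 2) (v.adicCompletion ℚ) → ℂ)
        (F0 F1 : GL (Fin 2) ℝ → ℂ),
        LocHypQb801 D μr μc T n m φ₀ Φ f₀ F0 F1 →
        (∀ (δ : GL (Fin 2) F) (γ : GL (Fin 2) ℚ), T6.IsEll γ →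
          D.s.normUpTo D.l δ = Matrix.GeneralLinearGroup.map (algebraMap ℚ F) γ →
          ∀ (μT : @Measure (tA305 (T5.AdelicAut.id ℚ) γ) (borel _))
            (μT' : @Measure (tA305 D.s δ) (borel _)),
            @Measure.IsHaarMeasure _ _ _ (borel _) μT →
            @Measure.IsHaarMeasure _ _ _ (borel _) μT' →
            IsTorLinked305 ι D.s δ γ μT μT' →
            ∃ β' : G F → ℝ, ∃ β : G ℚ → ℝ,
              IsCutOn305 D.s δ μT' β'
                {x | T5.twTerm D.R'.r D.s (pure305 T' φ₀ Φ) δ x ≠ 0} ∧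
              IsCutOn305 (T5.AdelicAut.id ℚ) γ μT β
                {x | T5.twTerm D.R.r (T5.AdelicAut.id ℚ)
                  (pureQ298 T f₀ (fun g => F0 g + F1 g)) γ x ≠ 0} ∧
              cutInt305 D.R'.r D.s (pure305 T' φ₀ Φ) δ D.R'.μ β'
                = κ * cutInt305 D.R.r (T5.AdelicAut.id ℚ)
                    (pureQ298 T f₀ (fun g => F0 g + F1 g)) γ D.R.μ β) ∧
        ∀ γ : GL (Fin 2) ℚ, T6.IsEll γ → (¬ ∃ δ : GL (Fin 2) F, IsNormOf D δ γ) →
          ∀ μT : @Measure (tA305 (T5.AdelicAut.id ℚ) γ) (borel _),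
            @Measure.IsHaarMeasure _ _ _ (borel _) μT →
            ∃ β : G ℚ → ℝ,
              IsCutOn305 (T5.AdelicAut.id ℚ) γ μT β
                {x | T5.twTerm D.R.r (T5.AdelicAut.id ℚ)
                  (pureQ298 T f₀ (fun g => F0 g + F1 g)) γ x ≠ 0} ∧
              cutInt305 D.R.r (T5.AdelicAut.id ℚ)
                (pureQ298 T f₀ (fun g => F0 g + F1 g)) γ D.R.μ β = 0

/-- **`κ` IS A MATCHING CONSTANT, v2**: `MQ298.IsMatchConstQ298` with `LocHypQb801` in place of
`LocHypQ298`. -/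
def IsMatchConstQb801 (D : CompData ℚ F) (μr : @Measure (GL (Fin 2) ℝ) (borel _))
    (μc : @Measure (GL (Fin 2) ℂ) (borel _)) (T₀ : Finset (HeightOneSpectrum (𝓞 ℚ)))
    (n : HeightOneSpectrum (𝓞 F) → ℕ) (m : HeightOneSpectrum (𝓞 ℚ) → ℕ) (κ : ℂ) : Prop :=
  ∀ (T : Finset (HeightOneSpectrum (𝓞 ℚ))) (T' : Finset (HeightOneSpectrum (𝓞 F))),
    T₀ ⊆ T → IsOver305 T T' →
  ∀ (φ₀ : ∀ w : HeightOneSpectrum (𝓞 F), GL (Fin 2) (w.adicCompletion F) → ℂ)
    (Φ : InfinitePlace F → GL (Fin 2) ℂ → ℂ)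
    (f₀ : ∀ v : HeightOneSpectrum (𝓞 ℚ), GL (Fin 2) (v.adicCompletion ℚ) → ℂ)
    (F0 F1 : GL (Fin 2) ℝ → ℂ),
    LocHypQb801 D μr μc T n m φ₀ Φ f₀ F0 F1 →
    ∀ (φ' : G F → ℂ) (f0 f1 : G ℚ → ℂ),
      (∀ h : G F, φ' h = pure305 T' φ₀ Φ h) →
      (∀ h : G ℚ, f0 h = κ * pureQ298 T f₀ F0 h) →
      (∀ h : G ℚ, f1 h = κ * pureQ298 T f₀ F1 h) →
      T5.IsTestFn D.𝔑 T5.trivType φ' →
      Continuous f0 → HasCompactSupport f0 → Continuous f1 → HasCompactSupport f1 →
      IsGlobMatch D φ' (fun x => f0 x + f1 x)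

/-- **THE NODE Q2, v2 = GLOBAL MATCHING FROM LOCAL MATCHING over `ℚ`**
(`MQ298.GlobMatchQC298` for `LocHypQb801`: ONE enumeration at the split places). -/
def GlobMatchQCb801 : Prop :=
  IsImagQuad F →
    ∀ D : CompData ℚ F, IsCompData D → IsCycExt ℚ F D.l → D.l = 2 →
    ∀ μr : @Measure (GL (Fin 2) ℝ) (borel _), @Measure.IsHaarMeasure _ _ _ (borel _) μr →
    ∀ μc : @Measure (GL (Fin 2) ℂ) (borel _), @Measure.IsHaarMeasure _ _ _ (borel _) μc →
    ∀ (T₀ : Finset (HeightOneSpectrum (𝓞 ℚ))), UnramOut305 (K' := F) T₀ →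
    ∀ (n : HeightOneSpectrum (𝓞 F) → ℕ) (m : HeightOneSpectrum (𝓞 ℚ) → ℕ),
      IsLevelAt305 T₀ n m →
    ∃ κ : ℂ, κ ≠ 0 ∧ IsMatchConstQb801 F D μr μc T₀ n m κ

end Hyp

/-! ## 1. Averages of pure tensors over `ℚ`, the relation of record -/

section Avg

variable (F : Type) [Field F] [NumberField F]

/-- The type of the local conditions on the components of a triple of pure tensors. -/
abbrev LocCondQ801 : Type :=
  Finset (HeightOneSpectrum (𝓞 ℚ)) →
    (∀ w : HeightOneSpectrum (𝓞 F), GL (Fin 2) (w.adicCompletion F) → ℂ) →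
    (InfinitePlace F → GL (Fin 2) ℂ → ℂ) →
    (∀ v : HeightOneSpectrum (𝓞 ℚ), GL (Fin 2) (v.adicCompletion ℚ) → ℂ) →
    (GL (Fin 2) ℝ → ℂ) → (GL (Fin 2) ℝ → ℂ) → Prop

/-- The type of the constants of the matching theorem over `ℚ`. -/
abbrev KapFnQ801 : Type :=
  CompData ℚ F → @Measure (GL (Fin 2) ℝ) (borel _) → @Measure (GL (Fin 2) ℂ) (borel _) →
    Finset (HeightOneSpectrum (𝓞 ℚ)) →
    (HeightOneSpectrum (𝓞 F) → ℕ) → (HeightOneSpectrum (𝓞 ℚ) → ℕ) → ℂ

variable {F}

/-- **AVERAGE OF PURE TENSORS over `ℚ`.**  `φ'` (over `F`) and `f0`, `f1` (over `ℚ`, types `w0`,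
`w1`) are the integrals over a compact (Hausdorff, second countable) parameter space `Ω` with a
finite measure `ν` of pure tensors `pure305 (T' a) …`, resp. `c · pureQ298 (T a) (f₀ a) (F0 a)`,
`c · pureQ298 (T a) (f₀ a) (F1 a)` (THE SAME finite components for the two weights), whose
components satisfy the local condition `L` for every parameter; every member is a test function
of the level (and of its type), the members are jointly continuous and supported in one compact
set. -/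
def IsAvgPureQ801 (𝔑 : Ideal (𝓞 F)) (𝔫 : Ideal (𝓞 ℚ)) (T₀ : Finset (HeightOneSpectrum (𝓞 ℚ)))
    (L : LocCondQ801 F) (c : ℂ) (φ' : G F → ℂ) (f0 f1 : G ℚ → ℂ) : Prop :=
  ∃ (Ω : Type) (_ : TopologicalSpace Ω) (_ : CompactSpace Ω) (_ : T2Space Ω)
    (_ : SecondCountableTopology Ω) (_ : MeasurableSpace Ω)
    (_ : BorelSpace Ω) (ν : Measure Ω) (_ : IsFiniteMeasure ν)
    (T : Ω → Finset (HeightOneSpectrum (𝓞 ℚ))) (T' : Ω → Finset (HeightOneSpectrum (𝓞 F)))
    (φ₀ : Ω → ∀ w : HeightOneSpectrum (𝓞 F), GL (Fin 2) (w.adicCompletion F) → ℂ)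
    (Φ : Ω → InfinitePlace F → GL (Fin 2) ℂ → ℂ)
    (f₀ : Ω → ∀ v : HeightOneSpectrum (𝓞 ℚ), GL (Fin 2) (v.adicCompletion ℚ) → ℂ)
    (F0 F1 : Ω → GL (Fin 2) ℝ → ℂ),
    (∀ a : Ω, T₀ ⊆ T a ∧ IsOver305 (T a) (T' a) ∧
      L (T a) (φ₀ a) (Φ a) (f₀ a) (F0 a) (F1 a)) ∧
    (∀ a : Ω, T5.IsTestFn 𝔑 T5.trivType (pure305 (T' a) (φ₀ a) (Φ a))) ∧
    (∀ a : Ω, T5.IsTestFn 𝔫 QWt.w0.type (fun h => c * pureQ298 (T a) (f₀ a) (F0 a) h)) ∧
    (∀ a : Ω, T5.IsTestFn 𝔫 QWt.w1.type (fun h => c * pureQ298 (T a) (f₀ a) (F1 a) h)) ∧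
    Continuous (fun p : Ω × G F => pure305 (T' p.1) (φ₀ p.1) (Φ p.1) p.2) ∧
    Continuous (fun p : Ω × G ℚ => c * pureQ298 (T p.1) (f₀ p.1) (F0 p.1) p.2) ∧
    Continuous (fun p : Ω × G ℚ => c * pureQ298 (T p.1) (f₀ p.1) (F1 p.1) p.2) ∧
    (∃ C : Set (G F), IsCompact C ∧
      ∀ (a : Ω) (h : G F), pure305 (T' a) (φ₀ a) (Φ a) h ≠ 0 → h ∈ C) ∧
    (∃ C : Set (G ℚ), IsCompact C ∧
      ∀ (a : Ω) (h : G ℚ), pureQ298 (T a) (f₀ a) (F0 a) h ≠ 0 → h ∈ C) ∧
    (∃ C : Set (G ℚ), IsCompact C ∧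
      ∀ (a : Ω) (h : G ℚ), pureQ298 (T a) (f₀ a) (F1 a) h ≠ 0 → h ∈ C) ∧
    (∀ h : G F, φ' h = ∫ a, pure305 (T' a) (φ₀ a) (Φ a) h ∂ν) ∧
    (∀ h : G ℚ, f0 h = ∫ a, c * pureQ298 (T a) (f₀ a) (F0 a) h ∂ν) ∧
    ∀ h : G ℚ, f1 h = ∫ a, c * pureQ298 (T a) (f₀ a) (F1 a) h ∂ν

/-- **THE RELATION OF RECORD of the quadratic step**: averages of locally matched pure tensors
(local matching in the form of T6 / T6inf: `LocHypQb801`), with the constant `κ` of the
matching theorem downstairs. -/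
def MtQ801 (κ : KapFnQ801 F) : H732.MtRelQ732 F := fun B 𝔫 φ' f =>
  ∃ (μr : @Measure (GL (Fin 2) ℝ) (borel _)) (μc : @Measure (GL (Fin 2) ℂ) (borel _))
    (T₀ : Finset (HeightOneSpectrum (𝓞 ℚ)))
    (n : HeightOneSpectrum (𝓞 F) → ℕ) (m : HeightOneSpectrum (𝓞 ℚ) → ℕ),
    @Measure.IsHaarMeasure _ _ _ (borel _) μr ∧ @Measure.IsHaarMeasure _ _ _ (borel _) μc ∧
      UnramOut305 (K' := F) T₀ ∧ IsLevelAt305 T₀ n m ∧
      IsAvgPureQ801 (upI (K' := F) 𝔫) 𝔫 T₀
        (fun T φ₀ Φ f₀ F0 F1 => LocHypQb801 (B.comp 𝔫) μr μc T n m φ₀ Φ f₀ F0 F1)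
        (κ (B.comp 𝔫) μr μc T₀ n m) φ' (f QWt.w0) (f QWt.w1)

/-- `κ` is a family of constants of the matching theorem over `ℚ` (`GlobMatchQCb801` with the
constant chosen). -/
def GoodKapQ801 (κ : KapFnQ801 F) : Prop :=
  IsImagQuad F →
    ∀ D : CompData ℚ F, IsCompData D → IsCycExt ℚ F D.l → D.l = 2 →
    ∀ μr : @Measure (GL (Fin 2) ℝ) (borel _), @Measure.IsHaarMeasure _ _ _ (borel _) μr →
    ∀ μc : @Measure (GL (Fin 2) ℂ) (borel _), @Measure.IsHaarMeasure _ _ _ (borel _) μc →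
    ∀ (T₀ : Finset (HeightOneSpectrum (𝓞 ℚ))), UnramOut305 (K' := F) T₀ →
    ∀ (n : HeightOneSpectrum (𝓞 F) → ℕ) (m : HeightOneSpectrum (𝓞 ℚ) → ℕ),
      IsLevelAt305 T₀ n m →
      IsMatchConstQb801 F D μr μc T₀ n m (κ D μr μc T₀ n m)

variable (F)

/-- **LEAF T7.L2Q.1.H1b = AVG-MATCH over `ℚ` (analysis; closure of the matching under
averages).**  Let `(φs a, fs0 a, fs1 a)`, `a ∈ Ω` (compact, Hausdorff, second countable, finite
measure `ν`), be test functions (trivial type upstairs, types `w0`, `w1` downstairs), jointly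
continuous in `(a, h)` and supported in one compact set, such that `φs a` is MATCHED with
`fs0 a + fs1 a` for every `a`.  Then the average of the `φs a` is matched with the sum of the
averages of the `fs0 a` and of the `fs1 a`.
Proof: as `H893.AvgMatchC893` (`twTerm` of the average is the average of the `twTerm`s, Fubini
on `F_δ × Ω`, domination by `M · twTerm(1_C)`; the orbital integral of `1_C` at an elliptic
regular element converges); downstairs additivity of the integral for the two summands.  The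
proof does not use the `K_∞`-types. -/
def AvgMatchQC801 : Prop :=
  IsImagQuad F →
    ∀ D : CompData ℚ F, IsCompData D → IsCycExt ℚ F D.l → D.l = 2 →
    ∀ (Ω : Type) (_ : TopologicalSpace Ω) (_ : CompactSpace Ω) (_ : T2Space Ω)
      (_ : SecondCountableTopology Ω) (_ : MeasurableSpace Ω)
      (_ : BorelSpace Ω) (ν : Measure Ω) (_ : IsFiniteMeasure ν)
      (φs : Ω → G F → ℂ) (fs0 fs1 : Ω → G ℚ → ℂ),
      (∀ a : Ω, T5.IsTestFn D.𝔑 T5.trivType (φs a)) →
      (∀ a : Ω, T5.IsTestFn D.𝔫 QWt.w0.type (fs0 a)) →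
      (∀ a : Ω, T5.IsTestFn D.𝔫 QWt.w1.type (fs1 a)) →
      Continuous (fun p : Ω × G F => φs p.1 p.2) →
      Continuous (fun p : Ω × G ℚ => fs0 p.1 p.2) →
      Continuous (fun p : Ω × G ℚ => fs1 p.1 p.2) →
      (∃ C : Set (G F), IsCompact C ∧ ∀ (a : Ω) (h : G F), φs a h ≠ 0 → h ∈ C) →
      (∃ C : Set (G ℚ), IsCompact C ∧ ∀ (a : Ω) (h : G ℚ), fs0 a h ≠ 0 → h ∈ C) →
      (∃ C : Set (G ℚ), IsCompact C ∧ ∀ (a : Ω) (h : G ℚ), fs1 a h ≠ 0 → h ∈ C) →
      (∀ a : Ω, IsGlobMatch D (φs a) (fun x => fs0 a x + fs1 a x)) →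
      IsGlobMatch D (fun h => ∫ a, φs a h ∂ν)
        (fun x => (∫ a, fs0 a x ∂ν) + ∫ a, fs1 a x ∂ν)

end Avg

/-! ## 2. The local shape of the pre-data -/

section Shape

variable {F : Type} [Field F] [NumberField F]

/-- `(x₁, x₂) ↦ c β'(x₁/2, x₂/2)` (the same term as `T3.H830.half830` of helper830). -/
def halfQ801 (c : ℂ) (β' : ℝ × ℝ → ℂ) : ℝ × ℝ → ℂ := fun p => c * β' ((2 : ℝ)⁻¹ • p)

/-- **The components AT INFINITY, quadratic step**: test functions (bi-`U(2)`-invariant
upstairs, of weight `0` and `-1` downstairs) in the ABEL RELATION with the constant `c`: the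
`N`-integral of `Φ w` is a symmetric bump `β'` and the `N`-integrals of `F0`, `F1` are
`c β'(·/2)`.  See the header, section 3. -/
def ArchOkQ801 (c : ℂ) (Φ : InfinitePlace F → GL (Fin 2) ℂ → ℂ)
    (F0 F1 : GL (Fin 2) ℝ → ℂ) : Prop :=
  (∀ w : InfinitePlace F, T6.IsArchTestC (Φ w)) ∧ T6.IsArchTestR 0 F0 ∧
    T6.IsArchTestR (-1) F1 ∧
    ∀ w : InfinitePlace F, ∃ β' : ℝ × ℝ → ℂ, T3.AS.IsSymBump β' ∧ T3.AS.HasAbelN (Φ w) β' ∧
      T3.R.HasAbelNR F0 (halfQ801 c β') ∧ T3.R.HasAbelNR F1 (halfQ801 c β')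

/-- **THE LOCAL SHAPE OF THE FIRST TRIPLE** `(Φ₁ X, F₁ w0 X, F₁ w1 X)`: UNIT components at the
places of the level, spherical matched components outside (Satake form, `ℓ = 2`), components
in the Abel relation `c` at infinity. -/
def LocAQ801 (c : ℂ) (T₀ : Finset (HeightOneSpectrum (𝓞 ℚ)))
    (n : HeightOneSpectrum (𝓞 F) → ℕ) (m : HeightOneSpectrum (𝓞 ℚ) → ℕ) : LocCondQ801 F :=
  fun T φ₀ Φ f₀ F0 F1 =>
    (∀ v ∈ T₀, f₀ v = unitFn893 (m v)) ∧
    (∀ v ∈ T₀, ∀ w : HeightOneSpectrum (𝓞 F), PlaceOver ℚ F v w → φ₀ w = unitFn893 (n w)) ∧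
    SphOut893 (K := ℚ) (K' := F) 2 T₀ T φ₀ f₀ ∧ ArchOkQ801 c Φ F0 F1

open Classical in
/-- **THE LOCAL SHAPE OF THE SECOND TRIPLE** `(φ₂, f₂ w0, f₂ w1)` for the bad element `g`.
* bad places `v ∈ T₀`, `v ≠ u`: upstairs the unit `1_{U₀}` of the BASE level (`n₀`);
  downstairs a PARTNER of the double coset function `1_{U₀ g_w U₀}`: the FINITE clauses of
  `LocHypQb801` for the set `T₀ ∖ {u}` and the double coset functions upstairs (stated as:
  `LocHypQb801` holds with some archimedean components; at a bad split place the convolution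
  product in ONE order);
* the place `u` and the places over it: the indicator functions of the Iwahori subgroups;
* outside the level and at infinity: as for the first triple. -/
def LocBQ801 (B : L2QBase962 F) (g : G F) (𝔫 : Ideal (𝓞 ℚ))
    (μr : @Measure (GL (Fin 2) ℝ) (borel _)) (μc : @Measure (GL (Fin 2) ℂ) (borel _))
    (c : ℂ) (T₀ : Finset (HeightOneSpectrum (𝓞 ℚ)))
    (n n₀ : HeightOneSpectrum (𝓞 F) → ℕ) (m : HeightOneSpectrum (𝓞 ℚ) → ℕ) : LocCondQ801 F :=
  fun T φ₀ Φ f₀ F0 F1 =>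
    (∃ (Φd : InfinitePlace F → GL (Fin 2) ℂ → ℂ) (F0d F1d : GL (Fin 2) ℝ → ℂ),
      LocHypQb801 (B.comp 𝔫) μr μc (T₀.erase B.u) n m
        (fun w => dblFn893 (n₀ w) (finGL305 w g)) Φd f₀ F0d F1d) ∧
    (∀ v ∈ T₀, v ≠ B.u → ∀ w : HeightOneSpectrum (𝓞 F), PlaceOver ℚ F v w →
      φ₀ w = unitFn893 (n₀ w)) ∧
    f₀ B.u = iwFn893 ∧
    (∀ w : HeightOneSpectrum (𝓞 F), PlaceOver ℚ F B.u w → φ₀ w = iwFn893) ∧
    SphOut893 (K := ℚ) (K' := F) 2 T₀ T φ₀ f₀ ∧ ArchOkQ801 c Φ F0 F1

/-- **THE LOCAL SHAPE OF THE PRE-DATA over `ℚ`** (for the Haar measures `μr`, `μc`, the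
constant `c` of the Abel relation and the constant `a` of `f₂ w0`, `f₂ w1`). -/
def IsDecompQ801 (μr : @Measure (GL (Fin 2) ℝ) (borel _))
    (μc : @Measure (GL (Fin 2) ℂ) (borel _)) (c a : ℂ) (B : L2QBase962 F) (g : G F)
    (E : L2QPre732 F) : Prop :=
  ∃ (T₀ : Finset (HeightOneSpectrum (𝓞 ℚ)))
    (n n₀ : HeightOneSpectrum (𝓞 F) → ℕ) (m : HeightOneSpectrum (𝓞 ℚ) → ℕ),
    (∀ v : HeightOneSpectrum (𝓞 ℚ), v ∈ T₀ ↔ v.asIdeal ∣ E.𝔫) ∧
    IsLevelOf893 E.𝔫 m ∧ IsLevelOf893 (upI (K' := F) E.𝔫) n ∧ IsLevelOf893 B.𝔑₀ n₀ ∧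
    (∀ X : List (Gen F), (∀ x ∈ X, x.Out B.S') →
      IsAvgPureQ801 (upI (K' := F) E.𝔫) E.𝔫 T₀ (LocAQ801 c T₀ n m) 1
        (E.Φ₁ X) (E.F₁ QWt.w0 X) (E.F₁ QWt.w1 X)) ∧
    IsAvgPureQ801 (upI (K' := F) E.𝔫) E.𝔫 T₀ (LocBQ801 B g E.𝔫 μr μc c T₀ n n₀ m) a
      E.φ₂ (E.f₂ QWt.w0) (E.f₂ QWt.w1)

end Shape

/-! ## 3. The nodes of the fifth cut over `ℚ` -/

section Nodes

variable (P : EKCond)
variable (F : Type) [Field F] [NumberField F]

/-- **NODE T7.L2Q.1.H2a = BASE over `ℚ` (T3.18M + T3.18R + T6 + `♮`; existence).**  For a common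
part of helper60 with the ramified prime (`3 ∈ S`) and one bad element `g`: a level `𝔫`, Haar
measures `μr` of `GL₂(ℝ)` and `μc` of `GL₂(ℂ)` such that for EVERY pair of constants `c ≠ 0`,
`a ≠ 0` there are pre-data of level `𝔫` with the operator properties, the supports and the
local shape.
Construction: as `H893.BaseC` (see there), with `ℓ = 2`; downstairs the Eisenstein-killing
functions of the types `w0`, `w1` of station T3.18R (`R.ekOpExistR_c`, helper14: pure tensors
`R.pureFnR` with archimedean components of weight `0`, `-1` and prescribed `N`-integral,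
`R.AbelRealC`), with THE SAME finite components for the two types; the `N`-integrals downstairs
are `halfQ801 c β'` for the `N`-integral `β'` upstairs (`half_symBump830`). -/
def BaseQC801 : Prop :=
  HasSqrtNegThree F → IsImagQuad F →
    ∀ Φ : HeckeEigensystem F ℂ, A0.IsCuspAdelicSph0 F Φ → ConstOnFibresQ Φ → P F Φ →
      ∀ B : L2Q.H60.L2QBase F, L2Q.H60.IsL2QBase Φ B → L2Q.H60.IsRamQ60 B →
      ∀ g : G F, B.IsBad g →
        ∃ (𝔫 : Ideal (𝓞 ℚ)) (μr : @Measure (GL (Fin 2) ℝ) (borel _))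
          (μc : @Measure (GL (Fin 2) ℂ) (borel _)),
          @Measure.IsHaarMeasure _ _ _ (borel _) μr ∧
          @Measure.IsHaarMeasure _ _ _ (borel _) μc ∧
          ∀ c a : ℂ, c ≠ 0 → a ≠ 0 → ∃ E : L2QPre732 F, E.𝔫 = 𝔫 ∧
            IsL2QPreOp732 Φ (toBase962_732 B) g E ∧ IsL2QPreSupp732 (toBase962_732 B) E ∧
            IsDecompQ801 μr μc c a (toBase962_732 B) g E

/-- **NODE T7.L2Q.1.H2b = PROD-MT over `ℚ` (the calculus of pure tensors).**  For a common part
with the ramified prime, a bad element, a level and Haar measures of `GL₂(ℝ)`, `GL₂(ℂ)` there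
are constants `c ≠ 0`, `a ≠ 0` such that for all pre-data of this level with the operator
properties and the local shape for `(c, a)` the members of the families are in the relation
`MtQ801 κ`.
Proof: as `H893.ProdMtC` at the finite places (`ℓ = 2`; the ramified place is a place with ONE
place over it); at infinity the Abel relation is multiplicative up to a constant (header,
section 3), the mixed products of different weights vanish, and
`T3.H830.archWire830` gives `T6.IsArchMatch` for the products when `c`, `a` are chosen well. -/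
def ProdMtQC801 (κ : KapFnQ801 F) : Prop :=
  HasSqrtNegThree F → IsImagQuad F →
    ∀ (Φ : HeckeEigensystem F ℂ) (B : L2Q.H60.L2QBase F), L2Q.H60.IsL2QBase Φ B →
    L2Q.H60.IsRamQ60 B → ∀ g : G F, B.IsBad g →
    ∀ (𝔫 : Ideal (𝓞 ℚ)) (μr : @Measure (GL (Fin 2) ℝ) (borel _))
      (μc : @Measure (GL (Fin 2) ℂ) (borel _)),
      @Measure.IsHaarMeasure _ _ _ (borel _) μr → @Measure.IsHaarMeasure _ _ _ (borel _) μc →
      ∃ c a : ℂ, c ≠ 0 ∧ a ≠ 0 ∧
        ∀ E : L2QPre732 F, E.𝔫 = 𝔫 → IsL2QPreOp732 Φ (toBase962_732 B) g E →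
          IsDecompQ801 μr μc c a (toBase962_732 B) g E →
          ∀ (X : List (Gen F)) (k : ℤ) (m : ℕ), (∀ x ∈ X, x.Out B.S') →
            MtQ801 κ (toBase962_732 B) 𝔫 (E.up (toBase962_732 B) X k m)
              (fun n => E.down (toBase962_732 B) n X k m)

end Nodes

/-! ## Appendix: the equation lemmas of the definitions of this file are realised HERE -/

theorem eqns_realised_supplyQConstr801 : True := by
  have _h0 := @IsAvgPureQ801.eq_1
  have _h1 := @MtQ801.eq_1
  have _h2 := @GoodKapQ801.eq_1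
  have _h3 := @AvgMatchQC801.eq_1
  have _h4 := @halfQ801.eq_1
  have _h5 := @ArchOkQ801.eq_1
  have _h6 := @LocAQ801.eq_1
  have _h7 := @LocBQ801.eq_1
  have _h8 := @IsDecompQ801.eq_1
  have _h9 := @BaseQC801.eq_1
  have _h10 := @ProdMtQC801.eq_1
  have _h11 := @CutIntQCb801.eq_1
  have _h12 := @IsMatchConstQb801.eq_1
  have _h13 := @GlobMatchQCb801.eq_1
  have _g0 := @IsAvgPureQ801.eq_def
  have _g1 := @MtQ801.eq_def
  have _g2 := @GoodKapQ801.eq_def
  have _g3 := @AvgMatchQC801.eq_def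
  have _g4 := @halfQ801.eq_def
  have _g5 := @ArchOkQ801.eq_def
  have _g6 := @LocAQ801.eq_def
  have _g7 := @LocBQ801.eq_def
  have _g8 := @IsDecompQ801.eq_def
  have _g9 := @BaseQC801.eq_def
  have _g10 := @ProdMtQC801.eq_def
  have _g11 := @CutIntQCb801.eq_def
  have _g12 := @IsMatchConstQb801.eq_def
  have _g13 := @GlobMatchQCb801.eq_def
  trivial

end Fermat.Agent.LT.T7.CQ801

end
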