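import Mathlib
import Fermat.Agent.LT.T7.H57.BaseQSpec
import Fermat.Agent.LT.T7.H801.SupplyQConstrSpec

/-!
# Row LT, tower T7, node T7.L2Q.1.H2a `CQ801.BaseQC801` (base node of the construction over `ℚ`,
# cut of record of the quadratic step, registry row 2609): SECOND CUT -- Spec

OFF-MAIN.  Definitions and frozen Props only (the proved top is `BaseQCutTop.lean`).  No hole,
nothing assumed.  ADDITIVE (new names only, all suffixed `801`, namespace
`Fermat.Agent.LT.T7.CQ801`).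

RETYPE, on the shapes of record (`LocAQ801`, `LocBQ801`: local hypotheses with the split clause
for ONE enumeration = `MQ298.LocHypQ298b`, archimedean clause = ABEL RELATION with a constant
`c`; ruling 18674 of helper797), of the second cut of helper57 (`T7/H57/BaseQSpec.lean`
c0b5f444, typed on the v1 shapes) = mirror over `ℚ` of the first cut of helper797 of the cubic
base node (`T7/Q797/BaseCutSpec.lean` e87d7ea9: `PairAC797`, `PairBC797`).  The shape-free
vocabulary and the small leaves of helper57 are USED AS THEY ARE (`CQ57.IsLevQ57`,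
`CQ57.IsSysQ57`, `CQ57.IsLevFnQ57`; `CQ57.HaarRC57`, `CQ57.HaarCC57`, `CQ57.DivSetC57`,
`CQ57.LevFnC57`, `CQ57.SysQC57`: all five CLOSED, helper756 `T7/H756/BaseQLeaves.lean`).

    baseQC_of_pairs801 : PairAQC801 P F → PairBQC801 P F → BaseQC801 P F

## The cut: the two pairs are INDEPENDENT

* **`PairAQC801 P F`** (NODE A = the FIRST pair `(Φ₁ X, F₁ w0 X, F₁ w1 X)`, all words; T3.18M over
  `F` + T3.18R over `ℚ` + T6; NO bad element, NO natural average): for EVERY level `𝔫` with the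
  level properties, the exponents of the level and EVERY constant `c ≠ 0` of the Abel
  relation.
* **`PairBQC801 P F`** (NODE B = the SECOND pair `(φ₂, f₂ w0, f₂ w1)`, for ONE bad element;
  T3.18M + T3.18R + T6 + the natural average): CHOOSES the level `𝔫` (deep enough for the
  partners of the double coset functions at the bad places) and gives the pair for all Haar
  measures, the exponents of the level and ALL constants `c ≠ 0`, `a ≠ 0`.

The operator fields are those of `H732.IsL2QPreOp732` / `H732.IsL2QPreSupp732` (same names, same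
statements; VERBATIM the fields of `CQ57.IsPair1Q57`, `CQ57.IsPair2Q57`).  Only the field
`shape` differs from helper57's structures.

FALSITY CHECKS (helper801).  (a) Node A for every `c`: all operator fields are homogeneous in
`F₁` (`dn1_op` compares `F₁ t X` with `F₁ t []`; `dn1_wfn`, `dn1_class`, `dn1_comm` are
properties of the operator of `F₁ t []`, stable under scalars), and the Abel relation with the
constant `c` is reached from any non-zero constant by a scalar.  (b) Node A does not see the Haar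
measures of `GL₂(ℝ)`, `GL₂(ℂ)`: `LocAQ801` does not mention them.  (c) Node B for all Haar
measures: they occur in `LocBQ801` only through the clause `arch` of `LocHypQb801` for the
auxiliary archimedean components `Φd, F0d, F1d` of the partner, and the zero functions are
admissible there.  (d) `up_ne` is split into `up1_ne` (`c₁`) and `up2_ne` (`c₂`); `m₀` of the
pre-data is free (no field mentions it).  (e) The exponents are the same for both pairs: they
are quantified universally in both nodes.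
-/

set_option autoImplicit false

open AutomorphicForm IsDedekindDomain NumberField MeasureTheory
open scoped ComplexConjugate

noncomputable section

namespace Fermat.Agent.LT.T7.CQ801

open Fermat.Agent.LT.H556 Fermat.Agent.LT.H556.A0 Fermat.Agent.LT.T7 Fermat.Agent.LT.T7.H305
  Fermat.Agent.LT.T7.L2Q Fermat.Agent.LT.T7.H893 Fermat.Agent.LT.T7.H962
  Fermat.Agent.LT.T7.H732 Fermat.Agent.LT.T7.MQ298

attribute [local instance] Fermat.Agent.LT.T5.instMeasurableSpaceG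

section Defs

variable {F : Type} [Field F] [NumberField F]

/-- **THE PROPERTIES OF THE FIRST PAIR** `(Φ₁, F₁)` with the scalar `c₁`, for the level `𝔫` and
the constant `c` of the Abel relation: the fields `up1_*`, `dn1_*` of `H732.IsL2QPreOp732` and
`H732.IsL2QPreSupp732` (same names, same statements), the first half of `up_ne`, and the local
shape OF RECORD (`IsAvgPureQ801` with the local condition `LocAQ801 c`, constant `1`). -/
structure IsPairAQ801 (Φ : HeckeEigensystem F ℂ) (B : L2QBase962 F) (𝔫 : Ideal (𝓞 ℚ))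
    (c : ℂ) (T₀ : Finset (HeightOneSpectrum (𝓞 ℚ)))
    (n : HeightOneSpectrum (𝓞 F) → ℕ) (m : HeightOneSpectrum (𝓞 ℚ) → ℕ)
    (c₁ : EigData F → ℂ) (Φ₁ : List (Gen F) → G F → ℂ)
    (F₁ : QWt → List (Gen F) → G ℚ → ℂ) : Prop where
  up1_test : ∀ X : List (Gen F), (∀ x ∈ X, x.Out B.S') →
    T5.IsTestFn (upI (K' := F) 𝔫) T5.trivType (Φ₁ X)
  up1_ek : ∀ X : List (Gen F), (∀ x ∈ X, x.Out B.S') →
    T5.IsEK B.R'.μ (Φ₁ X) ∧ T5.IsEK B.R'.μ (T5.adjointFn (Φ₁ X))
  up1_op : ∀ X : List (Gen F), (∀ x ∈ X, x.Out B.S') →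
    ∀ (χ : G F → ℂ) (C : EigData F), IsEigFn B.𝔑₀ B.R'.r 2 B.o χ C →
      ∀ x : G F, T5.Rconv B.R'.μ (Φ₁ X) χ x = wordEv X C * c₁ C * χ x
  up1_ne : ∀ C : EigData F, C.AgreeOut B.S' (eigOf Φ) → c₁ C ≠ 0
  dn1_test : ∀ (t : QWt) (X : List (Gen F)), (∀ x ∈ X, x.Out B.S') →
    T5.IsTestFn 𝔫 t.type (F₁ t X)
  dn1_ek : ∀ (t : QWt) (X : List (Gen F)), (∀ x ∈ X, x.Out B.S') →
    T5.IsEK B.R.μ (F₁ t X) ∧ T5.IsEK B.R.μ (T5.adjointFn (F₁ t X))
  dn1_op : ∀ (t : QWt) (X : List (Gen F)), (∀ x ∈ X, x.Out B.S') →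
    ∀ (χ : G ℚ → ℂ) (c : EigData ℚ) (C : EigData F),
      IsEigFnQ t 𝔫 B.R.r B.u χ c → IsBCDataQ t c C B.S →
      ∀ x : G ℚ, T5.Rconv B.R.μ (F₁ t X) χ x
        = wordEv X C * T5.Rconv B.R.μ (F₁ t []) χ x
  dn1_wfn : ∀ (t : QWt) (ψ : G ℚ → ℂ), IsWFnQ t 𝔫 B.R.r B.u ψ →
    IsWFnQ t 𝔫 B.R.r B.u (T5.Rconv B.R.μ (F₁ t []) ψ)
  dn1_class : ∀ (t : QWt) (ψ : G ℚ → ℂ) (c : EigData ℚ), IsEigFnQ t 𝔫 B.R.r B.u ψ c →
    IsEigFnQ t 𝔫 B.R.r B.u (T5.Rconv B.R.μ (F₁ t []) ψ) c
  dn1_comm : ∀ (t : QWt) (ψ : G ℚ → ℂ), IsWFnQ t 𝔫 B.R.r B.u ψ →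
    ∀ (H : Finset (G ℚ)) (z : G ℚ), IsIwCosetSystem B.u H → IsScalarUniformizerAt B.u z →
      (∀ x : G ℚ, T5.Rconv B.R.μ (F₁ t []) (iwOp B.u H ψ) x
        = iwOp B.u H (T5.Rconv B.R.μ (F₁ t []) ψ) x) ∧
      ∀ (k : ℤ) (x : G ℚ), T5.Rconv B.R.μ (F₁ t []) (shiftOp z k ψ) x
        = shiftOp z k (T5.Rconv B.R.μ (F₁ t []) ψ) x
  up1_supp : ∀ X : List (Gen F), (∀ x ∈ X, x.Out B.S') →
    ∃ C : Set (G F), IsCompact C ∧ T5.H32.IsIwSupported32 2 B.o C (Φ₁ X)
  dn1_supp : ∀ (t : QWt) (X : List (Gen F)), (∀ x ∈ X, x.Out B.S') →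
    ∃ C : Set (G ℚ), IsCompact C ∧ T5.H32.IsIwSupported32 1 (fun _ => B.u) C (F₁ t X)
  /-- the local shape of record: averages of pure tensors with the local condition
  `LocAQ801 c`, constant `1` -/
  shape : ∀ X : List (Gen F), (∀ x ∈ X, x.Out B.S') →
    IsAvgPureQ801 (upI (K' := F) 𝔫) 𝔫 T₀ (LocAQ801 c T₀ n m) 1
      (Φ₁ X) (F₁ QWt.w0 X) (F₁ QWt.w1 X)

/-- **THE PROPERTIES OF THE SECOND PAIR** `(φ₂, f₂)` with the scalar `c₂`, for the bad element
`g`, the level `𝔫`, the constant `c` of the Abel relation and the constant `a`: the fields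
`up2_*`, `dn2_*` of `H732.IsL2QPreOp732` and `H732.IsL2QPreSupp732` (same names, same
statements), the second half of `up_ne`, and the local shape OF RECORD (`IsAvgPureQ801` with
the local condition `LocBQ801 … c`, constant `a`). -/
structure IsPairBQ801 (Φ : HeckeEigensystem F ℂ) (B : L2QBase962 F) (g : G F)
    (𝔫 : Ideal (𝓞 ℚ))
    (μr : @Measure (GL (Fin 2) ℝ) (borel _)) (μc : @Measure (GL (Fin 2) ℂ) (borel _))
    (c a : ℂ) (T₀ : Finset (HeightOneSpectrum (𝓞 ℚ)))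
    (n n₀ : HeightOneSpectrum (𝓞 F) → ℕ) (m : HeightOneSpectrum (𝓞 ℚ) → ℕ)
    (c₂ : EigData F → ℂ) (φ₂ : G F → ℂ) (f₂ : QWt → G ℚ → ℂ) : Prop where
  up2_test : T5.IsTestFn (upI (K' := F) 𝔫) T5.trivType φ₂
  up2_ek : T5.IsEK B.R'.μ φ₂ ∧ T5.IsEK B.R'.μ (T5.adjointFn φ₂)
  up2_inv : IsUInv B.𝔑₀ 2 B.o φ₂
  up2_op : ∀ (ψ : G F → ℂ) (C : EigData F), IsEigFn B.𝔑₀ B.R'.r 2 B.o ψ C →
    ∀ x : G F, T5.Rconv B.R'.μ φ₂ ψ x = c₂ C * ψ x
  up2_kill : ∀ ψ : G F → ℂ, T5.IsCuspFn (upI (K' := F) 𝔫) T5.trivType B.R'.r ψ →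
    (∀ χ : G F → ℂ, IsWFn B.𝔑₀ B.R'.r 2 B.o χ → T5.innerD B.R'.μ B.R'.F ψ χ = 0) →
    ∀ x : G F, T5.Rconv B.R'.μ φ₂ ψ x = 0
  up2_ne : ∀ C : EigData F, C.AgreeOut B.S' (eigOf Φ) → c₂ C ≠ 0
  dn2_test : ∀ t : QWt, T5.IsTestFn 𝔫 t.type (f₂ t)
  dn2_ek : ∀ t : QWt, T5.IsEK B.R.μ (f₂ t) ∧ T5.IsEK B.R.μ (T5.adjointFn (f₂ t))
  dn2_inv : ∀ t : QWt, IsUInv 𝔫 1 (fun _ => B.u) (f₂ t)
  dn2_wfn : ∀ (t : QWt) (ψ : G ℚ → ℂ), IsWFnQ t 𝔫 B.R.r B.u ψ →
    IsWFnQ t 𝔫 B.R.r B.u (T5.Rconv B.R.μ (f₂ t) ψ)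
  dn2_class : ∀ (t : QWt) (ψ : G ℚ → ℂ) (c : EigData ℚ), IsEigFnQ t 𝔫 B.R.r B.u ψ c →
    IsEigFnQ t 𝔫 B.R.r B.u (T5.Rconv B.R.μ (f₂ t) ψ) c
  dn2_comm : ∀ (t : QWt) (ψ : G ℚ → ℂ), IsWFnQ t 𝔫 B.R.r B.u ψ →
    ∀ (H : Finset (G ℚ)) (z : G ℚ), IsIwCosetSystem B.u H → IsScalarUniformizerAt B.u z →
      (∀ x : G ℚ, T5.Rconv B.R.μ (f₂ t) (iwOp B.u H ψ) x
        = iwOp B.u H (T5.Rconv B.R.μ (f₂ t) ψ) x) ∧
      ∀ (k : ℤ) (x : G ℚ), T5.Rconv B.R.μ (f₂ t) (shiftOp z k ψ) x
        = shiftOp z k (T5.Rconv B.R.μ (f₂ t) ψ) x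
  dn2_kill : ∀ (t : QWt) (ψ : G ℚ → ℂ), T5.IsCuspFn 𝔫 t.type B.R.r ψ →
    (∀ χ : G ℚ → ℂ, IsWFnQ t 𝔫 B.R.r B.u χ → T5.innerD B.R.μ B.R.F ψ χ = 0) →
    ∀ x : G ℚ, T5.Rconv B.R.μ (f₂ t) ψ x = 0
  up2_supp : ∃ C : Set (G F), IsCompact C ∧ T5.H32.IsIwSupported32 2 B.o C φ₂
  dn2_supp : ∀ t : QWt,
    ∃ C : Set (G ℚ), IsCompact C ∧ T5.H32.IsIwSupported32 1 (fun _ => B.u) C (f₂ t)
  /-- the local shape of record: averages of pure tensors with the local condition
  `LocBQ801 … c`, constant `a` -/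
  shape : IsAvgPureQ801 (upI (K' := F) 𝔫) 𝔫 T₀ (LocBQ801 B g 𝔫 μr μc c T₀ n n₀ m) a
    φ₂ (f₂ QWt.w0) (f₂ QWt.w1)

end Defs

/-! ## The nodes of the second cut -/

section Nodes

variable (P : EKCond)
variable (F : Type) [Field F] [NumberField F]

/-- **NODE T7.L2Q.1.H2a.A = PAIR-A over `ℚ` (the first pair; T3.18M + T3.18R + T6).**  For a
common part of helper60 with `3 ∈ S`, EVERY level `𝔫` with the level properties, the exponents
of the level and EVERY constant `c ≠ 0`: the first pair `(Φ₁, F₁)` with the scalar `c₁` exists,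
with components at infinity in the Abel relation `c`.
Construction.  Upstairs as `Q797.PairAC797` (Eisenstein-killing function of station T3.18M in
the explicit form `T3/M/Explicit.lean`: finite sum of pure tensors, unit components at the
places of the level, spherical outside, bi-`U(2)`-invariant at infinity with `N`-integral a
symmetric bump `β'`; `Φ₁ X` = the word applied to it).  Downstairs the Eisenstein-killing
functions of the types `w0`, `w1` of station T3.18R (`T3.R.ekOpExistR_c`: pure tensors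
`T3.R.pureFnR` with THE SAME finite components for the two types = base change / convolution
product of the components upstairs, `ℓ = 2`, Satake form `H893.SphOut893`), with archimedean
components of weight `0`, `-1` and `N`-integral `halfQ801 c β'` (`T3.R.AbelRealC`: every
symmetric bump is an `N`-integral in the weights `0`, `±1`). -/
def PairAQC801 : Prop :=
  HasSqrtNegThree F → IsImagQuad F →
    ∀ Φ : HeckeEigensystem F ℂ, A0.IsCuspAdelicSph0 F Φ → ConstOnFibresQ Φ → P F Φ →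
      ∀ B : L2Q.H60.L2QBase F, L2Q.H60.IsL2QBase Φ B → L2Q.H60.IsRamQ60 B →
      ∀ 𝔫 : Ideal (𝓞 ℚ), CQ57.IsLevQ57 (toBase962_732 B) 𝔫 →
      ∀ (T₀ : Finset (HeightOneSpectrum (𝓞 ℚ)))
        (n n₀ : HeightOneSpectrum (𝓞 F) → ℕ) (m : HeightOneSpectrum (𝓞 ℚ) → ℕ),
        CQ57.IsLevFnQ57 (toBase962_732 B) 𝔫 T₀ n n₀ m →
        ∀ c : ℂ, c ≠ 0 →
          ∃ (c₁ : EigData F → ℂ) (Φ₁ : List (Gen F) → G F → ℂ)
            (F₁ : QWt → List (Gen F) → G ℚ → ℂ),
            IsPairAQ801 Φ (toBase962_732 B) 𝔫 c T₀ n m c₁ Φ₁ F₁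

/-- **NODE T7.L2Q.1.H2a.B = PAIR-B over `ℚ` (the second pair, for ONE bad element; T3.18M +
T3.18R + T6 + `♮`).**  For a common part of helper60 with `3 ∈ S` and a bad element `g` there is
a LEVEL `𝔫` such that for all Haar measures, the exponents of the level and ALL constants
`c ≠ 0`, `a ≠ 0` the second pair `(φ₂, f₂)` with the scalar `c₂` exists.
Construction.  As `Q797.PairBC797` with `ℓ = 2`: `𝔫 = 𝔫₀ ^ d`, `d` so large that the partners
of the double coset functions `1_{U₀ g_w U₀}` at the bad places `v ≠ u` (`T6.BadMatchC` at the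
places with one place over them, the ramified place included; at a split bad place the
convolution product in the order of ONE enumeration of the two places) are bi-invariant under
`U(𝔫)_v`; `φ₂` = the natural average of an Eisenstein-killing function with unit components
`1_{U₀}` at the bad places and Iwahori components over `u`; `f₂ t = a ·` the average of the
pure tensors with the partners at the bad places, the Iwahori function at `u`, the matched
spherical components outside the level, and the component of type `t` at infinity with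
`N`-integral `halfQ801 c β'`. -/
def PairBQC801 : Prop :=
  HasSqrtNegThree F → IsImagQuad F →
    ∀ Φ : HeckeEigensystem F ℂ, A0.IsCuspAdelicSph0 F Φ → ConstOnFibresQ Φ → P F Φ →
      ∀ B : L2Q.H60.L2QBase F, L2Q.H60.IsL2QBase Φ B → L2Q.H60.IsRamQ60 B →
      ∀ g : G F, B.IsBad g →
      ∃ 𝔫 : Ideal (𝓞 ℚ), CQ57.IsLevQ57 (toBase962_732 B) 𝔫 ∧
        ∀ (μr : @Measure (GL (Fin 2) ℝ) (borel _)) (μc : @Measure (GL (Fin 2) ℂ) (borel _)),
          @Measure.IsHaarMeasure _ _ _ (borel _) μr →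
          @Measure.IsHaarMeasure _ _ _ (borel _) μc →
        ∀ (T₀ : Finset (HeightOneSpectrum (𝓞 ℚ)))
          (n n₀ : HeightOneSpectrum (𝓞 F) → ℕ) (m : HeightOneSpectrum (𝓞 ℚ) → ℕ),
          CQ57.IsLevFnQ57 (toBase962_732 B) 𝔫 T₀ n n₀ m →
          ∀ c a : ℂ, c ≠ 0 → a ≠ 0 →
            ∃ (c₂ : EigData F → ℂ) (φ₂ : G F → ℂ) (f₂ : QWt → G ℚ → ℂ),
              IsPairBQ801 Φ (toBase962_732 B) g 𝔫 μr μc c a T₀ n n₀ m c₂ φ₂ f₂

end Nodes

/-! ## Appendix: the equation lemmas of the definitions of this file are realised HERE -/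

theorem eqns_realised_baseQCut801 : True := by
  have _h0_0 := @PairAQC801.eq_1
  have _h0_1 := @PairAQC801.eq_def
  have _h0_2 := @PairAQC801.eq_unfold
  have _h1_0 := @PairBQC801.eq_1
  have _h1_1 := @PairBQC801.eq_def
  have _h1_2 := @PairBQC801.eq_unfold
  trivial

end Fermat.Agent.LT.T7.CQ801

end
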