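import Mathlib
import Fermat.Agent.LT.T7.H228.AvgMatch
import Fermat.Agent.LT.T7.H801.SupplyQConstrSpec

/-!
# Row LT, tower T7, quadratic step: leaf T7.L2Q.1.H1b `AvgMatchQC801` -- PROVED (helper801)

OFF-MAIN.  `avgMatchQC801 F : CQ801.AvgMatchQC801 F`, VERBATIM, UNCONDITIONAL, and the GENERAL
FORM `avgMatch_gen801` (any extension of number fields, any data of the comparison, families
which are jointly continuous with a common compact support; no `K_∞`-type, no level, no
hypothesis on the degree or on the infinite places): `T7.IsGlobMatch` is closed under averages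
over a compact parameter space with a finite measure.

Proof: the core `H228.setIntegral_twTerm_avg228` of helper228 (one field, any automorphism:
the orbital integral of an average is the average of the orbital integrals), as in
`H228.avgMatchC228`; downstairs the family is `fs0 a + fs1 a`, and the integral of the sum is
the sum of the integrals (continuous functions on a compact space with a finite measure).
-/

set_option autoImplicit false

open AutomorphicForm IsDedekindDomain NumberField MeasureTheory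
open scoped ComplexConjugate

noncomputable section

namespace Fermat.Agent.LT.T7.CQ801

open Fermat.Agent.LT Fermat.Agent.LT.H556 Fermat.Agent.LT.H556.A0 Fermat.Agent.LT.T7
open Fermat.Agent.LT.T7.H228 Fermat.Agent.LT.T7.L2Q

attribute [local instance] Fermat.Agent.LT.T5.instMeasurableSpaceG

section General

variable {K K' : Type} [Field K] [NumberField K] [Field K'] [NumberField K'] [Algebra K K']

/-- **AVG-MATCH, GENERAL FORM.**  For ANY extension of number fields and any data of the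
comparison: the averages of matched pairs which are jointly continuous with a common compact
support are matched. -/
theorem avgMatch_gen801 (D : CompData K K') (hD : IsCompData D)
    (Ω : Type) [TopologicalSpace Ω] [CompactSpace Ω] [SecondCountableTopology Ω]
    [MeasurableSpace Ω] [BorelSpace Ω] (ν : Measure Ω) [IsFiniteMeasure ν]
    (φs : Ω → G K' → ℂ) (fs : Ω → G K → ℂ)
    (hφc : Continuous (fun p : Ω × G K' => φs p.1 p.2))
    (hfc : Continuous (fun p : Ω × G K => fs p.1 p.2))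
    (hφs : ∃ C : Set (G K'), IsCompact C ∧ ∀ (a : Ω) (h : G K'), φs a h ≠ 0 → h ∈ C)
    (hfs : ∃ C : Set (G K), IsCompact C ∧ ∀ (a : Ω) (h : G K), fs a h ≠ 0 → h ∈ C)
    (hmatch : ∀ a : Ω, IsGlobMatch D (φs a) (fs a)) :
    IsGlobMatch D (fun h => ∫ a, φs a h ∂ν) (fun h => ∫ a, fs a h ∂ν) := by
  have hup : ∀ (δ : GL (Fin 2) K') (γ : GL (Fin 2) K), T6.IsEll γ → IsNormOf D δ γ →
      ∀ Fδ : Set (G K'), T5.IsTwDomain D.s δ Fδ →
        ∫ x in Fδ, T5.twTerm D.R'.r D.s (fun h => ∫ a, φs a h ∂ν) δ x ∂D.R'.μ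
          = ∫ a, (∫ x in Fδ, T5.twTerm D.R'.r D.s (φs a) δ x ∂D.R'.μ) ∂ν :=
    fun δ γ hE hN Fδ hFδ =>
      setIntegral_twTerm_avg228 D.s D.l D.k D.𝔑 hD.cyc D.R'.μ D.R'.F D.R'.r hD.frame'.frame
        hD.frame'.ray hD.aut (fun δ' => IsNormOf D δ' γ)
        (fun γ₀ δ' h => isNormOf_conj228 D hD γ₀ δ' h)
        (fun δ' h => isEllRegOver_up228 D hD h hE) δ hN Fδ hFδ Ω ν φs hφc hφs
  have hdn : ∀ γ : GL (Fin 2) K, T6.IsEll γ →
      ∀ Fγ : Set (G K), T5.IsTwDomain (T5.AdelicAut.id K) γ Fγ →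
        ∫ x in Fγ, T5.twTerm D.R.r (T5.AdelicAut.id K) (fun h => ∫ a, fs a h ∂ν) γ x ∂D.R.μ
          = ∫ a, (∫ x in Fγ, T5.twTerm D.R.r (T5.AdelicAut.id K) (fs a) γ x ∂D.R.μ) ∂ν :=
    fun γ hE Fγ hFγ =>
      setIntegral_twTerm_avg228 (T5.AdelicAut.id K) 1 ⊤ D.𝔫 T5.isCyclicOfDegree_id D.R.μ D.R.F
        D.R.r hD.frame.frame hD.frame.ray (T5.autPreserves_id D.𝔫 D.R.μ D.R.r)
        (fun γ' => T6.IsEll γ') (fun γ₀ γ' h => isEll_conj228 γ₀ γ' h)
        (fun γ' h => isEllRegOver_down228 h) γ hE Fγ hFγ Ω ν fs hfc hfs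
  refine ⟨?_, ?_⟩
  · intro δ γ hE hN Fδ Fγ hFδ hFγ
    rw [hup δ γ hE hN Fδ hFδ, hdn γ hE Fγ hFγ]
    exact integral_congr_ae
      (Filter.Eventually.of_forall fun a => (hmatch a).norm δ γ hE hN Fδ Fγ hFδ hFγ)
  · intro γ hE hnn Fγ hFγ
    rw [hdn γ hE Fγ hFγ]
    have h0 : ∀ a : Ω,
        ∫ x in Fγ, T5.twTerm D.R.r (T5.AdelicAut.id K) (fs a) γ x ∂D.R.μ = 0 :=
      fun a => (hmatch a).nonnorm γ hE hnn Fγ hFγ
    simp only [h0, integral_zero]

/-- A jointly continuous family is integrable in the parameter (compact parameter space, finite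
measure). -/
theorem integrable_param801 {Ω : Type} [TopologicalSpace Ω] [CompactSpace Ω]
    [MeasurableSpace Ω] [BorelSpace Ω] (ν : Measure Ω) [IsFiniteMeasure ν]
    {X : Type} [TopologicalSpace X] (f : Ω → X → ℂ)
    (hc : Continuous (fun p : Ω × X => f p.1 p.2)) (x : X) :
    Integrable (fun a => f a x) ν := by
  have h1 : Continuous (fun a : Ω => f a x) :=
    hc.comp (Continuous.prodMk continuous_id continuous_const)
  exact h1.integrable_of_hasCompactSupport (HasCompactSupport.of_compactSpace _)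

/-- **AVG-MATCH with a SUM of two families downstairs, GENERAL FORM.** -/
theorem avgMatch_sum801 (D : CompData K K') (hD : IsCompData D)
    (Ω : Type) [TopologicalSpace Ω] [CompactSpace Ω] [SecondCountableTopology Ω]
    [MeasurableSpace Ω] [BorelSpace Ω] (ν : Measure Ω) [IsFiniteMeasure ν]
    (φs : Ω → G K' → ℂ) (fs0 fs1 : Ω → G K → ℂ)
    (hφc : Continuous (fun p : Ω × G K' => φs p.1 p.2))
    (hc0 : Continuous (fun p : Ω × G K => fs0 p.1 p.2))
    (hc1 : Continuous (fun p : Ω × G K => fs1 p.1 p.2))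
    (hφs : ∃ C : Set (G K'), IsCompact C ∧ ∀ (a : Ω) (h : G K'), φs a h ≠ 0 → h ∈ C)
    (hs0 : ∃ C : Set (G K), IsCompact C ∧ ∀ (a : Ω) (h : G K), fs0 a h ≠ 0 → h ∈ C)
    (hs1 : ∃ C : Set (G K), IsCompact C ∧ ∀ (a : Ω) (h : G K), fs1 a h ≠ 0 → h ∈ C)
    (hmatch : ∀ a : Ω, IsGlobMatch D (φs a) (fun x => fs0 a x + fs1 a x)) :
    IsGlobMatch D (fun h => ∫ a, φs a h ∂ν)
      (fun x => (∫ a, fs0 a x ∂ν) + ∫ a, fs1 a x ∂ν) := by
  have hc : Continuous (fun p : Ω × G K => fs0 p.1 p.2 + fs1 p.1 p.2) := hc0.add hc1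
  have hs : ∃ C : Set (G K), IsCompact C ∧
      ∀ (a : Ω) (h : G K), fs0 a h + fs1 a h ≠ 0 → h ∈ C := by
    obtain ⟨C0, hC0, h0⟩ := hs0
    obtain ⟨C1, hC1, h1⟩ := hs1
    refine ⟨C0 ∪ C1, hC0.union hC1, fun a h hne => ?_⟩
    by_cases e0 : fs0 a h = 0
    · right
      apply h1 a h
      intro e1
      exact hne (by rw [e0, e1, add_zero])
    · left
      exact h0 a h e0
  have key := avgMatch_gen801 D hD Ω ν φs (fun a x => fs0 a x + fs1 a x) hφc hc hφs hs hmatch
  have e : (fun x => ∫ a, (fs0 a x + fs1 a x) ∂ν)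
      = fun x => (∫ a, fs0 a x ∂ν) + ∫ a, fs1 a x ∂ν := by
    funext x
    exact integral_add (integrable_param801 ν fs0 hc0 x) (integrable_param801 ν fs1 hc1 x)
  rw [← e]
  exact key

end General

/-- **LEAF T7.L2Q.1.H1b = AVG-MATCH over `ℚ`**, VERBATIM and UNCONDITIONAL. -/
theorem avgMatchQC801 (F : Type) [Field F] [NumberField F] : AvgMatchQC801 F := by
  intro _ D hD _ _ Ω iT iC iT2 iS iM iB ν iF φs fs0 fs1 _ _ _ hφc hc0 hc1 hφs hs0 hs1 hmatch
  exact avgMatch_sum801 D hD Ω ν φs fs0 fs1 hφc hc0 hc1 hφs hs0 hs1 hmatch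

end Fermat.Agent.LT.T7.CQ801

end
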