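import Mathlib
import Fermat.Agent.LT.T7.H298.MatchQGlue
import Fermat.Agent.LT.T7.H801.SupplyQConstrSpec

/-!
# Row LT, tower T7, node T7.L2Q.1.H2 `H732.ConstrQRC732` (quadratic step): FIFTH CUT over `ℚ`
# -- proved tops (helper801, registry row 2609)

OFF-MAIN.  No hole, nothing assumed.  ADDITIVE.  Mirror of `T7/H893/SupplyConstrTop.lean`.

    globMatchQb_of801  : IotaQC298 F → UnfoldGC298 ℚ → UnfoldC305 F → TorCommC305 ℚ →
                           TorCommC305 F → TwistRepC305 F → EllRegC305 ℚ F → TorHaarC305 ℚ →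
                           TorMeasQC298 F → TorCompQC298 F → CutIntQCb801 F → GlobMatchQCb801 F
    exists_goodKapQ801 : GlobMatchQCb801 F → ∃ κ, (κ nowhere zero) ∧ GoodKapQ801 κ
    globQC_of801       : GoodKapQ801 κ → AvgMatchQC801 F → H732.GlobQC732 F (MtQ801 κ)
    constrQRC_of801    : BaseQC801 P F → ProdMtQC801 F κ → H732.ConstrQRC732 P F (MtQ801 κ)
    nodesQ_of_fifth801 : GlobMatchQCb801 F → AvgMatchQC801 F → BaseQC801 P F
                           → (∀ κ nowhere zero, ProdMtQC801 F κ)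
                           → ∃ Mt, H732.GlobQC732 F Mt ∧ H732.ConstrQRC732 P F Mt
    preGeoQRC_of_fifth801 : (the same leaves) → EkProdUpOpQC732 F → EkProdDownOpQC732 F
                           → RegSuppC F → RegSupp0C ℚ → H732.PreGeoQRC732 P F
-/

set_option autoImplicit false

open AutomorphicForm IsDedekindDomain NumberField MeasureTheory
open scoped ComplexConjugate

noncomputable section

namespace Fermat.Agent.LT.T7.CQ801

open Fermat.Agent.LT.H556 Fermat.Agent.LT.H556.A0 Fermat.Agent.LT.T7 Fermat.Agent.LT.T7.H305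
  Fermat.Agent.LT.T7.L2Q Fermat.Agent.LT.T7.H893 Fermat.Agent.LT.T7.H962
  Fermat.Agent.LT.T7.H732 Fermat.Agent.LT.T7.MQ298

attribute [local instance] Fermat.Agent.LT.T5.instMeasurableSpaceG

section Top

variable {P : EKCond}
variable {F : Type} [Field F] [NumberField F]

/-- **THE TOP OF THE FIRST CUT over `ℚ`, v2**: global matching from local matching with the
split clause for ONE enumeration.  The proof is the proof of `MQ298.globMatchQ_of298`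
(helper298), verbatim: it does not look at the local hypotheses. -/
theorem globMatchQb_of801 (hι : IotaQC298 F) (hU : UnfoldGC298 ℚ) (hU' : UnfoldC305 F)
    (hTc : TorCommC305 ℚ) (hTc' : TorCommC305 F)
    (hRep : TwistRepC305 F) (hEll : EllRegC305 ℚ F) (hHaar : TorHaarC305 ℚ)
    (hMeas : TorMeasQC298 F) (hComp : TorCompQC298 F) (hCut : CutIntQCb801 F) :
    GlobMatchQCb801 F := by
  intro hF D hD hcyc hl μr hμr μc hμc T₀ hram n m hlev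
  obtain ⟨ι, hιD⟩ := hι hF D hD hcyc hl
  obtain ⟨κ₀, hκ₀, hC⟩ := hCut hF D hD hcyc hl ι hιD μr hμr μc hμc T₀ hram n m hlev
  have hl0 : ((D.l : ℕ) : ℂ) ≠ 0 := by
    exact_mod_cast hcyc.prime.ne_zero
  refine ⟨κ₀ / (D.l : ℂ), div_ne_zero hκ₀ hl0, ?_⟩
  intro T T' hTT hT' φ₀ Φ f₀ F0 F1 hloc φ' f0 f1 hφ' hf0 hf1 htφ' hc0 hs0 hc1 hs1
  obtain ⟨hnorm, hnon⟩ := hC T T' hTT hT' φ₀ Φ f₀ F0 F1 hloc
  have eφ' : φ' = pure305 T' φ₀ Φ := funext hφ'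
  have ef : (fun x => f0 x + f1 x)
      = fun h => κ₀ / (D.l : ℂ) * pureQ298 T f₀ (fun g => F0 g + F1 g) h :=
    sum_eq_pureQ298 T f₀ F0 F1 _ f0 f1 hf0 hf1
  have hκ : κ₀ / (D.l : ℂ) ≠ 0 := div_ne_zero hκ₀ hl0
  have hcont : Continuous (fun x => f0 x + f1 x) := hc0.add hc1
  have hsupp : HasCompactSupport (fun x => f0 x + f1 x) := hs0.add hs1
  constructor
  · intro δ γ hγ hN Fδ Fγ hFδ hFγ
    obtain ⟨δ₁, Fδ₁, hN₁, hFδ₁, hint⟩ :=
      hRep D.R' hD.frame' D.s D.l D.k D.𝔑 hD.cyc hD.aut δ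
        (Matrix.GeneralLinearGroup.map (algebraMap ℚ F) γ) hN Fδ hFδ
    rw [← hint φ']
    obtain ⟨μT, μT', hμT, hμT', hlink⟩ := hMeas hF D hD hcyc hl ι hιD δ₁ γ hγ hN₁
    obtain ⟨β', β, hβ', hβ, hCI⟩ := hnorm δ₁ γ hγ hN₁ μT μT' hμT hμT' hlink
    have hreg := hEll D hD γ hγ
    have e1 := hU' D.R' hD.frame' D.s D.l D.k D.𝔑 hD.cyc hD.aut δ₁
      (by rw [hN₁]; exact hreg.1) φ' htφ' Fδ₁ hFδ₁
      (hTc' D.R' hD.frame' D.s D.l D.k D.𝔑 hD.cyc hD.aut δ₁ (by rw [hN₁]; exact hreg.1))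
      μT' hμT' β' (by rw [eφ']; exact hβ')
    have e2 := hU D.R hD.frame (T5.AdelicAut.id ℚ) 1 ⊤ D.𝔫 T5.isCyclicOfDegree_id
      (T5.autPreserves_id D.𝔫 D.R.μ D.R.r) γ hreg.2 (fun x => f0 x + f1 x) hcont hsupp Fγ hFγ
      (hTc D.R hD.frame (T5.AdelicAut.id ℚ) 1 ⊤ D.𝔫 T5.isCyclicOfDegree_id
        (T5.autPreserves_id D.𝔫 D.R.μ D.R.r) γ hreg.2)
      μT hμT β
      (by rw [ef, supp_const_mul305 _ _ hκ]; exact hβ)
    have e3 := hComp hF D hD hcyc hl ι hιD δ₁ γ hγ hN₁ Fδ₁ Fγ hFδ₁ hFγ μT μT' hμT hμT' hlink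
    rw [e1, e2, e3, eφ', hCI, ef, cutInt_const_mul305, ENNReal.toReal_mul]
    simp only [ENNReal.toReal_natCast]
    push_cast
    field_simp
  · intro γ hγ hno Fγ hFγ
    obtain ⟨μT, hμT⟩ := hHaar (T5.AdelicAut.id ℚ) γ
    obtain ⟨β, hβ, hCI⟩ := hnon γ hγ hno μT hμT
    have hreg := hEll D hD γ hγ
    have e2 := hU D.R hD.frame (T5.AdelicAut.id ℚ) 1 ⊤ D.𝔫 T5.isCyclicOfDegree_id
      (T5.autPreserves_id D.𝔫 D.R.μ D.R.r) γ hreg.2 (fun x => f0 x + f1 x) hcont hsupp Fγ hFγ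
      (hTc D.R hD.frame (T5.AdelicAut.id ℚ) 1 ⊤ D.𝔫 T5.isCyclicOfDegree_id
        (T5.autPreserves_id D.𝔫 D.R.μ D.R.r) γ hreg.2)
      μT hμT β
      (by rw [ef, supp_const_mul305 _ _ hκ]; exact hβ)
    rw [e2, ef, cutInt_const_mul305, hCI]
    simp

/-- The hypotheses on the arguments of the constant of the matching theorem over `ℚ`. -/
def KapHypQ801 (D : CompData ℚ F) (μr : @Measure (GL (Fin 2) ℝ) (borel _))
    (μc : @Measure (GL (Fin 2) ℂ) (borel _)) (T₀ : Finset (HeightOneSpectrum (𝓞 ℚ)))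
    (n : HeightOneSpectrum (𝓞 F) → ℕ) (m : HeightOneSpectrum (𝓞 ℚ) → ℕ) : Prop :=
  IsImagQuad F ∧ IsCompData D ∧ IsCycExt ℚ F D.l ∧ D.l = 2 ∧
    @Measure.IsHaarMeasure _ _ _ (borel _) μr ∧ @Measure.IsHaarMeasure _ _ _ (borel _) μc ∧
    UnramOut305 (K' := F) T₀ ∧ IsLevelAt305 T₀ n m

/-- **The constants of the matching theorem over `ℚ`, chosen**: nowhere zero and good. -/
theorem exists_goodKapQ801 (hG : GlobMatchQCb801 F) :
    ∃ κ : KapFnQ801 F, (∀ D μr μc T₀ n m, κ D μr μc T₀ n m ≠ 0) ∧ GoodKapQ801 κ := by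
  classical
  have hex : ∀ (D : CompData ℚ F) (μr : @Measure (GL (Fin 2) ℝ) (borel _))
      (μc : @Measure (GL (Fin 2) ℂ) (borel _)) (T₀ : Finset (HeightOneSpectrum (𝓞 ℚ)))
      (n : HeightOneSpectrum (𝓞 F) → ℕ) (m : HeightOneSpectrum (𝓞 ℚ) → ℕ),
      ∃ κ : ℂ, κ ≠ 0 ∧ (KapHypQ801 D μr μc T₀ n m → IsMatchConstQb801 F D μr μc T₀ n m κ) := by
    intro D μr μc T₀ n m
    by_cases h : KapHypQ801 D μr μc T₀ n m
    · obtain ⟨κ, hκ, hM⟩ := hG h.1 D h.2.1 h.2.2.1 h.2.2.2.1 μr h.2.2.2.2.1 μc h.2.2.2.2.2.1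
        T₀ h.2.2.2.2.2.2.1 n m h.2.2.2.2.2.2.2
      exact ⟨κ, hκ, fun _ => hM⟩
    · exact ⟨1, one_ne_zero, fun h' => absurd h' h⟩
  choose κ hκ hM using hex
  refine ⟨κ, hκ, ?_⟩
  intro hquad D hD hcyc hl μr hμr μc hμc T₀ hT₀ n m hnm
  exact hM D μr μc T₀ n m ⟨hquad, hD, hcyc, hl, hμr, hμc, hT₀, hnm⟩

/-- **THE MATCHING THEOREM over `ℚ` for the relation of record**, from the constants of the
matching theorem for pure tensors and the closure under averages. -/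
theorem globQC_of801 {κ : KapFnQ801 F} (hκ : GoodKapQ801 κ) (hA : AvgMatchQC801 F) :
    H732.GlobQC732 F (MtQ801 κ) := by
  intro _ hquad Φ B hB 𝔫 h𝔫 φ' f hMt _ _ _ _
  have hD : IsCompData (B.comp 𝔫) := isCompData_comp298 hB h𝔫
  have hcyc : IsCycExt ℚ F (B.comp 𝔫).l := isCycExt_of_imagQuad298 hquad
  have hl : (B.comp 𝔫).l = 2 := rfl
  obtain ⟨μr, μc, T₀, n, m, hμr, hμc, hT₀, hnm, Ω, iT, iC, i2, iS, iM, iB, ν, iF, T, T', φ₀,
    Φc, f₀, F0, F1, hL, ht', ht0, ht1, hc', hc0, hc1, hs', hs0, hs1, hφ', hf0, hf1⟩ := hMt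
  have hmatch : ∀ a : Ω, IsGlobMatch (B.comp 𝔫) (pure305 (T' a) (φ₀ a) (Φc a))
      (fun x => κ (B.comp 𝔫) μr μc T₀ n m * pureQ298 (T a) (f₀ a) (F0 a) x
        + κ (B.comp 𝔫) μr μc T₀ n m * pureQ298 (T a) (f₀ a) (F1 a) x) := fun a =>
    hκ hquad (B.comp 𝔫) hD hcyc hl μr hμr μc hμc T₀ hT₀ n m hnm (T a) (T' a) (hL a).1
      (hL a).2.1 (φ₀ a) (Φc a) (f₀ a) (F0 a) (F1 a) (hL a).2.2 _ _ _ (fun _ => rfl)
      (fun _ => rfl) (fun _ => rfl) (ht' a) (ht0 a).cont (ht0 a).supp (ht1 a).cont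
      (ht1 a).supp
  have hs0' : ∃ C : Set (G ℚ), IsCompact C ∧ ∀ (a : Ω) (h : G ℚ),
      κ (B.comp 𝔫) μr μc T₀ n m * pureQ298 (T a) (f₀ a) (F0 a) h ≠ 0 → h ∈ C := by
    obtain ⟨C, hC, hCs⟩ := hs0
    exact ⟨C, hC, fun a h hne => hCs a h (right_ne_zero_of_mul hne)⟩
  have hs1' : ∃ C : Set (G ℚ), IsCompact C ∧ ∀ (a : Ω) (h : G ℚ),
      κ (B.comp 𝔫) μr μc T₀ n m * pureQ298 (T a) (f₀ a) (F1 a) h ≠ 0 → h ∈ C := by
    obtain ⟨C, hC, hCs⟩ := hs1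
    exact ⟨C, hC, fun a h hne => hCs a h (right_ne_zero_of_mul hne)⟩
  have key := hA hquad (B.comp 𝔫) hD hcyc hl Ω iT iC i2 iS iM iB ν iF
    (fun a => pure305 (T' a) (φ₀ a) (Φc a))
    (fun a h => κ (B.comp 𝔫) μr μc T₀ n m * pureQ298 (T a) (f₀ a) (F0 a) h)
    (fun a h => κ (B.comp 𝔫) μr μc T₀ n m * pureQ298 (T a) (f₀ a) (F1 a) h)
    ht' ht0 ht1 hc' hc0 hc1 hs' hs0' hs1' hmatch
  have e1 : φ' = fun h => ∫ a, pure305 (T' a) (φ₀ a) (Φc a) h ∂ν := funext hφ'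
  have e2 : (fun x => f QWt.w0 x + f QWt.w1 x)
      = fun x => (∫ a, κ (B.comp 𝔫) μr μc T₀ n m * pureQ298 (T a) (f₀ a) (F0 a) x ∂ν)
        + ∫ a, κ (B.comp 𝔫) μr μc T₀ n m * pureQ298 (T a) (f₀ a) (F1 a) x ∂ν := by
    funext x
    rw [hf0 x, hf1 x]
  rw [e1, e2]
  exact key

/-- **THE TOP OF THE FIFTH CUT over `ℚ`**: the construction with families in the relation of
record from the base node and the calculus of pure tensors. -/
theorem constrQRC_of801 {κ : KapFnQ801 F} (hBase : BaseQC801 P F) (hProd : ProdMtQC801 F κ) :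
    H732.ConstrQRC732 P F (MtQ801 κ) := by
  intro h3 hquad Φ hΦ hconst hPΦ B hB hRam g hg
  obtain ⟨𝔫, μr, μc, hμr, hμc, hE⟩ := hBase h3 hquad Φ hΦ hconst hPΦ B hB hRam g hg
  obtain ⟨c, a, hc, ha, hM⟩ := hProd h3 hquad Φ B hB hRam g hg 𝔫 μr μc hμr hμc
  obtain ⟨E, h𝔫, hOp, hSupp, hDec⟩ := hE c a hc ha
  refine ⟨E, hOp, hSupp, fun X k m hX => ?_⟩
  have := hM E h𝔫 hOp hDec X k m hX
  rw [h𝔫]
  exact this

/-- **THE TWO NODES OF RECORD of the fourth cut over `ℚ`** (rows 2464, 2465), for ONE relation,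
from the leaves and nodes of the fifth cut. -/
theorem nodesQ_of_fifth801 (hG : GlobMatchQCb801 F) (hA : AvgMatchQC801 F)
    (hBase : BaseQC801 P F)
    (hProd : ∀ κ : KapFnQ801 F, (∀ D μr μc T₀ n m, κ D μr μc T₀ n m ≠ 0) → ProdMtQC801 F κ) :
    ∃ Mt : H732.MtRelQ732 F, H732.GlobQC732 F Mt ∧ H732.ConstrQRC732 P F Mt := by
  obtain ⟨κ, hκ0, hκ⟩ := exists_goodKapQ801 hG
  exact ⟨MtQ801 κ, globQC_of801 hκ hA, constrQRC_of801 hBase (hProd κ hκ0)⟩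

/-- **THE NODE `PreGeoQRC732`** (construction + matching, of record) from the leaves and nodes
of the fifth cut and the leaves of the third and fourth cut. -/
theorem preGeoQRC_of_fifth801 (hG : GlobMatchQCb801 F) (hA : AvgMatchQC801 F)
    (hBase : BaseQC801 P F)
    (hProd : ∀ κ : KapFnQ801 F, (∀ D μr μc T₀ n m, κ D μr μc T₀ n m ≠ 0) → ProdMtQC801 F κ)
    (h1 : EkProdUpOpQC732 F) (h2 : EkProdDownOpQC732 F)
    (hR : RegSuppC F) (hR0 : RegSupp0C ℚ) : H732.PreGeoQRC732 P F := by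
  obtain ⟨Mt, hGl, hC⟩ := nodesQ_of_fifth801 hG hA hBase hProd
  exact preGeoQRC_of732 hGl hC h1 h2 hR hR0

end Top

end Fermat.Agent.LT.T7.CQ801

end
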