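import Mathlib
import Fermat.Agent.LT.T7.H298.MatchQSpec2
import Fermat.Agent.LT.T7.H801.SupplyQConstrTop
import Fermat.Agent.LT.T7.H801.AvgMatchQ

/-!
# Row LT, tower T7, node T7.L2Q.1 (quadratic step `F = ℚ(√-3)` over `ℚ`):
# ONE FORM OF RECORD -- the bridge between the fifth cut over `ℚ` (helper801, row 2609) and the
# v2 of the matching chain of helper298 (`MatchQSpec2.lean`, sha256 07f84955)

OFF-MAIN.  PROVED, no hole, nothing assumed.  ADDITIVE (new names only, suffixed `801`).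

The local hypotheses `CQ801.LocHypQb801` (fifth cut over `ℚ`, 17:27Z) and `MQ298.LocHypQ298b`
(v2 of helper298, 17:38Z) are THE SAME structure under two names (split clause for ONE
enumeration; all clauses verbatim).  This file proves

    locHypQb_iff801        : LocHypQb801 D μr μc T n m φ₀ Φ f₀ F0 F1
                               ↔ MQ298.LocHypQ298b D μr μc T n m φ₀ Φ f₀ F0 F1
    isMatchConstQb_iff801  : IsMatchConstQb801 F D μr μc T₀ n m κ
                               ↔ MQ298.IsMatchConstQ298b F D μr μc T₀ n m κ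
    cutIntQCb_iff801       : CutIntQCb801 F ↔ MQ298.CutIntQC298b F
    globMatchQCb_iff801    : GlobMatchQCb801 F ↔ MQ298.GlobMatchQC298b F

and the tops of the fifth cut with the node of helper298 as hypothesis and the leaf AVG-MATCH
discharged (`avgMatchQC801`):

    nodesQ_of_open801   : MQ298.GlobMatchQC298b F → BaseQC801 P F
                            → (∀ κ nowhere zero, ProdMtQC801 F κ)
                            → ∃ Mt, H732.GlobQC732 F Mt ∧ H732.ConstrQRC732 P F Mt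

So the station of helper298 (rows 2464 / 2605 and below) works on the names `…298b` and the
construction nodes (`BaseQC801`, `ProdMtQC801`) on the names `…801`; nothing has to be
restated.
-/

set_option autoImplicit false

open AutomorphicForm IsDedekindDomain NumberField MeasureTheory
open scoped ComplexConjugate

noncomputable section

namespace Fermat.Agent.LT.T7.CQ801

open Fermat.Agent.LT.H556 Fermat.Agent.LT.H556.A0 Fermat.Agent.LT.T7 Fermat.Agent.LT.T7.H305
  Fermat.Agent.LT.T7.L2Q Fermat.Agent.LT.T7.H893 Fermat.Agent.LT.T7.H962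
  Fermat.Agent.LT.T7.H732 Fermat.Agent.LT.T7.MQ298

attribute [local instance] Fermat.Agent.LT.T5.instMeasurableSpaceG

section Bridge

variable {F : Type} [Field F] [NumberField F]

/-- The two forms of the local hypotheses with the split clause for ONE enumeration agree. -/
theorem locHypQb_iff801 {D : CompData ℚ F} {μr : @Measure (GL (Fin 2) ℝ) (borel _)}
    {μc : @Measure (GL (Fin 2) ℂ) (borel _)}
    {T : Finset (HeightOneSpectrum (𝓞 ℚ))}
    {n : HeightOneSpectrum (𝓞 F) → ℕ} {m : HeightOneSpectrum (𝓞 ℚ) → ℕ}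
    {φ₀ : ∀ w : HeightOneSpectrum (𝓞 F), GL (Fin 2) (w.adicCompletion F) → ℂ}
    {Φ : InfinitePlace F → GL (Fin 2) ℂ → ℂ}
    {f₀ : ∀ v : HeightOneSpectrum (𝓞 ℚ), GL (Fin 2) (v.adicCompletion ℚ) → ℂ}
    {F0 F1 : GL (Fin 2) ℝ → ℂ} :
    LocHypQb801 D μr μc T n m φ₀ Φ f₀ F0 F1
      ↔ MQ298.LocHypQ298b D μr μc T n m φ₀ Φ f₀ F0 F1 :=
  ⟨fun h => ⟨h.inv_up, h.inv_down, h.arch_up, h.arch_down0, h.arch_down1, h.inert, h.split,
      h.arch⟩,
    fun h => ⟨h.inv_up, h.inv_down, h.arch_up, h.arch_down0, h.arch_down1, h.inert, h.split,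
      h.arch⟩⟩

/-- The two forms of the local hypotheses agree, as predicates. -/
theorem locHypQb_eq801 : @LocHypQb801 F _ _ = @MQ298.LocHypQ298b F _ _ := by
  funext D μr μc T n m φ₀ Φ f₀ F0 F1
  exact propext locHypQb_iff801

variable (F)

/-- "`κ` is a matching constant": the two forms agree. -/
theorem isMatchConstQb_iff801 (D : CompData ℚ F) (μr : @Measure (GL (Fin 2) ℝ) (borel _))
    (μc : @Measure (GL (Fin 2) ℂ) (borel _)) (T₀ : Finset (HeightOneSpectrum (𝓞 ℚ)))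
    (n : HeightOneSpectrum (𝓞 F) → ℕ) (m : HeightOneSpectrum (𝓞 ℚ) → ℕ) (κ : ℂ) :
    IsMatchConstQb801 F D μr μc T₀ n m κ ↔ MQ298.IsMatchConstQ298b F D μr μc T₀ n m κ := by
  constructor
  · intro h T T' hT hO φ₀ Φ f₀ F0 F1 hL
    exact h T T' hT hO φ₀ Φ f₀ F0 F1 (locHypQb_iff801.2 hL)
  · intro h T T' hT hO φ₀ Φ f₀ F0 F1 hL
    exact h T T' hT hO φ₀ Φ f₀ F0 F1 (locHypQb_iff801.1 hL)

/-- The node GLOBAL MATCHING over `ℚ`, v2: the two forms agree. -/
theorem globMatchQCb_iff801 : GlobMatchQCb801 F ↔ MQ298.GlobMatchQC298b F := by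
  constructor
  · intro h hF D hD hC hl μr hμr μc hμc T₀ hU n m hL
    obtain ⟨κ, hκ0, hκ⟩ := h hF D hD hC hl μr hμr μc hμc T₀ hU n m hL
    exact ⟨κ, hκ0, (isMatchConstQb_iff801 F D μr μc T₀ n m κ).1 hκ⟩
  · intro h hF D hD hC hl μr hμr μc hμc T₀ hU n m hL
    obtain ⟨κ, hκ0, hκ⟩ := h hF D hD hC hl μr hμr μc hμc T₀ hU n m hL
    exact ⟨κ, hκ0, (isMatchConstQb_iff801 F D μr μc T₀ n m κ).2 hκ⟩

/-- The node CUT-INT over `ℚ`, v2: the two forms agree. -/
theorem cutIntQCb_iff801 : CutIntQCb801 F ↔ MQ298.CutIntQC298b F := by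
  constructor
  · intro h hF D hD hC hl ι hι μr hμr μc hμc T₀ hU n m hL
    obtain ⟨κ, hκ0, hκ⟩ := h hF D hD hC hl ι hι μr hμr μc hμc T₀ hU n m hL
    refine ⟨κ, hκ0, ?_⟩
    intro T T' hT hO φ₀ Φ f₀ F0 F1 hLoc
    exact hκ T T' hT hO φ₀ Φ f₀ F0 F1 (locHypQb_iff801.2 hLoc)
  · intro h hF D hD hC hl ι hι μr hμr μc hμc T₀ hU n m hL
    obtain ⟨κ, hκ0, hκ⟩ := h hF D hD hC hl ι hι μr hμr μc hμc T₀ hU n m hL
    refine ⟨κ, hκ0, ?_⟩
    intro T T' hT hO φ₀ Φ f₀ F0 F1 hLoc
    exact hκ T T' hT hO φ₀ Φ f₀ F0 F1 (locHypQb_iff801.1 hLoc)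

variable {F}
variable {P : EKCond}

/-- **THE TWO NODES OF RECORD** `GlobQC732`, `ConstrQRC732` from the node of helper298
(`GlobMatchQC298b`) and the two nodes of the construction; AVG-MATCH is discharged. -/
theorem nodesQ_of_open801 (hG : MQ298.GlobMatchQC298b F) (hBase : BaseQC801 P F)
    (hProd : ∀ κ : KapFnQ801 F, (∀ D μr μc T₀ n m, κ D μr μc T₀ n m ≠ 0) → ProdMtQC801 F κ) :
    ∃ Mt : H732.MtRelQ732 F, H732.GlobQC732 F Mt ∧ H732.ConstrQRC732 P F Mt :=
  nodesQ_of_fifth801 ((globMatchQCb_iff801 F).2 hG) (avgMatchQC801 F) hBase hProd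

end Bridge

end Fermat.Agent.LT.T7.CQ801

end
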