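import Mathlib
import Fermat.Agent.LT.T7.H756.BaseQLeaves
import Fermat.Agent.LT.T7.H801.BaseQCutSpec
import Fermat.Agent.LT.T7.H801.SupplyQBridge

/-!
# Row LT, tower T7, node T7.L2Q.1.H2a `CQ801.BaseQC801`: SECOND CUT -- proved tops

OFF-MAIN.  Complete proofs, nothing assumed.  ADDITIVE.

    baseQC_of_pairs801' : HaarRC57 → HaarCC57 → DivSetC57 ℚ → LevFnC57 ℚ → LevFnC57 F
                            → SysQC57 F → PairAQC801 P F → PairBQC801 P F → BaseQC801 P F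
    baseQC_of_pairs801  : PairAQC801 P F → PairBQC801 P F → BaseQC801 P F
                            (the five small leaves discharged: helper756 `BaseQLeaves.lean`)
    nodesQ_of_pairs801  : MQ298.GlobMatchQC298b F → PairAQC801 P F → PairBQC801 P F
                            → (∀ κ nowhere zero, ProdMtQC801 F κ)
                            → ∃ Mt, H732.GlobQC732 F Mt ∧ H732.ConstrQRC732 P F Mt
-/

set_option autoImplicit false

open AutomorphicForm IsDedekindDomain NumberField MeasureTheory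
open scoped ComplexConjugate

noncomputable section

namespace Fermat.Agent.LT.T7.CQ801

open Fermat.Agent.LT.H556 Fermat.Agent.LT.H556.A0 Fermat.Agent.LT.T7 Fermat.Agent.LT.T7.H305
  Fermat.Agent.LT.T7.L2Q Fermat.Agent.LT.T7.H893 Fermat.Agent.LT.T7.H962
  Fermat.Agent.LT.T7.H732 Fermat.Agent.LT.T7.MQ298

attribute [local instance] Fermat.Agent.LT.T5.instMeasurableSpaceG

section Top

variable {P : EKCond}
variable {F : Type} [Field F] [NumberField F]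

/-- **The pre-data assembled from the level, the coset systems and the two pairs have the
operator properties.** -/
theorem isL2QPreOp_of_pairs801 {Φ : HeckeEigensystem F ℂ} {B : L2QBase962 F} {g : G F}
    {𝔫 : Ideal (𝓞 ℚ)} {μr : @Measure (GL (Fin 2) ℝ) (borel _)}
    {μc : @Measure (GL (Fin 2) ℂ) (borel _)} {T₀ : Finset (HeightOneSpectrum (𝓞 ℚ))}
    {n n₀ : HeightOneSpectrum (𝓞 F) → ℕ} {m : HeightOneSpectrum (𝓞 ℚ) → ℕ} {c a : ℂ}
    {c₁ c₂ : EigData F → ℂ} {Φ₁ : List (Gen F) → G F → ℂ} {φ₂ : G F → ℂ}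
    {F₁ : QWt → List (Gen F) → G ℚ → ℂ} {f₂ : QWt → G ℚ → ℂ}
    {Hg H' : Finset (G F)} {z' : G F} {H : Finset (G ℚ)} {z : G ℚ}
    (hlev : CQ57.IsLevQ57 B 𝔫) (hsys : CQ57.IsSysQ57 B g Hg H' z' H z)
    (h1 : IsPairAQ801 Φ B 𝔫 c T₀ n m c₁ Φ₁ F₁)
    (h2 : IsPairBQ801 Φ B g 𝔫 μr μc c a T₀ n n₀ m c₂ φ₂ f₂) (m₀ : List (Gen F) → ℕ) :
    IsL2QPreOp732 Φ B g ⟨𝔫, c₁, c₂, Φ₁, φ₂, F₁, f₂, Hg, H', z', H, z, m₀⟩ where
  level_ne := hlev.level_ne
  level_g := hlev.level_g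
  mem_S'_g := hlev.mem_S'_g
  u_level := hlev.u_level
  sysg := hsys.sysg
  sys' := hsys.sys'
  unif' := hsys.unif'
  sys := hsys.sys
  unif := hsys.unif
  up1_test := h1.up1_test
  up1_ek := h1.up1_ek
  up1_op := h1.up1_op
  up2_test := h2.up2_test
  up2_ek := h2.up2_ek
  up2_inv := h2.up2_inv
  up2_op := h2.up2_op
  up2_kill := h2.up2_kill
  up_ne := fun C hC => ⟨h1.up1_ne C hC, h2.up2_ne C hC⟩
  dn1_test := h1.dn1_test
  dn1_ek := h1.dn1_ek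
  dn1_op := h1.dn1_op
  dn1_wfn := h1.dn1_wfn
  dn1_class := h1.dn1_class
  dn1_comm := h1.dn1_comm
  dn2_test := h2.dn2_test
  dn2_ek := h2.dn2_ek
  dn2_inv := h2.dn2_inv
  dn2_wfn := h2.dn2_wfn
  dn2_class := h2.dn2_class
  dn2_comm := h2.dn2_comm
  dn2_kill := h2.dn2_kill

/-- **THE TOP OF THE SECOND CUT** (with the small leaves as hypotheses): the base node of the
construction over `ℚ` from the two pairs, the coset systems and the small leaves. -/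
theorem baseQC_of_pairs801' (hHr : CQ57.HaarRC57) (hHc : CQ57.HaarCC57)
    (hDiv : CQ57.DivSetC57 ℚ) (hLq : CQ57.LevFnC57 ℚ) (hLF : CQ57.LevFnC57 F)
    (hSys : CQ57.SysQC57 F)
    (h1 : PairAQC801 P F) (h2 : PairBQC801 P F) : BaseQC801 P F := by
  intro h3 hquad Φ hΦ hconst hPΦ B hB hram g hg
  obtain ⟨μr, hμr⟩ := hHr
  obtain ⟨μc, hμc⟩ := hHc
  have hB' := isL2QBase962_of60_732 hB
  obtain ⟨𝔫, hlev, hP2⟩ := h2 h3 hquad Φ hΦ hconst hPΦ B hB hram g hg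
  obtain ⟨T₀, hT₀⟩ := hDiv 𝔫 hlev.level_ne
  obtain ⟨m, hm⟩ := hLq 𝔫 hlev.level_ne
  obtain ⟨n, hn⟩ := hLF (upI (K' := F) 𝔫) (upI_ne_bot962 hlev.level_ne)
  have h𝔑₀ : (toBase962_732 B).𝔑₀ ≠ ⊥ := by
    obtain ⟨𝔫₀, h𝔫₀, h𝔑, -, -⟩ := hB'.base_level
    rw [h𝔑]
    exact upI_ne_bot962 h𝔫₀
  obtain ⟨n₀, hn₀⟩ := hLF _ h𝔑₀
  have hfn : CQ57.IsLevFnQ57 (toBase962_732 B) 𝔫 T₀ n n₀ m := ⟨hT₀, hm, hn, hn₀⟩
  obtain ⟨Hg, H', z', H, z, hsys⟩ := hSys Φ _ hB' g hg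
  refine ⟨𝔫, μr, μc, hμr, hμc, fun c a hc ha => ?_⟩
  obtain ⟨c₁, Φ₁, F₁, hp1⟩ :=
    h1 h3 hquad Φ hΦ hconst hPΦ B hB hram 𝔫 hlev T₀ n n₀ m hfn c hc
  obtain ⟨c₂, φ₂, f₂, hp2⟩ := hP2 μr μc hμr hμc T₀ n n₀ m hfn c a hc ha
  refine ⟨⟨𝔫, c₁, c₂, Φ₁, φ₂, F₁, f₂, Hg, H', z', H, z, fun _ => 0⟩, rfl,
    isL2QPreOp_of_pairs801 hlev hsys hp1 hp2 _, ?_, ?_⟩
  · exact ⟨hp1.up1_supp, hp2.up2_supp, hp1.dn1_supp, hp2.dn2_supp⟩
  · exact ⟨T₀, n, n₀, m, hT₀, hm, hn, hn₀, hp1.shape, hp2.shape⟩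

/-- **THE TOP OF THE SECOND CUT**: the base node of the construction over `ℚ` from the two
pairs (the five small leaves are closed: helper756). -/
theorem baseQC_of_pairs801 (h1 : PairAQC801 P F) (h2 : PairBQC801 P F) : BaseQC801 P F :=
  baseQC_of_pairs801' H756.haarRC756 H756.haarCC756 (H756.divSetC756 ℚ) (H756.levFnC756 ℚ)
    (H756.levFnC756 F) (H756.sysQC756 F) h1 h2

/-- **THE TWO NODES OF RECORD** `GlobQC732`, `ConstrQRC732` (rows 2464, 2465), for ONE relation,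
from the open nodes of the quadratic step: the matching node of helper298 (v2), the two pairs
and the calculus of pure tensors. -/
theorem nodesQ_of_pairs801 (hG : MQ298.GlobMatchQC298b F)
    (h1 : PairAQC801 P F) (h2 : PairBQC801 P F)
    (hProd : ∀ κ : KapFnQ801 F, (∀ D μr μc T₀ n m, κ D μr μc T₀ n m ≠ 0) → ProdMtQC801 F κ) :
    ∃ Mt : H732.MtRelQ732 F, H732.GlobQC732 F Mt ∧ H732.ConstrQRC732 P F Mt :=
  nodesQ_of_open801 hG (baseQC_of_pairs801 h1 h2) hProd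

end Top

end Fermat.Agent.LT.T7.CQ801

end
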