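import Mathlib
import Fermat.Agent.LT.T7.H801.BaseQCutSpec

/-!
# Row LT, tower T7, node T7.L2Q.1.H2a.A `CQ801.PairAQC801` (first pair of the construction over
# `ℚ`, registry row 2855): CUT -- Spec

OFF-MAIN.  Definitions and frozen Props only (the proved top is `PairAQCutTop.lean`).  No hole,
nothing assumed.  ADDITIVE (new names only, all suffixed `801`, namespace
`Fermat.Agent.LT.T7.CQ801`).

    pairAQC_of801 : BaseAQC801 P F → StepTQC801 F → StepSQC801 F → PairAQC801 P F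

## The cut: INDUCTION ON THE FINITE PART OF THE WORD (mirror of helper981, `T7/B981/PairASpec.lean`
## 54ea7f02), THE SPHERE MEANS IN THE BASE

As in the cubic step the fields of `IsPairAQ801` are word-free (`IsGoodAQ801`: test functions,
Eisenstein-killing, supports, local shape) or operator identities (`IsStepAQ801`), and a finite
generator `x = T_w, S_w^{±1}` (`w ∉ S'`) is ONE STEP `φ' = φ ⋆ Θ_x`, `f' t = f t ⋆ b(Θ_x)` (the
base change of the Hecke measure, `ℓ = 2`; THE SAME for the two types) which multiplies the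
operators by `x(C)` and preserves `IsGoodAQ801` -- for EVERY good pair.  These are the nodes
`StepTQC801`, `StepSQC801` (mirror of `B981.StepTC981`, `B981.StepSC981`; same construction,
same proofs, `ℓ = 2`, two types downstairs).

THE SPHERE MEANS ARE DIFFERENT over `ℚ` (the real place does not split).  Upstairs
`x = M_{w,d}` is the convolution with the sphere measure of radius `d` of `GL₂(ℂ)`.  Downstairs
the multiplier `4π sphC(2s)(cosh d)` on the classes of parameter `s` (`L2Q.IsBCDataQ`) is the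
spherical transform of a SINGULAR kernel on `GL₂(ℝ)` (weight `0`: a multiple of
`(cosh 2d - cosh t)^{-1/2}` on the ball of radius `2d`, Mehler--Dirichlet), which is not in the
vocabulary of the stations.  In the vocabulary of the stations the pair after the step is
RE-SYNTHESISED from its `N`-integral: `N`-integral upstairs `β' ⋆ A(σ_d)` (a symmetric bump),
components downstairs with `N`-integral `halfQ801 c (β' ⋆ A(σ_d))` (`T3.R.AbelRealC`), and the
operators / the Eisenstein-killing property come from the formulas of station T3.18R for pure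
pairs (`T3.R.AbelSatakeRC`, `ekOfPairR`), NOT from the properties of the pair before the step.
So the sphere means belong to the BASE: the words commute (`wordEv` is a product), and

* **`BaseAQC801 P F`** (NODE; stations T3.18M over `F` + T3.18R over `ℚ` + T6): a scalar `c₁` and
  for EVERY word `D` of sphere means a good pair `(φ D, f D)` with
  `R(φ D) χ = D(C) c₁(C) χ`, `R(f D t) χ = D(C) R(f [] t) χ`, `c₁ ≠ 0` on the class of `Φ`, and
  the three properties of `R(f [] t)`.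
* **`StepTQC801 F`**, **`StepSQC801 F`** (NODES; generic steps).

The top applies the finite generators of `X` (in their order) to the base pair of the sphere
means of `X`.

FALSITY CHECKS (helper801).  (a) `wordEv` is a product in `ℂ`: the order of the generators does
not matter for the operator fields; the functions `Φ₁ X`, `F₁ t X` are chosen by the top.
(b) The base for a word `D` of sphere means: upstairs `φ D = φ [] ⋆ σ_{d₁} ⋆ …` (generic step,
as `B981.StepMC981`); downstairs the re-synthesis; the Abel transform of the sphere measure of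
radius `d` of `GL₂(ℂ)` is a multiple of the indicator function of `[-d, d]` (Archimedes), so
`β' ⋆ A(σ_d)` is a symmetric bump and telescoping is preserved (a convolution in the
archimedean variable commutes with the translations of the coordinate group).  (c) `c₁` does
not depend on `D`.  (d) The steps are for ONE constant `c` (the components at infinity are not
touched by a finite generator).  (e) The ramified prime is in `S` (`IsRamQ60`): a finite
generator outside `S'` is at a place which is inert or split.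
-/

set_option autoImplicit false

open AutomorphicForm IsDedekindDomain NumberField MeasureTheory
open scoped ComplexConjugate

noncomputable section

namespace Fermat.Agent.LT.T7.CQ801

open Fermat.Agent.LT.H556 Fermat.Agent.LT.H556.A0 Fermat.Agent.LT.T7 Fermat.Agent.LT.T7.H305
  Fermat.Agent.LT.T7.L2Q Fermat.Agent.LT.T7.H893 Fermat.Agent.LT.T7.H962
  Fermat.Agent.LT.T7.H732 Fermat.Agent.LT.T7.MQ298

attribute [local instance] Fermat.Agent.LT.T5.instMeasurableSpaceG

/-! ## 1. Vocabulary -/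

section Vocab

variable {F : Type} [Field F] [NumberField F]

/-- The generator is a sphere mean (Boolean form). -/
def isMGen801 : Gen F → Bool
  | Gen.T _ => false
  | Gen.S _ => false
  | Gen.Sinv _ => false
  | Gen.M _ _ => true

/-- `D` is a word of sphere means of positive radius. -/
def IsMWord801 (D : List (Gen F)) : Prop :=
  ∀ x ∈ D, ∃ (w : InfinitePlace F) (d : ℝ), 0 < d ∧ x = Gen.M w d

/-- **THE WORD-FREE PROPERTIES** of a pair `(φ, f)` (`φ` over `F`, `f t` over `ℚ` of type `t`):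
the fields `up1_test`, `up1_ek`, `dn1_test`, `dn1_ek`, `up1_supp`, `dn1_supp`, `shape` of
`IsPairAQ801` for ONE word. -/
structure IsGoodAQ801 (B : L2QBase962 F) (𝔫 : Ideal (𝓞 ℚ)) (c : ℂ)
    (T₀ : Finset (HeightOneSpectrum (𝓞 ℚ)))
    (n : HeightOneSpectrum (𝓞 F) → ℕ) (m : HeightOneSpectrum (𝓞 ℚ) → ℕ)
    (φ : G F → ℂ) (f : QWt → G ℚ → ℂ) : Prop where
  up_test : T5.IsTestFn (upI (K' := F) 𝔫) T5.trivType φ
  up_ek : T5.IsEK B.R'.μ φ ∧ T5.IsEK B.R'.μ (T5.adjointFn φ)
  dn_test : ∀ t : QWt, T5.IsTestFn 𝔫 t.type (f t)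
  dn_ek : ∀ t : QWt, T5.IsEK B.R.μ (f t) ∧ T5.IsEK B.R.μ (T5.adjointFn (f t))
  up_supp : ∃ C : Set (G F), IsCompact C ∧ T5.H32.IsIwSupported32 2 B.o C φ
  dn_supp : ∀ t : QWt,
    ∃ C : Set (G ℚ), IsCompact C ∧ T5.H32.IsIwSupported32 1 (fun _ => B.u) C (f t)
  shape : IsAvgPureQ801 (upI (K' := F) 𝔫) 𝔫 T₀ (LocAQ801 c T₀ n m) 1
    φ (f QWt.w0) (f QWt.w1)

/-- **THE STEP RELATION**: `(φ', f')` is obtained from `(φ, f)` by the generator `x`: the
operators on the eigenfunctions are multiplied by `x(C)`. -/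
structure IsStepAQ801 (B : L2QBase962 F) (𝔫 : Ideal (𝓞 ℚ)) (x : Gen F)
    (φ : G F → ℂ) (f : QWt → G ℚ → ℂ) (φ' : G F → ℂ) (f' : QWt → G ℚ → ℂ) : Prop where
  up : ∀ (χ : G F → ℂ) (C : EigData F), IsEigFn B.𝔑₀ B.R'.r 2 B.o χ C →
    ∀ y : G F, T5.Rconv B.R'.μ φ' χ y = x.ev C * T5.Rconv B.R'.μ φ χ y
  dn : ∀ (t : QWt) (χ : G ℚ → ℂ) (c : EigData ℚ) (C : EigData F),
    IsEigFnQ t 𝔫 B.R.r B.u χ c → IsBCDataQ t c C B.S →
    ∀ y : G ℚ, T5.Rconv B.R.μ (f' t) χ y = x.ev C * T5.Rconv B.R.μ (f t) χ y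

/-- **THE OPERATOR OF THE BASE FUNCTIONS DOWNSTAIRS**: the fields `dn1_wfn`, `dn1_class`,
`dn1_comm` of `IsPairAQ801` for the functions `f t = F₁ t []` (same statements). -/
structure IsDnStabQ801 (B : L2QBase962 F) (𝔫 : Ideal (𝓞 ℚ)) (f : QWt → G ℚ → ℂ) : Prop where
  wfn : ∀ (t : QWt) (ψ : G ℚ → ℂ), IsWFnQ t 𝔫 B.R.r B.u ψ →
    IsWFnQ t 𝔫 B.R.r B.u (T5.Rconv B.R.μ (f t) ψ)
  cls : ∀ (t : QWt) (ψ : G ℚ → ℂ) (c : EigData ℚ), IsEigFnQ t 𝔫 B.R.r B.u ψ c →
    IsEigFnQ t 𝔫 B.R.r B.u (T5.Rconv B.R.μ (f t) ψ) c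
  comm : ∀ (t : QWt) (ψ : G ℚ → ℂ), IsWFnQ t 𝔫 B.R.r B.u ψ →
    ∀ (H : Finset (G ℚ)) (z : G ℚ), IsIwCosetSystem B.u H → IsScalarUniformizerAt B.u z →
      (∀ x : G ℚ, T5.Rconv B.R.μ (f t) (iwOp B.u H ψ) x
        = iwOp B.u H (T5.Rconv B.R.μ (f t) ψ) x) ∧
      ∀ (k : ℤ) (x : G ℚ), T5.Rconv B.R.μ (f t) (shiftOp z k ψ) x
        = shiftOp z k (T5.Rconv B.R.μ (f t) ψ) x

/-- **THE PROPERTIES OF THE BASE FAMILY** `(φ D, f D)`, `D` a word of sphere means, with the
scalar `c₁`. -/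
structure IsBaseAQ801 (Φ : HeckeEigensystem F ℂ) (B : L2QBase962 F) (𝔫 : Ideal (𝓞 ℚ)) (c : ℂ)
    (T₀ : Finset (HeightOneSpectrum (𝓞 ℚ)))
    (n : HeightOneSpectrum (𝓞 F) → ℕ) (m : HeightOneSpectrum (𝓞 ℚ) → ℕ)
    (c₁ : EigData F → ℂ) (φ : List (Gen F) → G F → ℂ)
    (f : List (Gen F) → QWt → G ℚ → ℂ) : Prop where
  good : ∀ D : List (Gen F), IsMWord801 D → IsGoodAQ801 B 𝔫 c T₀ n m (φ D) (f D)
  up_op : ∀ D : List (Gen F), IsMWord801 D →
    ∀ (χ : G F → ℂ) (C : EigData F), IsEigFn B.𝔑₀ B.R'.r 2 B.o χ C →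
      ∀ y : G F, T5.Rconv B.R'.μ (φ D) χ y = wordEv D C * c₁ C * χ y
  up_ne : ∀ C : EigData F, C.AgreeOut B.S' (eigOf Φ) → c₁ C ≠ 0
  dn_op : ∀ D : List (Gen F), IsMWord801 D →
    ∀ (t : QWt) (χ : G ℚ → ℂ) (c : EigData ℚ) (C : EigData F),
      IsEigFnQ t 𝔫 B.R.r B.u χ c → IsBCDataQ t c C B.S →
      ∀ y : G ℚ, T5.Rconv B.R.μ (f D t) χ y = wordEv D C * T5.Rconv B.R.μ (f [] t) χ y
  dn_stab : IsDnStabQ801 B 𝔫 (f [])

end Vocab

/-! ## 2. The nodes -/

section Nodes

variable (P : EKCond)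
variable (F : Type) [Field F] [NumberField F]

/-- **NODE A.0 over `ℚ` = BASE (the words of sphere means; stations T3.18M + T3.18R + T6).**  For
a common part of helper60 with `3 ∈ S`, every level with the level properties, the exponents
of the level and every constant `c ≠ 0`: a scalar `c₁` and for every word `D` of sphere means
ONE pair `(φ D, f D)` with the word-free properties, `R(φ D) χ = D(C) c₁(C) χ` on the
eigenfunctions of the base level upstairs, `R(f D t) χ = D(C) R(f [] t) χ` downstairs,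
`c₁ ≠ 0` on the class of `Φ`, and the three properties of `R(f [] t)`.
Of record for `P = T7.ekMulti`.  Construction: header. -/
def BaseAQC801 : Prop :=
  HasSqrtNegThree F → IsImagQuad F →
    ∀ Φ : HeckeEigensystem F ℂ, A0.IsCuspAdelicSph0 F Φ → ConstOnFibresQ Φ → P F Φ →
      ∀ B : L2Q.H60.L2QBase F, L2Q.H60.IsL2QBase Φ B → L2Q.H60.IsRamQ60 B →
      ∀ 𝔫 : Ideal (𝓞 ℚ), CQ57.IsLevQ57 (toBase962_732 B) 𝔫 →
      ∀ (T₀ : Finset (HeightOneSpectrum (𝓞 ℚ)))
        (n n₀ : HeightOneSpectrum (𝓞 F) → ℕ) (m : HeightOneSpectrum (𝓞 ℚ) → ℕ),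
        CQ57.IsLevFnQ57 (toBase962_732 B) 𝔫 T₀ n n₀ m →
        ∀ c : ℂ, c ≠ 0 →
          ∃ (c₁ : EigData F → ℂ) (φ : List (Gen F) → G F → ℂ)
            (f : List (Gen F) → QWt → G ℚ → ℂ),
            IsBaseAQ801 Φ (toBase962_732 B) 𝔫 c T₀ n m c₁ φ f

/-- The step for the generators `x` which satisfy `Q` (the common form of the step nodes). -/
def StepGQC801 (Q : Gen F → Prop) : Prop :=
  HasSqrtNegThree F → IsImagQuad F →
    ∀ (Φ : HeckeEigensystem F ℂ) (B : L2Q.H60.L2QBase F), L2Q.H60.IsL2QBase Φ B →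
      L2Q.H60.IsRamQ60 B →
      ∀ 𝔫 : Ideal (𝓞 ℚ), CQ57.IsLevQ57 (toBase962_732 B) 𝔫 →
      ∀ (T₀ : Finset (HeightOneSpectrum (𝓞 ℚ)))
        (n n₀ : HeightOneSpectrum (𝓞 F) → ℕ) (m : HeightOneSpectrum (𝓞 ℚ) → ℕ),
        CQ57.IsLevFnQ57 (toBase962_732 B) 𝔫 T₀ n n₀ m →
        ∀ c : ℂ, c ≠ 0 →
        ∀ x : Gen F, Q x → x.Out (toBase962_732 B).S' →
        ∀ (φ : G F → ℂ) (f : QWt → G ℚ → ℂ),
          IsGoodAQ801 (toBase962_732 B) 𝔫 c T₀ n m φ f →
          ∃ p : (G F → ℂ) × (QWt → G ℚ → ℂ),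
            IsGoodAQ801 (toBase962_732 B) 𝔫 c T₀ n m p.1 p.2 ∧
              IsStepAQ801 (toBase962_732 B) 𝔫 x φ f p.1 p.2

/-- **NODE A.1 over `ℚ` = STEP-T** (`x = T_w`, `w ∉ S'`).  `φ'(g) = q_w^{-1/2} ∑_{h ∈ H} φ(g z⁻¹ h)`
(`H` a Hecke coset system at `w`, `z` a scalar uniformiser at `w`; CAUTION on the side of the
cosets: header of `B981/PairASpec.lean`); downstairs, for BOTH types, the base change: `w` the
only place over `v` (`v` inert, residue degree `2`): `f t ⋆` the element with Satake transform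
`x² + y²` (`T6.BCExistsC`); `v` split: `f' t (g) = q_v^{-1/2} ∑_{h ∈ H_v} f t (g z_v⁻¹ h)`.
Mirror of `B981.StepTC981` (`ℓ = 2`). -/
def StepTQC801 : Prop :=
  StepGQC801 F fun x => ∃ w : HeightOneSpectrum (𝓞 F), x = Gen.T w

/-- **NODE A.2 over `ℚ` = STEP-S** (`x = S_w` or `x = S_w⁻¹`, `w ∉ S'`).  `φ' = φ(· z^{∓ 1})`, `z` a
scalar uniformiser at `w`; downstairs, for BOTH types, `f' t = f t (· z_v^{∓ f})`, `z_v` a scalar
uniformiser at the place `v` under `w`, `f` the residue degree of `w` (`2` or `1`).  Mirror of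
`B981.StepSC981` (`ℓ = 2`). -/
def StepSQC801 : Prop :=
  StepGQC801 F fun x => ∃ w : HeightOneSpectrum (𝓞 F), x = Gen.S w ∨ x = Gen.Sinv w

end Nodes

/-! ## Appendix: the equation lemmas of the definitions of this file are realised HERE -/

theorem eqns_realised_pairAQCut801 : True := by
  have _h0_0 := @IsMWord801.eq_1
  have _h0_1 := @IsMWord801.eq_def
  have _h0_2 := @IsMWord801.eq_unfold
  have _h1_0 := @BaseAQC801.eq_1
  have _h1_1 := @BaseAQC801.eq_def
  have _h1_2 := @BaseAQC801.eq_unfold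
  have _h2_0 := @StepGQC801.eq_1
  have _h2_1 := @StepGQC801.eq_def
  have _h2_2 := @StepGQC801.eq_unfold
  have _h3_0 := @StepTQC801.eq_1
  have _h3_1 := @StepTQC801.eq_def
  have _h3_2 := @StepTQC801.eq_unfold
  have _h4_0 := @StepSQC801.eq_1
  have _h4_1 := @StepSQC801.eq_def
  have _h4_2 := @StepSQC801.eq_unfold
  have _h5_0 := @isMGen801.eq_1
  have _h5_1 := @isMGen801.eq_2
  have _h5_2 := @isMGen801.eq_3
  have _h5_3 := @isMGen801.eq_4
  have _h5_4 := @isMGen801.eq_def
  have _h5_5 := @isMGen801.eq_unfold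
  trivial

end Fermat.Agent.LT.T7.CQ801

end
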