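import Mathlib
import Fermat.Agent.LT.T7.H801.PairAQCutSpec
import Fermat.Agent.LT.T7.H801.BaseQCutTop

/-!
# Row LT, tower T7, node T7.L2Q.1.H2a.A `CQ801.PairAQC801` (registry row 2855): CUT -- the PROVED
# top

OFF-MAIN.  Complete proofs, nothing assumed.  ADDITIVE (new names only, suffix `801`).

    stepFin_of801  : StepTQC801 F → StepSQC801 F → StepGQC801 F (fun x => isMGen801 x = false)
    pairAQC_of801  : BaseAQC801 P F → StepTQC801 F → StepSQC801 F → PairAQC801 P F
    baseQC_of_cut801 : BaseAQC801 P F → StepTQC801 F → StepSQC801 F → PairBQC801 P F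
                         → BaseQC801 P F

The finite generators of the word `X` are applied, in their order, to the base pair of the
word of the sphere means of `X`; `wordEv X C = wordEv (finite part) C * wordEv (sphere means) C`.
-/

set_option autoImplicit false

open AutomorphicForm IsDedekindDomain NumberField MeasureTheory
open scoped ComplexConjugate

noncomputable section

namespace Fermat.Agent.LT.T7.CQ801

open Fermat.Agent.LT.H556 Fermat.Agent.LT.H556.A0 Fermat.Agent.LT.T7 Fermat.Agent.LT.T7.H305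
  Fermat.Agent.LT.T7.L2Q Fermat.Agent.LT.T7.H893 Fermat.Agent.LT.T7.H962
  Fermat.Agent.LT.T7.H732 Fermat.Agent.LT.T7.MQ298

attribute [local instance] Fermat.Agent.LT.T5.instMeasurableSpaceG

variable {P : EKCond}
variable {F : Type} [Field F] [NumberField F]

theorem wordEv_nil801 (C : EigData F) : wordEv ([] : List (Gen F)) C = 1 := by
  simp [wordEv]

theorem wordEv_cons801 (x : Gen F) (X : List (Gen F)) (C : EigData F) :
    wordEv (x :: X) C = x.ev C * wordEv X C := by
  simp [wordEv]

/-- The word of the sphere means of a word. -/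
def mPart801 (X : List (Gen F)) : List (Gen F) := X.filter isMGen801

/-- The word of the finite generators of a word. -/
def fPart801 (X : List (Gen F)) : List (Gen F) := X.filter fun x => !isMGen801 x

theorem mPart_nil801 : mPart801 ([] : List (Gen F)) = [] := rfl

theorem fPart_nil801 : fPart801 ([] : List (Gen F)) = [] := rfl

/-- The eigenvalue of a word is the product of the eigenvalues of its two parts. -/
theorem wordEv_split801 (X : List (Gen F)) (C : EigData F) :
    wordEv X C = wordEv (fPart801 X) C * wordEv (mPart801 X) C := by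
  induction X with
  | nil => simp [mPart801, fPart801, wordEv]
  | cons x X ih =>
    rw [wordEv_cons801, ih]
    cases hx : isMGen801 x with
    | true =>
      have h1 : mPart801 (x :: X) = x :: mPart801 X := by
        simp [mPart801, List.filter_cons, hx]
      have h2 : fPart801 (x :: X) = fPart801 X := by
        simp [fPart801, List.filter_cons, hx]
      rw [h1, h2, wordEv_cons801]
      ring
    | false =>
      have h1 : mPart801 (x :: X) = mPart801 X := by
        simp [mPart801, List.filter_cons, hx]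
      have h2 : fPart801 (x :: X) = x :: fPart801 X := by
        simp [fPart801, List.filter_cons, hx]
      rw [h1, h2, wordEv_cons801]
      ring

/-- The sphere means of a word outside `S'` form a word of sphere means of positive radius. -/
theorem isMWord_mPart801 {S' : Finset (HeightOneSpectrum (𝓞 F))} {X : List (Gen F)}
    (hX : ∀ x ∈ X, x.Out S') : IsMWord801 (mPart801 X) := by
  intro x hx
  have hx' := List.mem_filter.1 hx
  have hout := hX x hx'.1
  cases x with
  | T w => exact absurd hx'.2 (by simp [isMGen801])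
  | S w => exact absurd hx'.2 (by simp [isMGen801])
  | Sinv w => exact absurd hx'.2 (by simp [isMGen801])
  | M w d => exact ⟨w, d, hout, rfl⟩

/-- The finite generators of a word outside `S'`. -/
theorem fPart_spec801 {S' : Finset (HeightOneSpectrum (𝓞 F))} {X : List (Gen F)}
    (hX : ∀ x ∈ X, x.Out S') :
    ∀ x ∈ fPart801 X, isMGen801 x = false ∧ x.Out S' := by
  intro x hx
  have hx' := List.mem_filter.1 hx
  refine ⟨?_, hX x hx'.1⟩
  have := hx'.2
  simpa using this

/-- The step for every finite generator from the two step nodes. -/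
theorem stepFin_of801 (hT : StepTQC801 F) (hS : StepSQC801 F) :
    StepGQC801 F (fun x => isMGen801 x = false) := by
  intro h3 hquad Φ B hB hram 𝔫 hlev T₀ n n₀ m hexp c hc x hx hout φ f hgood
  cases x with
  | T w =>
    exact hT h3 hquad Φ B hB hram 𝔫 hlev T₀ n n₀ m hexp c hc _ ⟨w, rfl⟩ hout φ f hgood
  | S w =>
    exact hS h3 hquad Φ B hB hram 𝔫 hlev T₀ n n₀ m hexp c hc _ ⟨w, Or.inl rfl⟩ hout φ f hgood
  | Sinv w =>
    exact hS h3 hquad Φ B hB hram 𝔫 hlev T₀ n n₀ m hexp c hc _ ⟨w, Or.inr rfl⟩ hout φ f hgood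
  | M w d => exact absurd hx (by simp [isMGen801])

/-- **THE TOP OF THE CUT**: the node `PairAQC801` from the base (words of sphere means) and the
two steps (finite generators). -/
theorem pairAQC_of801 (hB : BaseAQC801 P F) (hT : StepTQC801 F) (hS : StepSQC801 F) :
    PairAQC801 P F := by
  classical
  intro h3 hquad Φ hΦ hconst hP B hB' hram 𝔫 hlev T₀ n n₀ m hexp c hc
  obtain ⟨c₁, φ, f, hbase⟩ :=
    hB h3 hquad Φ hΦ hconst hP B hB' hram 𝔫 hlev T₀ n n₀ m hexp c hc
  have hstep := stepFin_of801 hT hS h3 hquad Φ B hB' hram 𝔫 hlev T₀ n n₀ m hexp c hc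
  -- the step as a function (junk when the hypotheses fail)
  let stepFn : Gen F → (G F → ℂ) × (QWt → G ℚ → ℂ) → (G F → ℂ) × (QWt → G ℚ → ℂ) :=
    fun x p =>
      if h : (isMGen801 x = false ∧ x.Out (toBase962_732 B).S') ∧
          IsGoodAQ801 (toBase962_732 B) 𝔫 c T₀ n m p.1 p.2 then
        Classical.choose (hstep x h.1.1 h.1.2 p.1 p.2 h.2)
      else p
  have key : ∀ p₀ : (G F → ℂ) × (QWt → G ℚ → ℂ),
      IsGoodAQ801 (toBase962_732 B) 𝔫 c T₀ n m p₀.1 p₀.2 →
      ∀ Y : List (Gen F), (∀ x ∈ Y, isMGen801 x = false ∧ x.Out (toBase962_732 B).S') →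
      IsGoodAQ801 (toBase962_732 B) 𝔫 c T₀ n m (Y.foldr stepFn p₀).1 (Y.foldr stepFn p₀).2 ∧
      (∀ (χ : G F → ℂ) (C : EigData F),
        IsEigFn (toBase962_732 B).𝔑₀ (toBase962_732 B).R'.r 2 (toBase962_732 B).o χ C →
        ∀ y : G F, T5.Rconv (toBase962_732 B).R'.μ (Y.foldr stepFn p₀).1 χ y
          = wordEv Y C * T5.Rconv (toBase962_732 B).R'.μ p₀.1 χ y) ∧
      (∀ (t : QWt) (χ : G ℚ → ℂ) (c' : EigData ℚ) (C : EigData F),
        IsEigFnQ t 𝔫 (toBase962_732 B).R.r (toBase962_732 B).u χ c' →
        IsBCDataQ t c' C (toBase962_732 B).S →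
        ∀ y : G ℚ, T5.Rconv (toBase962_732 B).R.μ ((Y.foldr stepFn p₀).2 t) χ y
          = wordEv Y C * T5.Rconv (toBase962_732 B).R.μ (p₀.2 t) χ y) := by
    intro p₀ hp₀ Y
    induction Y with
    | nil =>
      intro _
      refine ⟨hp₀, fun χ C _ y => ?_, fun t χ c' C _ _ y => ?_⟩
      · rw [wordEv_nil801, one_mul]
        rfl
      · rw [wordEv_nil801, one_mul]
        rfl
    | cons x Y ih =>
      intro hY
      have hx := hY x List.mem_cons_self
      obtain ⟨ig, iu, id⟩ := ih fun y hy => hY y (List.mem_cons_of_mem _ hy)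
      have hcond : (isMGen801 x = false ∧ x.Out (toBase962_732 B).S') ∧
          IsGoodAQ801 (toBase962_732 B) 𝔫 c T₀ n m (Y.foldr stepFn p₀).1
            (Y.foldr stepFn p₀).2 := ⟨hx, ig⟩
      have hspec := Classical.choose_spec
        (hstep x hx.1 hx.2 (Y.foldr stepFn p₀).1 (Y.foldr stepFn p₀).2 ig)
      have hWeq : (x :: Y).foldr stepFn p₀
          = Classical.choose
              (hstep x hx.1 hx.2 (Y.foldr stepFn p₀).1 (Y.foldr stepFn p₀).2 ig) := by
        rw [List.foldr_cons]
        simp only [stepFn]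
        rw [dif_pos hcond]
      rw [hWeq]
      refine ⟨hspec.1, fun χ C hχ y => ?_, fun t χ c' C hχ hC y => ?_⟩
      · rw [hspec.2.up χ C hχ y, iu χ C hχ y, wordEv_cons801]
        ring
      · rw [hspec.2.dn t χ c' C hχ hC y, id t χ c' C hχ hC y, wordEv_cons801]
        ring
  -- the families
  let W : List (Gen F) → (G F → ℂ) × (QWt → G ℚ → ℂ) := fun X =>
    (fPart801 X).foldr stepFn (φ (mPart801 X), f (mPart801 X))
  have hW : ∀ X : List (Gen F), (∀ x ∈ X, x.Out (toBase962_732 B).S') →
      IsGoodAQ801 (toBase962_732 B) 𝔫 c T₀ n m (W X).1 (W X).2 ∧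
      (∀ (χ : G F → ℂ) (C : EigData F),
        IsEigFn (toBase962_732 B).𝔑₀ (toBase962_732 B).R'.r 2 (toBase962_732 B).o χ C →
        ∀ y : G F, T5.Rconv (toBase962_732 B).R'.μ (W X).1 χ y
          = wordEv X C * c₁ C * χ y) ∧
      (∀ (t : QWt) (χ : G ℚ → ℂ) (c' : EigData ℚ) (C : EigData F),
        IsEigFnQ t 𝔫 (toBase962_732 B).R.r (toBase962_732 B).u χ c' →
        IsBCDataQ t c' C (toBase962_732 B).S →
        ∀ y : G ℚ, T5.Rconv (toBase962_732 B).R.μ ((W X).2 t) χ y
          = wordEv X C * T5.Rconv (toBase962_732 B).R.μ (f [] t) χ y) := by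
    intro X hX
    have hD : IsMWord801 (mPart801 X) := isMWord_mPart801 hX
    obtain ⟨kg, ku, kd⟩ := key (φ (mPart801 X), f (mPart801 X)) (hbase.good _ hD)
      (fPart801 X) (fPart_spec801 hX)
    refine ⟨kg, fun χ C hχ y => ?_, fun t χ c' C hχ hC y => ?_⟩
    · rw [ku χ C hχ y, hbase.up_op _ hD χ C hχ y, wordEv_split801 X C]
      ring
    · rw [kd t χ c' C hχ hC y, hbase.dn_op _ hD t χ c' C hχ hC y, wordEv_split801 X C]
      ring
  have hW0 : (W []).2 = f [] := rfl
  refine ⟨c₁, fun X => (W X).1, fun t X => (W X).2 t, ?_⟩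
  exact
    { up1_test := fun X hX => (hW X hX).1.up_test
      up1_ek := fun X hX => (hW X hX).1.up_ek
      up1_op := fun X hX χ C hχ y => (hW X hX).2.1 χ C hχ y
      up1_ne := hbase.up_ne
      dn1_test := fun t X hX => (hW X hX).1.dn_test t
      dn1_ek := fun t X hX => (hW X hX).1.dn_ek t
      dn1_op := fun t X hX χ c' C hχ hC y => by
        show T5.Rconv (toBase962_732 B).R.μ ((W X).2 t) χ y
          = wordEv X C * T5.Rconv (toBase962_732 B).R.μ ((W []).2 t) χ y
        rw [hW0]
        exact (hW X hX).2.2 t χ c' C hχ hC y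
      dn1_wfn := fun t ψ hψ => by
        show IsWFnQ t 𝔫 (toBase962_732 B).R.r (toBase962_732 B).u
          (T5.Rconv (toBase962_732 B).R.μ ((W []).2 t) ψ)
        rw [hW0]
        exact hbase.dn_stab.wfn t ψ hψ
      dn1_class := fun t ψ c' hψ => by
        show IsEigFnQ t 𝔫 (toBase962_732 B).R.r (toBase962_732 B).u
          (T5.Rconv (toBase962_732 B).R.μ ((W []).2 t) ψ) c'
        rw [hW0]
        exact hbase.dn_stab.cls t ψ c' hψ
      dn1_comm := fun t ψ hψ H z hH hz => by
        have := hbase.dn_stab.comm t ψ hψ H z hH hz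
        show (∀ x : G ℚ, T5.Rconv (toBase962_732 B).R.μ ((W []).2 t)
              (iwOp (toBase962_732 B).u H ψ) x
            = iwOp (toBase962_732 B).u H (T5.Rconv (toBase962_732 B).R.μ ((W []).2 t) ψ) x) ∧
          ∀ (k : ℤ) (x : G ℚ), T5.Rconv (toBase962_732 B).R.μ ((W []).2 t) (shiftOp z k ψ) x
            = shiftOp z k (T5.Rconv (toBase962_732 B).R.μ ((W []).2 t) ψ) x
        rw [hW0]
        exact this
      up1_supp := fun X hX => (hW X hX).1.up_supp
      dn1_supp := fun t X hX => (hW X hX).1.dn_supp t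
      shape := fun X hX => (hW X hX).1.shape }

/-- **THE BASE NODE OF THE CONSTRUCTION over `ℚ`** from the open nodes of the second and third
cut. -/
theorem baseQC_of_cut801 (hB : BaseAQC801 P F) (hT : StepTQC801 F) (hS : StepSQC801 F)
    (h2 : PairBQC801 P F) : BaseQC801 P F :=
  baseQC_of_pairs801 (pairAQC_of801 hB hT hS) h2

end Fermat.Agent.LT.T7.CQ801

end
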