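import Mathlib
import Fermat.Agent.LT.T7.AQ327.PairAQSpec
import Fermat.Agent.LT.T7.H801.PairAQCutTop

/-!
# Row LT, tower T7, node T7.L2Q.1.H2a.A `CQ801.PairAQC801` (registry row 2855): THE TWO CUTS ARE
# ONE -- bridge between the cut of helper327 (`T7/AQ327/PairAQSpec.lean` 1d5f2de0: empty word +
# three generic steps) and the cut of helper801 (`PairAQCutSpec.lean`: words of sphere means in
# the base + two generic steps)

OFF-MAIN.  PROVED, no hole, nothing assumed.  ADDITIVE (new names only, suffix `801`).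

The vocabulary (`IsGoodAQ…`, `IsStepAQ…`, `IsDnStabQ…`) and the nodes STEP-T, STEP-S of the two
cuts are THE SAME statements under two names:

    stepGQC_iff801  : StepGQC801 F Q ↔ AQ327.StepGQC327 F Q
    stepTQC_iff801  : StepTQC801 F ↔ AQ327.StepTQC327 F
    stepSQC_iff801  : StepSQC801 F ↔ AQ327.StepSQC327 F

so every proof of a step serves both cuts.  The sphere means:

    baseAQC327_of801 : BaseAQC801 P F → AQ327.BaseAQC327 P F             (the empty word)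
    baseAQC801_of327 : AQ327.BaseAQC327 P F → AQ327.StepMQC327 F → BaseAQC801 P F
    pairAQC_of_either801 :
        (BaseAQC801 P F ∨ (AQ327.BaseAQC327 P F ∧ AQ327.StepMQC327 F))
          → AQ327.StepTQC327 F → AQ327.StepSQC327 F → PairAQC801 P F

i.e. the node `PairAQC801` needs STEP-T, STEP-S and EITHER the generic step STEP-M with the base
for the empty word OR the base for the words of sphere means.
-/

set_option autoImplicit false

open AutomorphicForm IsDedekindDomain NumberField MeasureTheory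
open scoped ComplexConjugate

noncomputable section

namespace Fermat.Agent.LT.T7.CQ801

open Fermat.Agent.LT.H556 Fermat.Agent.LT.H556.A0 Fermat.Agent.LT.T7 Fermat.Agent.LT.T7.H305
  Fermat.Agent.LT.T7.L2Q Fermat.Agent.LT.T7.H893 Fermat.Agent.LT.T7.H962
  Fermat.Agent.LT.T7.H732 Fermat.Agent.LT.T7.MQ298

attribute [local instance] Fermat.Agent.LT.T5.instMeasurableSpaceG

variable {P : EKCond}
variable {F : Type} [Field F] [NumberField F]

theorem isGoodAQ_iff801 {B : L2QBase962 F} {𝔫 : Ideal (𝓞 ℚ)} {c : ℂ}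
    {T₀ : Finset (HeightOneSpectrum (𝓞 ℚ))}
    {n : HeightOneSpectrum (𝓞 F) → ℕ} {m : HeightOneSpectrum (𝓞 ℚ) → ℕ}
    {φ : G F → ℂ} {f : QWt → G ℚ → ℂ} :
    IsGoodAQ801 B 𝔫 c T₀ n m φ f ↔ AQ327.IsGoodAQ327 B 𝔫 c T₀ n m φ f :=
  ⟨fun h => ⟨h.up_test, h.up_ek, h.dn_test, h.dn_ek, h.up_supp, h.dn_supp, h.shape⟩,
    fun h => ⟨h.up_test, h.up_ek, h.dn_test, h.dn_ek, h.up_supp, h.dn_supp, h.shape⟩⟩

theorem isStepAQ_iff801 {B : L2QBase962 F} {𝔫 : Ideal (𝓞 ℚ)} {x : Gen F}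
    {φ : G F → ℂ} {f : QWt → G ℚ → ℂ} {φ' : G F → ℂ} {f' : QWt → G ℚ → ℂ} :
    IsStepAQ801 B 𝔫 x φ f φ' f' ↔ AQ327.IsStepAQ327 B 𝔫 x φ f φ' f' :=
  ⟨fun h => ⟨h.up, h.dn⟩, fun h => ⟨h.up, h.dn⟩⟩

theorem isDnStabQ_iff801 {B : L2QBase962 F} {𝔫 : Ideal (𝓞 ℚ)} {f : QWt → G ℚ → ℂ} :
    IsDnStabQ801 B 𝔫 f ↔ AQ327.IsDnStabQ327 B 𝔫 f :=
  ⟨fun h => ⟨h.wfn, h.cls, h.comm⟩, fun h => ⟨h.wfn, h.cls, h.comm⟩⟩

variable (F)

/-- The generic step nodes of the two cuts agree. -/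
theorem stepGQC_iff801 (Q : Gen F → Prop) : StepGQC801 F Q ↔ AQ327.StepGQC327 F Q := by
  constructor
  · intro h h3 hquad Φ B hB hram 𝔫 hlev T₀ n n₀ m hexp c hc x hx hout φ f hgood
    obtain ⟨p, hp1, hp2⟩ := h h3 hquad Φ B hB hram 𝔫 hlev T₀ n n₀ m hexp c hc x hx hout φ f
      (isGoodAQ_iff801.2 hgood)
    exact ⟨p, isGoodAQ_iff801.1 hp1, isStepAQ_iff801.1 hp2⟩
  · intro h h3 hquad Φ B hB hram 𝔫 hlev T₀ n n₀ m hexp c hc x hx hout φ f hgood
    obtain ⟨p, hp1, hp2⟩ := h h3 hquad Φ B hB hram 𝔫 hlev T₀ n n₀ m hexp c hc x hx hout φ f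
      (isGoodAQ_iff801.1 hgood)
    exact ⟨p, isGoodAQ_iff801.2 hp1, isStepAQ_iff801.2 hp2⟩

/-- STEP-T: the two cuts agree. -/
theorem stepTQC_iff801 : StepTQC801 F ↔ AQ327.StepTQC327 F :=
  stepGQC_iff801 F _

/-- STEP-S: the two cuts agree. -/
theorem stepSQC_iff801 : StepSQC801 F ↔ AQ327.StepSQC327 F :=
  stepGQC_iff801 F _

variable {F}

/-- The base for the words of sphere means gives the base for the empty word. -/
theorem baseAQC327_of801 (h : BaseAQC801 P F) : AQ327.BaseAQC327 P F := by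
  intro h3 hquad Φ hΦ hconst hP B hB hram 𝔫 hlev T₀ n n₀ m hexp c hc
  obtain ⟨c₁, φ, f, hb⟩ := h h3 hquad Φ hΦ hconst hP B hB hram 𝔫 hlev T₀ n n₀ m hexp c hc
  have h0 : IsMWord801 ([] : List (Gen F)) := fun x hx => absurd hx (List.not_mem_nil)
  refine ⟨c₁, φ [], f [], isGoodAQ_iff801.1 (hb.good [] h0), fun χ C hχ y => ?_, hb.up_ne,
    isDnStabQ_iff801.1 hb.dn_stab⟩
  have := hb.up_op [] h0 χ C hχ y
  rw [wordEv_nil801, one_mul] at this
  exact this

/-- The base for the empty word and the generic step STEP-M give the base for the words of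
sphere means. -/
theorem baseAQC801_of327 (hB : AQ327.BaseAQC327 P F) (hM : AQ327.StepMQC327 F) :
    BaseAQC801 P F := by
  classical
  intro h3 hquad Φ hΦ hconst hP B hB' hram 𝔫 hlev T₀ n n₀ m hexp c hc
  obtain ⟨c₁, φ, f, hgood, hop, hne, hstab⟩ :=
    hB h3 hquad Φ hΦ hconst hP B hB' hram 𝔫 hlev T₀ n n₀ m hexp c hc
  have hgood' : IsGoodAQ801 (toBase962_732 B) 𝔫 c T₀ n m φ f := isGoodAQ_iff801.2 hgood
  have hstep : ∀ x : Gen F, (∃ (w : InfinitePlace F) (d : ℝ), x = Gen.M w d) →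
      x.Out (toBase962_732 B).S' →
      ∀ (φ : G F → ℂ) (f : QWt → G ℚ → ℂ),
        IsGoodAQ801 (toBase962_732 B) 𝔫 c T₀ n m φ f →
        ∃ p : (G F → ℂ) × (QWt → G ℚ → ℂ),
          IsGoodAQ801 (toBase962_732 B) 𝔫 c T₀ n m p.1 p.2 ∧
            IsStepAQ801 (toBase962_732 B) 𝔫 x φ f p.1 p.2 :=
    ((stepGQC_iff801 F _).2 hM) h3 hquad Φ B hB' hram 𝔫 hlev T₀ n n₀ m hexp c hc
  let stepFn : Gen F → (G F → ℂ) × (QWt → G ℚ → ℂ) → (G F → ℂ) × (QWt → G ℚ → ℂ) :=
    fun x p =>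
      if h : ((∃ (w : InfinitePlace F) (d : ℝ), x = Gen.M w d) ∧
            x.Out (toBase962_732 B).S') ∧
          IsGoodAQ801 (toBase962_732 B) 𝔫 c T₀ n m p.1 p.2 then
        Classical.choose (hstep x h.1.1 h.1.2 p.1 p.2 h.2)
      else p
  let W : List (Gen F) → (G F → ℂ) × (QWt → G ℚ → ℂ) := fun D => D.foldr stepFn (φ, f)
  have key : ∀ D : List (Gen F), IsMWord801 D →
      IsGoodAQ801 (toBase962_732 B) 𝔫 c T₀ n m (W D).1 (W D).2 ∧
      (∀ (χ : G F → ℂ) (C : EigData F),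
        IsEigFn (toBase962_732 B).𝔑₀ (toBase962_732 B).R'.r 2 (toBase962_732 B).o χ C →
        ∀ y : G F, T5.Rconv (toBase962_732 B).R'.μ (W D).1 χ y = wordEv D C * c₁ C * χ y) ∧
      (∀ (t : QWt) (χ : G ℚ → ℂ) (c' : EigData ℚ) (C : EigData F),
        IsEigFnQ t 𝔫 (toBase962_732 B).R.r (toBase962_732 B).u χ c' →
        IsBCDataQ t c' C (toBase962_732 B).S →
        ∀ y : G ℚ, T5.Rconv (toBase962_732 B).R.μ ((W D).2 t) χ y
          = wordEv D C * T5.Rconv (toBase962_732 B).R.μ (f t) χ y) := by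
    intro D
    induction D with
    | nil =>
      intro _
      refine ⟨hgood', fun χ C hχ y => ?_, fun t χ c' C _ _ y => ?_⟩
      · rw [wordEv_nil801, one_mul]
        exact hop χ C hχ y
      · rw [wordEv_nil801, one_mul]
        rfl
    | cons x D ih =>
      intro hD
      obtain ⟨w, d, hd, hxe⟩ := hD x List.mem_cons_self
      have hxM : ∃ (w : InfinitePlace F) (d : ℝ), x = Gen.M w d := ⟨w, d, hxe⟩
      have hxO : x.Out (toBase962_732 B).S' := by
        rw [hxe]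
        exact hd
      obtain ⟨ig, iu, id⟩ := ih fun y hy => hD y (List.mem_cons_of_mem _ hy)
      have hcond : ((∃ (w : InfinitePlace F) (d : ℝ), x = Gen.M w d) ∧
            x.Out (toBase962_732 B).S') ∧
          IsGoodAQ801 (toBase962_732 B) 𝔫 c T₀ n m (W D).1 (W D).2 := ⟨⟨hxM, hxO⟩, ig⟩
      have hspec := Classical.choose_spec (hstep x hxM hxO (W D).1 (W D).2 ig)
      have hWeq : W (x :: D) = Classical.choose (hstep x hxM hxO (W D).1 (W D).2 ig) := by
        show stepFn x (W D) = _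
        simp only [stepFn]
        rw [dif_pos hcond]
      rw [hWeq]
      refine ⟨hspec.1, fun χ C hχ y => ?_, fun t χ c' C hχ hC y => ?_⟩
      · rw [hspec.2.up χ C hχ y, iu χ C hχ y, wordEv_cons801]
        ring
      · rw [hspec.2.dn t χ c' C hχ hC y, id t χ c' C hχ hC y, wordEv_cons801]
        ring
  refine ⟨c₁, fun D => (W D).1, fun D => (W D).2, ?_⟩
  exact
    { good := fun D hD => (key D hD).1
      up_op := fun D hD χ C hχ y => (key D hD).2.1 χ C hχ y
      up_ne := hne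
      dn_op := fun D hD t χ c' C hχ hC y => (key D hD).2.2 t χ c' C hχ hC y
      dn_stab := isDnStabQ_iff801.2 hstab }

/-- **THE NODE `PairAQC801` FROM EITHER CUT**: STEP-T, STEP-S and EITHER the base for the words
of sphere means OR the base for the empty word with the generic step STEP-M. -/
theorem pairAQC_of_either801
    (hB : BaseAQC801 P F ∨ (AQ327.BaseAQC327 P F ∧ AQ327.StepMQC327 F))
    (hT : AQ327.StepTQC327 F) (hS : AQ327.StepSQC327 F) : PairAQC801 P F := by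
  have hB' : BaseAQC801 P F := by
    rcases hB with h | ⟨h1, h2⟩
    · exact h
    · exact baseAQC801_of327 h1 h2
  exact pairAQC_of801 hB' ((stepTQC_iff801 F).2 hT) ((stepSQC_iff801 F).2 hS)

end Fermat.Agent.LT.T7.CQ801

end
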