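import Mathlib
import Fermat.Agent.LT.T3.R.Spec
import Fermat.Agent.LT.T7.H826.WtOneKType

/-!
# Row LT, quadratic step (`F = ℚ(√-3)` over `ℚ`): BRIDGE between the `K_∞`-types of station
# T3.18R (`T3.R.typeR`, weights in the convention of `T6.wtChar`) and the two types of the
# quadratic step (`L2Q.QWt.type`: `T5.trivType`, `L2Q.wtOne`)

OFF-MAIN.  PROVED, no hole, nothing assumed.  ADDITIVE (new names only, suffix `801`, namespace
`Fermat.Agent.LT.T7.TB801`).

The Eisenstein-killing functions of station T3.18R over `ℚ` (`T3.R.ekOpExistR_c`,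
`T3.R.ekOfPairR_c`, `T3.PushR801.ekPushR801`) are test functions of type
`T3.R.typeR ℚ hR n`, `n` the weight at the real place.  The families of the quadratic step are
test functions of type `t.type`, `t : L2Q.QWt` (`w0 ↦ T5.trivType`, `w1 ↦ L2Q.wtOne`), of
weight `t.wt` (`0`, `-1`).  The types agree ON `K_∞ = SO(2)`, which is all a test function
sees:

    typeR_zero801             : typeR ℚ hR (fun _ => 0) = T5.trivType
    typeR_negOne_eq_wtOne801  : IsArchCompact w k → typeR ℚ hR (fun _ => -1) k = L2Q.wtOne k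
    typeR_eq_type801          : IsArchCompact w k → typeR ℚ hR (fun _ => t.wt) k = t.type k
    isTestFn_congr801         : (types agree on `K_∞`, the second is a `K_∞`-type)
                                  → T5.IsTestFn 𝔫 τ φ → T5.IsTestFn 𝔫 τ' φ
    isTestFn_type_of_typeR801 : T5.IsTestFn 𝔫 (typeR ℚ hR (fun _ => t.wt)) φ
                                  → T5.IsTestFn 𝔫 t.type φ
-/

set_option autoImplicit false

open AutomorphicForm IsDedekindDomain NumberField MeasureTheory
open scoped ComplexConjugate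

noncomputable section

namespace Fermat.Agent.LT.T7.TB801

open Fermat.Agent.LT.H556 Fermat.Agent.LT.H556.A0 Fermat.Agent.LT.T7 Fermat.Agent.LT.T7.L2Q

/-- Over `ℚ` the type `typeR` is the character of the real component. -/
theorem typeR_apply801 (hR : ∀ w : InfinitePlace ℚ, w.IsReal) (n : InfinitePlace ℚ → ℤ)
    (k : G ℚ) :
    T3.R.typeR ℚ hR n k
      = T6.wtChar (n Rat.infinitePlace)
          (T3.R.reGL ℚ Rat.infinitePlace (hR Rat.infinitePlace) k) := by
  unfold T3.R.typeR
  exact Fintype.prod_subsingleton _ Rat.infinitePlace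

/-- Weight `0` is the trivial type. -/
theorem typeR_zero801 (hR : ∀ w : InfinitePlace ℚ, w.IsReal) :
    T3.R.typeR ℚ hR (fun _ => 0) = T5.trivType := by
  funext k
  rw [typeR_apply801]
  simp [T6.wtChar, T5.trivType]

/-- Weight `-1` (convention of `T6.wtChar`) is the weight one of the quadratic step, on
`SO(2)`. -/
theorem typeR_negOne_eq_wtOne801 (hR : ∀ w : InfinitePlace ℚ, w.IsReal)
    {w : InfinitePlace ℚ} {k : G ℚ} (hk : IsArchCompact w k) :
    T3.R.typeR ℚ hR (fun _ => -1) k = wtOne k := by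
  rw [Subsingleton.elim w Rat.infinitePlace] at hk
  obtain ⟨a, b, hab, h00, h01, h10, h11⟩ := wtOne_form826 hk
  rw [typeR_apply801]
  set r : GL (Fin 2) ℝ := T3.R.reGL ℚ Rat.infinitePlace (hR Rat.infinitePlace) k with hr
  have e : ∀ i j : Fin 2, infComp Rat.infinitePlace k i j
      = (((r : Matrix (Fin 2) (Fin 2) ℝ) i j : ℝ) : ℂ) := fun i j =>
    T3.R.infComp_eq_reGL ℚ Rat.infinitePlace (hR Rat.infinitePlace) k i j
  have r00 : (r : Matrix (Fin 2) (Fin 2) ℝ) 0 0 = a := by
    have := (e 0 0).symm.trans h00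
    exact_mod_cast this
  have r01 : (r : Matrix (Fin 2) (Fin 2) ℝ) 0 1 = b := by
    have := (e 0 1).symm.trans h01
    exact_mod_cast this
  have r10 : (r : Matrix (Fin 2) (Fin 2) ℝ) 1 0 = -b := by
    have := (e 1 0).symm.trans h10
    exact_mod_cast this
  have r11 : (r : Matrix (Fin 2) (Fin 2) ℝ) 1 1 = a := by
    have := (e 1 1).symm.trans h11
    exact_mod_cast this
  have hhol : T6.holPart r = (a : ℂ) - (b : ℂ) * Complex.I := by
    unfold T6.holPart
    rw [r00, r01, r10, r11]
    push_cast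
    ring
  have hab' : ((a : ℂ) - (b : ℂ) * Complex.I) * ((a : ℂ) + Complex.I * (b : ℂ)) = 1 := by
    have h1 : ((a : ℂ) - (b : ℂ) * Complex.I) * ((a : ℂ) + Complex.I * (b : ℂ))
        = ((a ^ 2 + b ^ 2 : ℝ) : ℂ) := by
      push_cast
      ring_nf
      rw [Complex.I_sq]
      ring
    rw [h1, hab]
    simp
  show T6.holPart r ^ (-1 : ℤ)
    = infComp Rat.infinitePlace k 0 0 + Complex.I * infComp Rat.infinitePlace k 0 1
  rw [hhol, h00, h01, zpow_neg_one]
  exact inv_eq_of_mul_eq_one_right hab'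

/-- The types of station T3.18R and of the quadratic step agree on `K_∞`. -/
theorem typeR_eq_type801 (hR : ∀ w : InfinitePlace ℚ, w.IsReal) (t : QWt)
    {w : InfinitePlace ℚ} {k : G ℚ} (hk : IsArchCompact w k) :
    T3.R.typeR ℚ hR (fun _ => t.wt) k = t.type k := by
  cases t with
  | w0 =>
    show T3.R.typeR ℚ hR (fun _ => 0) k = T5.trivType k
    rw [typeR_zero801]
  | w1 => exact typeR_negOne_eq_wtOne801 hR hk

section Congr

variable {K : Type} [Field K] [NumberField K]

/-- Bi-invariance of type `τ` only sees `τ` on `K_∞`. -/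
theorem isBiInvariant_congr801 {τ τ' : G K → ℂ}
    (h : ∀ (w : InfinitePlace K) (k : G K), IsArchCompact w k → τ k = τ' k)
    {𝔫 : Ideal (𝓞 K)} {φ : G K → ℂ} (hφ : T5.IsBiInvariant 𝔫 τ φ) :
    T5.IsBiInvariant 𝔫 τ' φ where
  level_right := hφ.level_right
  level_left := hφ.level_left
  arch_right := fun w k hk g => by rw [← h w k hk]; exact hφ.arch_right w k hk g
  arch_left := fun w k hk g => by rw [← h w k hk]; exact hφ.arch_left w k hk g

/-- A test function of type `τ` is a test function of every `K_∞`-type which agrees with `τ`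
on `K_∞`. -/
theorem isTestFn_congr801 {τ τ' : G K → ℂ} (hτ' : T5.IsKType τ')
    (h : ∀ (w : InfinitePlace K) (k : G K), IsArchCompact w k → τ k = τ' k)
    {𝔫 : Ideal (𝓞 K)} {φ : G K → ℂ} (hφ : T5.IsTestFn 𝔫 τ φ) : T5.IsTestFn 𝔫 τ' φ where
  ktype := hτ'
  cont := hφ.cont
  supp := hφ.supp
  smooth := hφ.smooth
  inv := isBiInvariant_congr801 h hφ.inv

end Congr

/-- The two types of the quadratic step are `K_∞`-types. -/
theorem isKType_type801 (hR : ∀ w : InfinitePlace ℚ, w.IsReal) (t : QWt)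
    (h0 : T5.IsKType (T3.R.typeR ℚ hR (fun _ => (0 : ℤ)))) : T5.IsKType t.type := by
  cases t with
  | w0 =>
    show T5.IsKType T5.trivType
    rw [← typeR_zero801 hR]
    exact h0
  | w1 => exact wtOneKTypeC826

/-- **A test function of type `typeR` of weight `t.wt` over `ℚ` (station T3.18R) is a test
function of type `t.type` (quadratic step).** -/
theorem isTestFn_type_of_typeR801 (hR : ∀ w : InfinitePlace ℚ, w.IsReal) (t : QWt)
    {𝔫 : Ideal (𝓞 ℚ)} {φ : G ℚ → ℂ}
    (hφ : T5.IsTestFn 𝔫 (T3.R.typeR ℚ hR (fun _ => t.wt)) φ) : T5.IsTestFn 𝔫 t.type φ := by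
  cases t with
  | w0 =>
    have h : T5.IsTestFn 𝔫 (T3.R.typeR ℚ hR (fun _ => (0 : ℤ))) φ := hφ
    rw [typeR_zero801 hR] at h
    exact h
  | w1 =>
    exact isTestFn_congr801 wtOneKTypeC826
      (fun w k hk => typeR_negOne_eq_wtOne801 hR hk) hφ

/-- The infinite place of `ℚ` is real (the hypothesis `hR` of station T3.18R over `ℚ`). -/
theorem allReal_rat801 : ∀ w : InfinitePlace ℚ, w.IsReal := fun w => by
  rw [Subsingleton.elim w Rat.infinitePlace]
  exact Rat.isReal_infinitePlace

end Fermat.Agent.LT.T7.TB801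

end
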