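import Mathlib
import Fermat.Agent.LT.T3.R.H981.LocOfMean
import Fermat.Agent.LT.T3.R.H96.MeanActsR
import Fermat.Agent.LT.T7.H801.TypeBridgeQ

/-!
# Row LT, quadratic step (`F = ℚ(√-3)` over `ℚ`): BRIDGE between the eigenfunctions of the
# quadratic step (`L2Q.IsEigFnQ`, circle means `L2Q.MeanEigR0` / `L2Q.MeanEigR1`) and the
# classes of station T3.18R (`T3.R.IsMeanLevelR`, `T3.R.MeanEigR`, `T3.R.IsClassLevelR`)

OFF-MAIN.  PROVED, no hole, nothing assumed.  ADDITIVE (new names only, suffix `801`, namespace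
`Fermat.Agent.LT.T7.EB801`).

    meanEigR_w0_801           : IsEigFnQ w0 𝔫 r u χ c → T3.R.MeanEigR ℚ hR χ w (c.m w / 2π)
    meanEigR_w1_801           : IsEigFnQ w1 𝔫 r u χ c → T3.R.MeanEigR ℚ hR χ w (c.m w / 2π)
    isMeanLevelR_of_eigFnQ801 : IsEigFnQ t 𝔫 r u χ c
                                  → T3.R.IsMeanLevelR ℚ hR 𝔫 (fun _ => t.wt) (c.m · / 2π) χ
    isClassLevelR_of_eigFnQ801: IsEigFnQ t 𝔫 r u χ c
                                  → T3.R.IsClassLevelR ℚ hR 𝔫 (locClassR t.wt (c.m w / 2π)) χ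

so that the operator scalars of `T3.R.ekOfPairR_c` (and of `T3.PushR801.ekPushR801`,
`T7.EQ801.ekPushQ801`) are available on the eigenfunctions of the quadratic step.

## The conventions

* `T3.R.MeanEigR`: the circle `Y θ = k_θ a_s k_θ⁻¹` (`k_θ = !![cos θ, -sin θ; sin θ, cos θ]`,
  `a_s = diag(e^{s/2}, e^{-s/2})`), `∫₀^{2π} φ(g Y θ) dθ = 2π m(s) φ(g)`.
* `L2Q.MeanEigR0` (weight `0`): `Y θ = rotY θ · torus s = k_{θ/2} a_s`,
  `∫₀^{2π} ψ(g Y θ) dθ = m(s) ψ(g)`.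
* `L2Q.MeanEigR1` (weight one, `T6` weight `-1`): `Y θ = rotC θ · torus s = k_{-θ} a_s`,
  `∫₀^{2π} e^{-iθ} ψ(g Y θ) dθ = m(s) ψ(g)`.

An eigenfunction of type `t` satisfies `χ(g k_θ a_s k_θ⁻¹) = χ_t(k_{-θ}) χ(g k_θ a_s)`,
`χ_t(k_{-θ}) = e^{-i t.wt θ}` (`= 1`, resp. `e^{iθ}`).  Weight `0`: `θ ↦ χ(g k_θ a_s)` is
`π`-periodic (`k_π = -1` is central and in `SO(2)`), so its integral over `[0, 2π]` is the
integral of `θ ↦ χ(g k_{θ/2} a_s)` over `[0, 2π]`.  Weight one: the substitution `θ ↦ -θ` and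
the `2π`-periodicity.  In both cases `m_{T3.R} = m_{L2Q} / 2π`.
-/

set_option autoImplicit false
set_option linter.unusedSectionVars false

open AutomorphicForm IsDedekindDomain NumberField MeasureTheory

noncomputable section

namespace Fermat.Agent.LT.T7.EB801

open Fermat.Agent.LT Fermat.Agent.LT.H556 Fermat.Agent.LT.H556.A0 Fermat.Agent.LT.T7
  Fermat.Agent.LT.T7.L2Q Fermat.Agent.LT.T7.TB801
  Fermat.Agent.LT.T6 Fermat.Agent.LT.T6.H830 Fermat.Agent.LT.T6.H131 Fermat.Agent.LT.T6.H162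
  Fermat.Agent.LT.T3.R.H981 Fermat.Agent.LT.T3.R.H96 Fermat.Agent.LT.H670

variable (hR : ∀ w : InfinitePlace ℚ, w.IsReal)

/-! ## 1. The circle of `T3.R.MeanEigR` -/

/-- The circle of `T3.R.MeanEigR`: `Y θ = E(k_θ a_s) E(k_{-θ})`. -/
theorem circle_eq801 (w : InfinitePlace ℚ) {s : ℝ} {Y : ℝ → G ℚ}
    (hY : ∀ θ : ℝ, IsLocalAtInf w (Y θ) ∧
      ((T3.R.reGL ℚ w (hR w) (Y θ) : GL (Fin 2) ℝ) : Matrix (Fin 2) (Fin 2) ℝ)
        = !![Real.cos θ, -Real.sin θ; Real.sin θ, Real.cos θ]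
          * !![Real.exp (s / 2), 0; 0, Real.exp (-(s / 2))]
          * !![Real.cos θ, Real.sin θ; -Real.sin θ, Real.cos θ]) (θ : ℝ) :
    Y θ = reEmbAt981 hR w (rotR θ * bR 0 s 0) * reEmbAt981 hR w (rotR (-θ)) := by
  rw [← map_mul]
  refine (eq_reEmbAt_of_local981 hR w (Y θ) (hY θ).1).trans ?_
  congr 1
  apply Units.ext
  rw [(hY θ).2, circle_coe96]

/-- The type of a rotation. -/
theorem type_rot801 (t : QWt) (w : InfinitePlace ℚ) (θ : ℝ) :
    t.type (reEmbAt981 hR w (rotR θ))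
      = Complex.exp ((t.wt : ℂ) * ((θ : ℂ) * Complex.I)) := by
  rw [← typeR_eq_type801 hR t (isArchCompact_reEmbAt981 hR w _ (inSO2_rotR_h131 θ)),
    typeR_reEmbAt981, wtChar_rotR_h131]

/-- An eigenfunction of type `t` on the circle of `T3.R.MeanEigR`. -/
theorem eig_circle801 (t : QWt) {𝔫 : Ideal (𝓞 ℚ)} {r : G ℚ} {u : HeightOneSpectrum (𝓞 ℚ)}
    {χ : G ℚ → ℂ} {c : EigData ℚ} (hχ : IsEigFnQ t 𝔫 r u χ c)
    (w : InfinitePlace ℚ) {s : ℝ} {Y : ℝ → G ℚ}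
    (hY : ∀ θ : ℝ, IsLocalAtInf w (Y θ) ∧
      ((T3.R.reGL ℚ w (hR w) (Y θ) : GL (Fin 2) ℝ) : Matrix (Fin 2) (Fin 2) ℝ)
        = !![Real.cos θ, -Real.sin θ; Real.sin θ, Real.cos θ]
          * !![Real.exp (s / 2), 0; 0, Real.exp (-(s / 2))]
          * !![Real.cos θ, Real.sin θ; -Real.sin θ, Real.cos θ]) (g : G ℚ) (θ : ℝ) :
    χ (g * Y θ) = Complex.exp ((t.wt : ℂ) * (((-θ : ℝ) : ℂ) * Complex.I))
      * χ (g * reEmbAt981 hR w (rotR θ * bR 0 s 0)) := by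
  rw [circle_eq801 hR w hY θ, ← mul_assoc,
    hχ.inv.cusp.aut.arch_compact w _
      (isArchCompact_reEmbAt981 hR w _ (inSO2_rotR_h131 (-θ))), type_rot801]

/-- `θ ↦ E(k_θ a_s)` is continuous. -/
theorem continuous_circ801 (w : InfinitePlace ℚ) (s : ℝ) :
    Continuous (fun θ : ℝ => reEmbAt981 hR w (rotR θ * bR 0 s 0)) :=
  (continuous_reEmbAt981 hR w).comp (continuous_rotR_h131.mul continuous_const)

/-- `k_π` commutes with the torus. -/
theorem rotR_pi_comm801 (s : ℝ) : rotR Real.pi * bR 0 s 0 = bR 0 s 0 * rotR Real.pi := by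
  apply Units.ext
  rw [Units.val_mul, Units.val_mul, coe_rotR830, coe_bR830, Real.cos_pi, Real.sin_pi]
  ext i j
  fin_cases i <;> fin_cases j <;> simp

/-- The matrix of `E(k_{θ/2} a_s)`: the circle of `L2Q.MeanEigR0`. -/
theorem infComp_circ0_801 (w : InfinitePlace ℚ) (s θ : ℝ) :
    infComp w (reEmbAt981 hR w (rotR (θ / 2) * bR 0 s 0)) = rotY θ * torus s := by
  rw [infComp_reEmbAt981, Units.val_mul, coe_rotR830, coe_bR830]
  have h1 : Real.exp ((0 + s) / 2) = Real.exp (s / 2) := by congr 1; ring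
  have h2 : Real.exp ((0 - s) / 2) = Real.exp (-(s / 2)) := by congr 1; ring
  rw [h1, h2]
  unfold rotY torus
  ext i j
  fin_cases i <;> fin_cases j <;> simp [Matrix.mul_apply, Fin.sum_univ_two]

/-- The matrix of `E(k_{-θ} a_s)`: the circle of `L2Q.MeanEigR1`. -/
theorem infComp_circ1_801 (w : InfinitePlace ℚ) (s θ : ℝ) :
    infComp w (reEmbAt981 hR w (rotR (-θ) * bR 0 s 0)) = QOut.rotC θ * torus s := by
  rw [infComp_reEmbAt981, Units.val_mul, coe_rotR830, coe_bR830]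
  have h1 : Real.exp ((0 + s) / 2) = Real.exp (s / 2) := by congr 1; ring
  have h2 : Real.exp ((0 - s) / 2) = Real.exp (-(s / 2)) := by congr 1; ring
  rw [h1, h2, Real.cos_neg, Real.sin_neg, neg_neg]
  unfold QOut.rotC torus
  ext i j
  fin_cases i <;> fin_cases j <;> simp [Matrix.mul_apply, Fin.sum_univ_two]

/-! ## 2. The circle means -/

/-- **WEIGHT `0`**: an eigenfunction of the circle means `L2Q.MeanEigR0` is an eigenfunction of
the circle means of station T3.18R, with eigenvalue function `m / 2π`. -/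
theorem meanEigR_w0_801 {𝔫 : Ideal (𝓞 ℚ)} {r : G ℚ} {u : HeightOneSpectrum (𝓞 ℚ)}
    {χ : G ℚ → ℂ} {c : EigData ℚ} (hχ : IsEigFnQ QWt.w0 𝔫 r u χ c) (w : InfinitePlace ℚ) :
    T3.R.MeanEigR ℚ hR χ w (fun s => c.m w s / ((2 * Real.pi : ℝ) : ℂ)) := by
  intro s hs Y hY g
  have hm : MeanEigR0 χ w (c.m w) := hχ.mean w
  have hcont : Continuous (fun θ : ℝ => χ (g * reEmbAt981 hR w (rotR θ * bR 0 s 0))) :=
    hχ.inv.cusp.cont.comp (continuous_const.mul (continuous_circ801 hR w s))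
  have hper : Function.Periodic
      (fun θ : ℝ => χ (g * reEmbAt981 hR w (rotR θ * bR 0 s 0))) Real.pi := by
    intro θ
    show χ (g * reEmbAt981 hR w (rotR (θ + Real.pi) * bR 0 s 0))
      = χ (g * reEmbAt981 hR w (rotR θ * bR 0 s 0))
    have e1 : rotR (θ + Real.pi) * bR 0 s 0 = rotR θ * bR 0 s 0 * rotR Real.pi := by
      rw [← rotR_mul_rotR162, mul_assoc, rotR_pi_comm801, ← mul_assoc]
    rw [e1, map_mul, ← mul_assoc,
      hχ.inv.cusp.aut.arch_compact w _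
        (isArchCompact_reEmbAt981 hR w _ (inSO2_rotR_h131 Real.pi))]
    show (1 : ℂ) * _ = _
    rw [one_mul]
  have e0 : ∀ θ : ℝ, χ (g * Y θ) = χ (g * reEmbAt981 hR w (rotR θ * bR 0 s 0)) := by
    intro θ
    rw [eig_circle801 hR QWt.w0 hχ w hY g θ]
    show Complex.exp (((0 : ℤ) : ℂ) * _) * _ = _
    rw [Int.cast_zero, zero_mul, Complex.exp_zero, one_mul]
  have hmean := hm s hs (fun θ => reEmbAt981 hR w (rotR (θ / 2) * bR 0 s 0))
    (fun θ => ⟨isLocalAtInf_reEmbAt981 hR w _, infComp_circ0_801 hR w s θ⟩) g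
  have hdiv := intervalIntegral.integral_comp_div (a := (0 : ℝ)) (b := 2 * Real.pi)
    (fun θ : ℝ => χ (g * reEmbAt981 hR w (rotR θ * bR 0 s 0))) (two_ne_zero (α := ℝ))
  have h02 : (0 : ℝ) / 2 = 0 := zero_div _
  have h2p : 2 * Real.pi / 2 = Real.pi := by ring
  rw [h02, h2p] at hdiv
  have hadj := intervalIntegral.integral_add_adjacent_intervals
    (hcont.intervalIntegrable (μ := volume) 0 Real.pi)
    (hcont.intervalIntegrable (μ := volume) Real.pi (2 * Real.pi))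
  have hsh := hper.intervalIntegral_add_eq Real.pi 0
  have hpp : Real.pi + Real.pi = 2 * Real.pi := by ring
  rw [hpp, zero_add] at hsh
  simp only [e0]
  rw [← hadj, hsh]
  have h3 : (∫ θ in (0 : ℝ)..Real.pi, χ (g * reEmbAt981 hR w (rotR θ * bR 0 s 0)))
      + (∫ θ in (0 : ℝ)..Real.pi, χ (g * reEmbAt981 hR w (rotR θ * bR 0 s 0)))
      = c.m w s * χ g := by
    rw [← hmean, hdiv, two_smul]
  rw [h3]
  have hpi : ((2 * Real.pi : ℝ) : ℂ) ≠ 0 :=
    Complex.ofReal_ne_zero.2 (mul_ne_zero two_ne_zero Real.pi_ne_zero)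
  field_simp

/-- **WEIGHT ONE**: an eigenfunction of the circle means `L2Q.MeanEigR1` is an eigenfunction of
the circle means of station T3.18R, with eigenvalue function `m / 2π`. -/
theorem meanEigR_w1_801 {𝔫 : Ideal (𝓞 ℚ)} {r : G ℚ} {u : HeightOneSpectrum (𝓞 ℚ)}
    {χ : G ℚ → ℂ} {c : EigData ℚ} (hχ : IsEigFnQ QWt.w1 𝔫 r u χ c) (w : InfinitePlace ℚ) :
    T3.R.MeanEigR ℚ hR χ w (fun s => c.m w s / ((2 * Real.pi : ℝ) : ℂ)) := by
  intro s hs Y hY g
  have hm : MeanEigR1 χ w (c.m w) := hχ.mean w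
  have hper : Function.Periodic
      (fun θ : ℝ => Complex.exp (-(Complex.I * ((θ : ℝ) : ℂ)))
        * χ (g * reEmbAt981 hR w (rotR (-θ) * bR 0 s 0))) (2 * Real.pi) := by
    intro θ
    show Complex.exp (-(Complex.I * (((θ + 2 * Real.pi : ℝ)) : ℂ)))
        * χ (g * reEmbAt981 hR w (rotR (-(θ + 2 * Real.pi)) * bR 0 s 0))
      = Complex.exp (-(Complex.I * ((θ : ℝ) : ℂ)))
        * χ (g * reEmbAt981 hR w (rotR (-θ) * bR 0 s 0))
    have hr : rotR (-(θ + 2 * Real.pi)) = rotR (-θ) := rotR_neg_periodic96 θ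
    rw [hr]
    congr 1
    have h : -(Complex.I * (((θ + 2 * Real.pi : ℝ)) : ℂ))
        = -(Complex.I * ((θ : ℝ) : ℂ)) + ((-1 : ℤ) : ℂ) * (2 * (Real.pi : ℂ) * Complex.I) := by
      push_cast
      ring
    rw [h, Complex.exp_add, Complex.exp_int_mul_two_pi_mul_I, mul_one]
  have e0 : ∀ θ : ℝ, χ (g * Y θ)
      = (fun θ' : ℝ => Complex.exp (-(Complex.I * ((θ' : ℝ) : ℂ)))
        * χ (g * reEmbAt981 hR w (rotR (-θ') * bR 0 s 0))) (-θ) := by
    intro θ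
    rw [eig_circle801 hR QWt.w1 hχ w hY g θ]
    show Complex.exp (((-1 : ℤ) : ℂ) * _) * _
      = Complex.exp (-(Complex.I * (((-θ : ℝ)) : ℂ)))
        * χ (g * reEmbAt981 hR w (rotR (- -θ) * bR 0 s 0))
    rw [neg_neg]
    congr 2
    push_cast
    ring
  have hmean := hm s hs (fun θ => reEmbAt981 hR w (rotR (-θ) * bR 0 s 0))
    (fun θ => ⟨isLocalAtInf_reEmbAt981 hR w _, infComp_circ1_801 hR w s θ⟩) g
  have hneg := intervalIntegral.integral_comp_neg (a := (0 : ℝ)) (b := 2 * Real.pi)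
    (fun θ' : ℝ => Complex.exp (-(Complex.I * ((θ' : ℝ) : ℂ)))
      * χ (g * reEmbAt981 hR w (rotR (-θ') * bR 0 s 0)))
  have hsh := hper.intervalIntegral_add_eq (-(2 * Real.pi)) 0
  rw [neg_add_cancel, zero_add] at hsh
  rw [neg_zero] at hneg
  simp only [e0]
  rw [hneg, hsh, hmean]
  have hpi : ((2 * Real.pi : ℝ) : ℂ) ≠ 0 :=
    Complex.ofReal_ne_zero.2 (mul_ne_zero two_ne_zero Real.pi_ne_zero)
  field_simp

/-! ## 3. The classes of station T3.18R -/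

/-- **THE BRIDGE**: an eigenfunction of the quadratic step of type `t` is of the class
`T3.R.IsMeanLevelR` of weight `t.wt`, with the eigenvalue functions `m / 2π`. -/
theorem isMeanLevelR_of_eigFnQ801 (t : QWt) {𝔫 : Ideal (𝓞 ℚ)} {r : G ℚ}
    {u : HeightOneSpectrum (𝓞 ℚ)} {χ : G ℚ → ℂ} {c : EigData ℚ}
    (hχ : IsEigFnQ t 𝔫 r u χ c) :
    T3.R.IsMeanLevelR ℚ hR 𝔫 (fun _ => t.wt)
      (fun w s => c.m w s / ((2 * Real.pi : ℝ) : ℂ)) χ where
  cont := hχ.inv.cusp.cont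
  level_inv := fun u hu g => hχ.inv.cusp.aut.level_inv u hu g
  arch_scalar := hχ.inv.arch_scalar
  arch_compact := fun w k hk g => by
    rw [hχ.inv.cusp.aut.arch_compact w k hk g, typeR_eq_type801 hR t hk]
  mean := fun w => by
    cases t with
    | w0 => exact meanEigR_w0_801 hR hχ w
    | w1 => exact meanEigR_w1_801 hR hχ w

/-- **THE BRIDGE, classes**: an eigenfunction of the quadratic step of type `t` belongs to the
global class of the concrete local classes `T3.R.locClassR t.wt (m / 2π)`. -/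
theorem isClassLevelR_of_eigFnQ801 (t : QWt) {𝔫 : Ideal (𝓞 ℚ)} {r : G ℚ}
    {u : HeightOneSpectrum (𝓞 ℚ)} {χ : G ℚ → ℂ} {c : EigData ℚ}
    (hχ : IsEigFnQ t 𝔫 r u χ c) :
    T3.R.IsClassLevelR ℚ hR 𝔫
      (fun w => T3.R.locClassR t.wt (fun s => c.m w s / ((2 * Real.pi : ℝ) : ℂ))) χ :=
  locOfMeanRC981 ℚ hR 𝔫 (fun _ => t.wt) (fun w s => c.m w s / ((2 * Real.pi : ℝ) : ℂ)) χ
    (isMeanLevelR_of_eigFnQ801 hR t hχ)

end Fermat.Agent.LT.T7.EB801

end
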