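import Mathlib
import Fermat.Agent.LT.T3.ClosedT1
import Fermat.Agent.LT.T3.H732.EKAlg
import Fermat.Agent.LT.T3.R.Explicit
import Fermat.Agent.LT.T3.R.H247.InHaarR
import Fermat.Agent.LT.T7.H801.EigBridgeQ
import Fermat.Agent.LT.T7.H87.BaseAQSpec

/-!
# Row LT, tower T7, leaf T7.L2Q.1.H2a.A.0.W `BQ87.DnGoodQC87` (registry row 3090; helper801,
# SPARE): PROVED

OFF-MAIN.  No hole, nothing assumed.  ADDITIVE (new names only, suffix `801`, namespace
`Fermat.Agent.LT.T7.DG801`).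

    dnGoodQC801 (F) : BQ87.DnGoodQC87 F                       (VERBATIM, UNCONDITIONAL)

Spec: `T7/H87/BaseAQSpec.lean` (helper87, sha256 6471b15c), byte-identical copy.
Inputs (byte-identical copies): `T3.R.ekOfPairR_c`, `T3.R.mem_pairSpanR_sum` (helper14,
`T3/R/Explicit.lean`), `T3.R.H96.meanActsRC96` (helper96), `T3.R.H981.locOfMeanRC981`
(helper981), `T3.R.H247.inHaarRC247` (helper247), `T3.H732.root1_732`, `roots_spec732`,
`eq_zero_of_b_eq_zero732` (`T3/H732/EKAlg.lean`), `T3.inScalarUnif_u` (`T3/ClosedT1.lean`),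
and the two bridges of helper801: `T7/H801/TypeBridgeQ.lean` (the types `typeR` and `t.type`
agree on `K_∞`) and `T7/H801/EigBridgeQ.lean` (an eigenfunction `IsEigFnQ` of type `t` belongs
to the class of its circle means, `m_{T3.R} = m / 2π`).

Proof (the real form of the leaf `UpGoodQC87`).  `(D.crdDn, D.dn t 𝔫) ∈ pairSpanR ℚ _ 𝔫 P
(fun _ => t.wt)` (sum of pure pairs with coefficients `1`); `ekOfPairR_c` with `frame_dn`,
`totpos`, `tel_dn` gives the test function of type `typeR` (hence of type `t.type`), the two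
Eisenstein-killing properties, the support and, for the concrete classes
`locClassR t.wt (c.m w / 2π)` (scalar classes: `meanActsRC96`), the scalars `cc c z₁ z₂` on the
global class.  `cs c = 1` if `c.b v = 0` for some `v ∈ P` (then every eigenfunction vanishes),
`= cc c (root1) (root2)` otherwise.  An eigenfunction is Hecke-eigen at the places of `P`
(prime to `𝔫`: `frame_dn.prime`).
-/

set_option autoImplicit false
set_option linter.unusedSectionVars false
set_option linter.style.haveILetI false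

open AutomorphicForm IsDedekindDomain NumberField MeasureTheory

noncomputable section

namespace Fermat.Agent.LT.T7.DG801

open Fermat.Agent.LT Fermat.Agent.LT.H556 Fermat.Agent.LT.H556.A0 Fermat.Agent.LT.T7
  Fermat.Agent.LT.T7.H305 Fermat.Agent.LT.T7.L2Q Fermat.Agent.LT.T7.H893
  Fermat.Agent.LT.T7.H962 Fermat.Agent.LT.T7.H732 Fermat.Agent.LT.T7.MQ298
  Fermat.Agent.LT.T7.CQ801 Fermat.Agent.LT.T7.PQ484 Fermat.Agent.LT.T7.BQ87
  Fermat.Agent.LT.T7.TB801 Fermat.Agent.LT.T7.EB801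

attribute [local instance] Fermat.Agent.LT.T5.instMeasurableSpaceG

variable {F : Type} [Field F] [NumberField F]

/-- The pair of the sums of the data downstairs of type `t` is a member of `pairSpanR`. -/
theorem mem_pairSpanR_datQ801 {Φe : HeckeEigensystem F ℂ} {B : L2QBase962 F}
    {𝔫 : Ideal (𝓞 ℚ)} {c : ℂ} {T₀ : Finset (HeightOneSpectrum (𝓞 ℚ))}
    {n : HeightOneSpectrum (𝓞 F) → ℕ} {m : HeightOneSpectrum (𝓞 ℚ) → ℕ}
    {D : DatQ87 F} (hD : IsDatQ87 Φe B 𝔫 c T₀ n m D) (t : QWt) (𝔫' : Ideal (𝓞 ℚ)) :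
    ((D.crdDn, D.dn t 𝔫') : (T3.M.CoordM ℚ D.P → ℂ) × (G ℚ → ℂ))
      ∈ T3.R.pairSpanR ℚ ratReal87 𝔫' D.P (fun _ => t.wt) := by
  have h := T3.R.mem_pairSpanR_sum (K := ℚ) ratReal87 𝔫' D.P (fun _ => t.wt) Finset.univ
    (fun _ : Fin D.N => (1 : ℂ)) D.A D.β D.f₀ (fun i _ => D.Fr t i)
    (fun i _ v => hD.symA i v) (fun i _ w => hD.symβ i w)
    (fun i _ v hv => hD.sat_dn i v hv) (fun i _ _ => hD.test_dn t i)
    (fun i _ w => hD.abel_dn t i w)
  have e1 : D.crdDn = ∑ i : Fin D.N, (1 : ℂ) • T3.M.pureCoordM ℚ D.P (D.A i) (D.β i) := by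
    funext p
    rw [Finset.sum_apply]
    simp only [Pi.smul_apply, one_smul]
    rfl
  have e2 : D.dn t 𝔫' = ∑ i : Fin D.N, (1 : ℂ) • T3.R.pureFnR ℚ ratReal87 𝔫' D.P (D.f₀ i)
      (fun _ => D.Fr t i) := by
    funext g
    rw [Finset.sum_apply]
    simp only [Pi.smul_apply, one_smul]
    rfl
  rw [e1, e2]
  exact h

variable (F)

/-- **LEAF A.0.W over `ℚ` = DOWN**, proved. -/
theorem dnGoodQC801 : BQ87.DnGoodQC87 F := by
  classical
  letI : MeasurableSpace (GL (Fin 2) ℝ) := borel (GL (Fin 2) ℝ)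
  intro _hs _hiq Φ _hcusp _hconst _hek B hB _hram 𝔫 _h𝔫 T₀ n _n₀ m _hlf c _hc D hD t
  have hmem := mem_pairSpanR_datQ801 hD t 𝔫
  obtain ⟨μr, hμr⟩ : ∃ μr : Measure (GL (Fin 2) ℝ), μr.IsHaarMeasure :=
    T3.R.H247.inHaarRC247
  obtain ⟨κ₀, -, hall⟩ := T3.R.ekOfPairR_c ℚ ratReal87 (toBase962_732 B).R.μ
    hB.frame.frame.haar μr hμr 𝔫 D.P D.e D.a₀ D.α hD.frame_dn hD.totpos (fun _ => t.wt)
  obtain ⟨hT, hEK, hEKa, hsupp, hsc⟩ := hall D.crdDn (D.dn t 𝔫) hmem hD.tel_dn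
  refine ⟨isTestFn_type_of_typeR801 ratReal87 t hT, hEK, hEKa, hsupp, ?_⟩
  have hwt : T3.R.IsWt t.wt := by
    cases t with
    | w0 => exact Or.inl rfl
    | w1 => exact Or.inr (Or.inr rfl)
  have hcls : ∀ (cd : EigData ℚ) (w : InfinitePlace ℚ),
      T3.R.IsScalarClassR μr t.wt
        (T3.R.locClassR t.wt (fun s => cd.m w s / ((2 * Real.pi : ℝ) : ℂ))) :=
    fun cd w => T3.R.H96.meanActsRC96 μr hμr t.wt hwt _
  choose cc hcc using fun cd : EigData ℚ =>
    hsc (fun w => T3.R.locClassR t.wt (fun s => cd.m w s / ((2 * Real.pi : ℝ) : ℂ)))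
      (fun _ => 1) (hcls cd)
  refine ⟨fun cd => if ∃ v ∈ D.P, cd.b v = 0 then 1 else
    cc cd (fun v => T3.H732.root1_732 (cd.a v) (cd.b v))
      (fun v => T3.H732.root2_732 (cd.a v) (cd.b v)), ?_⟩
  intro χ cd hχ g
  have hecke : ∀ v ∈ D.P, IsHeckeEigenAt χ v (cd.a v) (cd.b v) := fun v hv =>
    hχ.hecke v (hD.frame_dn.prime v hv)
  by_cases hb : ∃ v ∈ D.P, cd.b v = 0
  · simp only [if_pos hb, one_mul]
    obtain ⟨v, hv, hbv⟩ := hb
    have hecke' := hecke v hv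
    rw [hbv] at hecke'
    have hzero : ∀ g : G ℚ, χ g = 0 :=
      T3.H732.eq_zero_of_b_eq_zero732 ℚ (T3.inScalarUnif_u ℚ) hecke'
    rw [hzero g]
    show (∫ z, D.dn t 𝔫 z * χ (g * z) ∂(toBase962_732 B).R.μ) = 0
    simp only [hzero, mul_zero, integral_zero]
  · simp only [if_neg hb]
    simp only [not_exists, not_and] at hb
    exact (hcc cd).2 χ (isClassLevelR_of_eigFnQ801 ratReal87 t hχ) cd.a cd.b _ _ hecke
      (fun v _ => (T3.H732.roots_spec732 (cd.a v) (cd.b v)).1)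
      (fun v _ => (T3.H732.roots_spec732 (cd.a v) (cd.b v)).2) hb g

/-- Check: the statement is the frozen Prop of helper87, verbatim. -/
example : Fermat.Agent.LT.T7.BQ87.DnGoodQC87 F := dnGoodQC801 F

end Fermat.Agent.LT.T7.DG801

end
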