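import Mathlib
import Fermat.Agent.LT.T3.ClosedT1
import Fermat.Agent.LT.T3.H732.EKAlg
import Fermat.Agent.LT.T3.R.Explicit
import Fermat.Agent.LT.T3.R.H247.InHaarR
import Fermat.Agent.LT.T3.H830.ActsSph
import Fermat.Agent.LT.T7.H801.EigBridgeQ
import Fermat.Agent.LT.T7.SM640.StepMDatSpec

/-!
# Row LT, tower T7, node `BQ87.StepMDatQC87` (registry row 3188), cut of helper640, leaf SM.9
# `SM640.DnOpFormC640` (THE PRODUCT FORM of the operator of the sums downstairs): PROVED

OFF-MAIN.  No hole, nothing assumed.  ADDITIVE (new names only, suffix `801`, namespace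
`Fermat.Agent.LT.T7.DO801`).

    dnOpFormC801 (F) : SM640.DnOpFormC640 F                   (VERBATIM, UNCONDITIONAL)

Spec: `T7/SM640/StepMDatSpec.lean` (helper640, sha256 3bc5afa1), byte-identical copy.
Inputs (byte-identical copies): `T3.R.rOpR_c` (station T3.18R, the operator of a pure tensor
with GIVEN local factors and GIVEN local scalars), `T3.R.H709.pureRegRC709`,
`T3.H830.actsOnR_sph830` (helper830: the local scalar on the class of parameter `s` is the
spherical transform), `T3.R.H981.locOfMeanRC981`, `T3.R.H247.inHaarRC247`,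
`T3.H732.root1_732`, `eq_zero_of_b_eq_zero732`, and the bridge of helper801
`T7/H801/EigBridgeQ.lean` (an eigenfunction `IsEigFnQ` of type `t` belongs to the class of its
circle means, `m_{T3.R} = m / 2π`).

Proof.  If `cd.b v = 0` for some `v ∈ P` the eigenfunction vanishes and `Ξ = 0`.  Otherwise
`Ξ i = κ₁ ∏_{v ∈ P} laurent (A i v) (z₁ v) (z₂ v) · χ`, `z₁, z₂` the roots of
`X² - (cd.a v) X + cd.b v`: `χ` belongs to the global class of
`locClassR t.wt (sphRad t.wt s ∘ cosh)` (the hypothesis on `cd.m` and the bridge), a test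
function `Fr i` of weight `t.wt` acts on this class by `sphTransR μr t.wt (Fr i) s`
(`actsOnR_sph830`), `rOpR_c` gives the operator of each pure tensor, and the operator of the sum
is the sum of the operators (continuous integrands of compact support: `pureRegRC709`).
-/

set_option autoImplicit false
set_option linter.unusedSectionVars false
set_option linter.style.haveILetI false

open AutomorphicForm IsDedekindDomain NumberField MeasureTheory

noncomputable section

namespace Fermat.Agent.LT.T7.DO801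

open Fermat.Agent.LT Fermat.Agent.LT.H556 Fermat.Agent.LT.H556.A0 Fermat.Agent.LT.T7
  Fermat.Agent.LT.T7.H305 Fermat.Agent.LT.T7.L2Q Fermat.Agent.LT.T7.H893
  Fermat.Agent.LT.T7.H962 Fermat.Agent.LT.T7.H732 Fermat.Agent.LT.T7.MQ298
  Fermat.Agent.LT.T7.CQ801 Fermat.Agent.LT.T7.PQ484 Fermat.Agent.LT.T7.BQ87
  Fermat.Agent.LT.T7.TB801 Fermat.Agent.LT.T7.EB801

attribute [local instance] Fermat.Agent.LT.T5.instMeasurableSpaceG

/-- The class `T3.R.IsMeanLevelR` only sees the eigenvalue functions on `t > 0`. -/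
theorem isMeanLevelR_congr801 {K : Type} [Field K] [NumberField K]
    {hR : ∀ w : InfinitePlace K, w.IsReal} {𝔫 : Ideal (𝓞 K)} {n : InfinitePlace K → ℤ}
    {m m' : InfinitePlace K → ℝ → ℂ} {φ : G K → ℂ}
    (h : ∀ (w : InfinitePlace K) (t : ℝ), 0 < t → m w t = m' w t)
    (hφ : T3.R.IsMeanLevelR K hR 𝔫 n m φ) : T3.R.IsMeanLevelR K hR 𝔫 n m' φ where
  cont := hφ.cont
  level_inv := hφ.level_inv
  arch_scalar := hφ.arch_scalar
  arch_compact := hφ.arch_compact
  mean := fun w t ht Y hY g => by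
    rw [← h w t ht]
    exact hφ.mean w t ht Y hY g

/-- **THE BRIDGE with a parameter**: an eigenfunction of the quadratic step of type `t` whose
eigenvalue functions at infinity are `2π sphRad t.wt s ∘ cosh` belongs to the global class of
the local classes of parameter `s` of helper830. -/
theorem isClassLevelR_sph801 (hR : ∀ w : InfinitePlace ℚ, w.IsReal) (t : QWt)
    {𝔫 : Ideal (𝓞 ℚ)} {r : G ℚ} {u : HeightOneSpectrum (𝓞 ℚ)} {χ : G ℚ → ℂ} {cd : EigData ℚ}
    {s : ℂ} (hχ : IsEigFnQ t 𝔫 r u χ cd)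
    (hm : ∀ (v : InfinitePlace ℚ) (r : ℝ), 0 < r →
      cd.m v r = ((2 * Real.pi : ℝ) : ℂ) * T6.sphRad t.wt s (Real.cosh r)) :
    T3.R.IsClassLevelR ℚ hR 𝔫
      (fun _ => T3.R.locClassR t.wt (T3.H830.mSphR830 t.wt s)) χ := by
  refine T3.R.H981.locOfMeanRC981 ℚ hR 𝔫 (fun _ => t.wt)
    (fun _ => T3.H830.mSphR830 t.wt s) χ
    (isMeanLevelR_congr801 (fun w r hr => ?_) (isMeanLevelR_of_eigFnQ801 hR t hχ))
  have hpi : ((2 * Real.pi : ℝ) : ℂ) ≠ 0 :=
    Complex.ofReal_ne_zero.2 (mul_ne_zero two_ne_zero Real.pi_ne_zero)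
  show cd.m w r / ((2 * Real.pi : ℝ) : ℂ) = T6.sphRad t.wt s (Real.cosh r)
  rw [hm w r hr, mul_div_cancel_left₀ _ hpi]

variable (F : Type) [Field F] [NumberField F]

/-- **LEAF SM.9 = DN-OP-FORM**, proved. -/
theorem dnOpFormC801 : SM640.DnOpFormC640 F := by
  classical
  letI : MeasurableSpace (GL (Fin 2) ℝ) := borel (GL (Fin 2) ℝ)
  intro _hs _hiq Φ _hcusp _hconst _hek B hB _hram 𝔫 _h𝔫 T₀ n _n₀ m _hlf c _hc D hD t χ cd s
    hχ hm
  obtain ⟨μr, hμr⟩ : ∃ μr : Measure (GL (Fin 2) ℝ), μr.IsHaarMeasure :=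
    T3.R.H247.inHaarRC247
  haveI := hμr
  have hμ : (toBase962_732 B).R.μ.IsHaarMeasure := hB.frame.frame.haar
  haveI := hμ
  haveI : BorelSpace (G ℚ) := ⟨rfl⟩
  obtain ⟨κ₁, -, hop⟩ := T3.R.rOpR_c ℚ ratReal87 (toBase962_732 B).R.μ hμ μr hμr 𝔫
    hD.frame_dn.level D.P hD.frame_dn.prime
  have hecke : ∀ v ∈ D.P, IsHeckeEigenAt χ v (cd.a v) (cd.b v) := fun v hv =>
    hχ.hecke v (hD.frame_dn.prime v hv)
  by_cases hb : ∃ v ∈ D.P, cd.b v = 0
  · obtain ⟨v, hv, hbv⟩ := hb
    have hecke' := hecke v hv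
    rw [hbv] at hecke'
    have hzero : ∀ g : G ℚ, χ g = 0 :=
      T3.H732.eq_zero_of_b_eq_zero732 ℚ (T3.inScalarUnif_u ℚ) hecke'
    refine ⟨μr, fun _ _ => 0, hμr, fun Fr _ x => ?_⟩
    show (∫ z, (∑ i : Fin D.N,
        T3.R.pureFnR ℚ ratReal87 𝔫 D.P (D.f₀ i) (fun _ => Fr i) z) * χ (x * z)
          ∂(toBase962_732 B).R.μ) = _
    simp only [hzero, mul_zero, integral_zero, Finset.sum_const_zero]
  · simp only [not_exists, not_and] at hb
    have hcls := isClassLevelR_sph801 ratReal87 t hχ hm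
    refine ⟨μr, fun i x => κ₁ * (∏ v ∈ D.P, T3.AS.laurent (D.A i v)
        (T3.H732.root1_732 (cd.a v) (cd.b v)) (T3.H732.root2_732 (cd.a v) (cd.b v))) * χ x,
      hμr, fun Fr hFr x => ?_⟩
    have hreg : ∀ i : Fin D.N,
        Continuous (T3.R.pureFnR ℚ ratReal87 𝔫 D.P (D.f₀ i) (fun _ => Fr i)) ∧
          HasCompactSupport (T3.R.pureFnR ℚ ratReal87 𝔫 D.P (D.f₀ i) (fun _ => Fr i)) :=
      fun i =>
        have h := T3.R.H709.pureRegRC709 ℚ ratReal87 𝔫 hD.frame_dn.level D.P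
          hD.frame_dn.prime (fun _ => t.wt) (D.f₀ i) (fun _ => Fr i)
          (fun v hv => (hD.sat_dn i v hv).bi_inv) (fun v hv => (hD.sat_dn i v hv).fin_supp)
          (fun _ => hFr i)
        ⟨h.1, h.2.1⟩
    have hint : ∀ i : Fin D.N, Integrable
        (fun z => T3.R.pureFnR ℚ ratReal87 𝔫 D.P (D.f₀ i) (fun _ => Fr i) z * χ (x * z))
        (toBase962_732 B).R.μ := by
      intro i
      refine Continuous.integrable_of_hasCompactSupport ?_ ?_
      · exact (hreg i).1.mul (hχ.inv.cusp.cont.comp (continuous_const.mul continuous_id))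
      · exact HasCompactSupport.mul_right (f' := fun z => χ (x * z)) (hreg i).2
    show (∫ z, (∑ i : Fin D.N,
        T3.R.pureFnR ℚ ratReal87 𝔫 D.P (D.f₀ i) (fun _ => Fr i) z) * χ (x * z)
          ∂(toBase962_732 B).R.μ) = _
    simp_rw [Finset.sum_mul]
    rw [integral_finsetSum _ (fun i _ => hint i)]
    refine Finset.sum_congr rfl fun i _ => ?_
    have h1 := hop (fun _ => t.wt) (D.A i) (fun _ => T6.sphTransR μr t.wt (Fr i) s)
      (fun _ => T3.R.locClassR t.wt (T3.H830.mSphR830 t.wt s)) (D.f₀ i) (fun _ => Fr i)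
      (fun v hv => (hD.sat_dn i v hv).bi_inv) (fun v hv => (hD.sat_dn i v hv).fin_supp)
      (fun v hv => (hD.sat_dn i v hv).eigen) (fun _ => hFr i)
      (fun _ => T3.H830.actsOnR_sph830 μr t.wt (Fr i) (hFr i) s) χ hcls cd.a cd.b
      (fun v => T3.H732.root1_732 (cd.a v) (cd.b v))
      (fun v => T3.H732.root2_732 (cd.a v) (cd.b v)) hecke
      (fun v _ => (T3.H732.roots_spec732 (cd.a v) (cd.b v)).1)
      (fun v _ => (T3.H732.roots_spec732 (cd.a v) (cd.b v)).2) hb x
    have hprod : (∏ _w : InfinitePlace ℚ, T6.sphTransR μr t.wt (Fr i) s)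
        = T6.sphTransR μr t.wt (Fr i) s :=
      Fintype.prod_subsingleton _ Rat.infinitePlace
    rw [hprod] at h1
    have hRT : (∫ z, T3.R.pureFnR ℚ ratReal87 𝔫 D.P (D.f₀ i) (fun _ => Fr i) z * χ (x * z)
          ∂(toBase962_732 B).R.μ)
        = T3.Rop ℚ (toBase962_732 B).R.μ
            (T3.R.pureFnR ℚ ratReal87 𝔫 D.P (D.f₀ i) (fun _ => Fr i)) χ x := by
      unfold T3.Rop
      refine integral_congr_ae (Filter.Eventually.of_forall fun y => ?_)
      exact mul_comm _ _
    rw [hRT, h1]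
    ring

/-- Check: the statement is the frozen Prop of helper640, verbatim. -/
example : Fermat.Agent.LT.T7.SM640.DnOpFormC640 F := dnOpFormC801 F

end Fermat.Agent.LT.T7.DO801

end
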